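import Fermat.Agent.LT.Cls.Hk
import Fermat.Agent.LT.Fou.LChar

set_option autoImplicit false

/-!
# From `HeckeAt` to classical representatives
-/

namespace Fermat.Agent.LT.Cls

open Matrix Filter NumberField Glob Glob.LocFam IsDedekindDomain Sp Fou
open scoped MatrixGroups

/-- the data of a Hecke operator are complete: `ϖ` generates the maximal ideal and `S` is a set of
representatives of `O_v / ϖ` -/
structure Full {F : Type*} [Field F] {ι : Type*} {L : LocFam F ι} {v : ι} (H : HData L v) :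
    Prop where
  nonunit : H.ϖ ∉ OU (L.O v)
  gen : ∀ x ∈ L.O v, (¬ ∃ y ∈ L.O v, x * y = 1) → ∃ y ∈ L.O v, x = H.ϖ * y
  inj : ∀ s ∈ H.S, ∀ t ∈ H.S, (∃ y ∈ L.O v, s - t = H.ϖ * y) → s = t
  surj : ∀ x ∈ L.O v, ∃ s ∈ H.S, ∃ y ∈ L.O v, x - s = H.ϖ * y

/-- representatives of `𝓞 / ϖ` -/
structure Reps {O : Type*} [CommRing O] (ϖ : O) {J : Type*} (R : Finset J) (b : J → O) : Prop where
  inj : ∀ i ∈ R, ∀ j ∈ R, ϖ ∣ b i - b j → i = j
  surj : ∀ x, ∃ j ∈ R, ϖ ∣ x - b j

variable {F : Type*} [Field F] [NumberField F] {U : (locK F).Level}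

theorem vl_ϖ_lt {ϖ : 𝓞 F} (h : Prime ϖ) : vl (plc h) ((locK F).loc (plc h) (ϖ : F)) < 1 := by
  rw [vl_loc_lt_one_iff]
  exact Ideal.mem_span_singleton_self _

/-- divisibility by `ϖ` is detected at the place -/
theorem dvd_of_vl_lt {ϖ : 𝓞 F} (h : Prime ϖ) {x : 𝓞 F}
    (hx : vl (plc h) ((locK F).loc (plc h) (x : F)) < 1) : ϖ ∣ x := by
  rw [vl_loc_lt_one_iff] at hx
  exact Ideal.mem_span_singleton.mp hx

theorem vl_unit {v : HeightOneSpectrum (𝓞 F)} {u : ((locK F).R v)ˣ} (hu : u ∈ OU ((locK F).O v)) :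
    vl v (u : (locK F).R v) = 1 := by
  refine le_antisymm hu.1 ?_
  have h1 : vl v (u : (locK F).R v) * vl v ((u⁻¹ : ((locK F).R v)ˣ) : (locK F).R v) = 1 := by
    rw [← map_mul, Units.mul_inv, map_one]
  by_contra hlt
  exact absurd h1 (mul_lt_one_of_lt_of_le (not_le.mp hlt) hu.2).ne

/-- the classical prime element is a unit multiple of the local one -/
theorem exists_unit {ϖ : 𝓞 F} (h : Prime ϖ) (H : HData (locK F) (plc h)) (hH : Full H) :
    ∃ u ∈ OU ((locK F).O (plc h)), (locK F).un (plc h) (uF h.ne_zero) = H.ϖ * u := by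
  -- `ϖ ∣ H.ϖ`
  have hlt : vl (plc h) (H.ϖ : (locK F).R (plc h)) < 1 := by
    refine lt_of_le_of_ne H.mem fun e => hH.nonunit ⟨H.mem, ?_⟩
    obtain ⟨y, hy, e1⟩ := isUnit_of_vl e
    rw [Units.inv_eq_of_mul_eq_one_right e1]
    exact hy
  obtain ⟨y, hy, e⟩ := hH.gen ((locK F).loc (plc h) (ϖ : F))
    (((locK F).isIntegral_iff _).mp ϖ.2 (plc h)) (by
      rintro ⟨y, hy, e⟩
      have h1 : vl (plc h) ((locK F).loc (plc h) (ϖ : F)) * vl (plc h) y = 1 := by rw [← map_mul, e, map_one]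
      exact absurd h1 (mul_lt_one_of_lt_of_le (vl_ϖ_lt h) hy).ne)
  -- the valuation of `y` is one
  have hy1 : vl (plc h) y = 1 := by
    refine le_antisymm hy (not_lt.1 fun hlt2 => ?_)
    -- then `ϖ` has valuation at most `exp (-2)`
    have h2 : vl (plc h) ((locK F).loc (plc h) (ϖ : F)) = (plc h).valuation F (ϖ : F) := vl_loc (plc h) _
    have h3 : (plc h).valuation F (ϖ : F) = WithZero.exp (-1 : ℤ) := by
      have h4 := (plc h).valuation_of_algebraMap (K := F) ϖ
      have h5 : (plc h).intValuation ϖ = WithZero.exp (-1 : ℤ) := by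
        exact (plc h).intValuation_singleton h.ne_zero rfl
      have : (plc h).valuation F (ϖ : F) = (plc h).intValuation ϖ := h4
      rw [this, h5]
    have key : ∀ z : WithZero (Multiplicative ℤ), z < 1 → z ≤ WithZero.exp (-1 : ℤ) := by
      intro z hz
      by_cases hz0 : z = 0
      · rw [hz0]; exact zero_le
      · obtain ⟨n, rfl⟩ : ∃ n : ℤ, z = WithZero.exp n := ⟨WithZero.log z, (WithZero.exp_log hz0).symm⟩
        rw [← WithZero.exp_zero, WithZero.exp_lt_exp] at hz
        rw [WithZero.exp_le_exp]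
        omega
    have h6 : vl (plc h) ((locK F).loc (plc h) (ϖ : F)) ≤ WithZero.exp (-2 : ℤ) := by
      rw [e, map_mul, show (-2 : ℤ) = -1 + -1 by norm_num, WithZero.exp_add]
      exact mul_le_mul' (key _ hlt) (key _ hlt2)
    rw [h2, h3, WithZero.exp_le_exp] at h6
    omega
  obtain ⟨z, hz, e2⟩ := isUnit_of_vl hy1
  refine ⟨⟨y, z, e2, by rw [mul_comm]; exact e2⟩, ⟨hy, hz⟩, ?_⟩
  apply Units.ext
  exact e

theorem mk_eq_of_mul {v : HeightOneSpectrum (𝓞 F)} (hU : U.U v = PO ((locK F).O v))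
    (g : (locK F).G v) {k : (locK F).G v} (hk : k ∈ PO ((locK F).O v)) :
    ((g * k : (locK F).G v) : (locK F).G v ⧸ U.U v) = ((g : (locK F).G v) : _) := by
  rw [QuotientGroup.eq, hU, _root_.mul_inv_rev, mul_assoc, inv_mul_cancel, mul_one]
  exact inv_mem hk

theorem setv_eq (v : HeightOneSpectrum (𝓞 F)) (g : (locK F).GA) (x : (locK F).G v) :
    setv (g • D.base U) v ((g.1 v * x : (locK F).G v) : (locK F).G v ⧸ U.U v) =
      (g * sgl v x) • D.base U := by
  apply D.ext
  intro w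
  by_cases hw : w = v
  · subst hw
    rw [setv_same]
    show _ = ((g.1 w * (sgl w x).1 w * 1 : (locK F).G w) : (locK F).G w ⧸ U.U w)
    rw [sgl_same, mul_one]
  · rw [setv_ne _ hw]
    show ((g.1 w * 1 : (locK F).G w) : (locK F).G w ⧸ U.U w) =
      ((g.1 w * (sgl v x).1 w * 1 : (locK F).G w) : (locK F).G w ⧸ U.U w)
    rw [sgl_ne hw, mul_one, mul_one]

/-- **From local to classical representatives.** -/
theorem HK_of_HeckeAt {ϖ : 𝓞 F} (h : Prime ϖ) (hU : U.U (plc h) = PO ((locK F).O (plc h)))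
    (H : HData (locK F) (plc h)) (hH : Full H) {lam : ℂ} {φ : HF F × D U → ℂ}
    (hφ : HeckeAt H lam φ) {m : 𝓞 F} (hm : ¬ ϖ ∣ m) {J : Type*} (R : Finset J) (b : J → 𝓞 F)
    (hR : Reps ϖ R b) :
    HK (plc h) (R.insertNone) (fun j : Option J => (locK F).emb (plc h)
      (j.elim (aMat (uF h.ne_zero))⁻¹ fun j => tri (uF h.ne_zero) 1 ((m : F) * (b j : F)))) lam φ := by
  classical
  obtain ⟨u, hu, eu⟩ := exists_unit h H hH
  intro p g
  have h1 := hφ p (g • D.base U) (g.1 (plc h)) (by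
    show ((g.1 (plc h) * 1 : (locK F).G (plc h)) : (locK F).G (plc h) ⧸ U.U (plc h)) = _
    rw [mul_one])
  rw [← h1, Finset.sum_insertNone, add_comm]
  simp only [Option.elim_none, Option.elim_some]
  -- congruent representatives give the same coset
  have hcong : ∀ x s : (locK F).R (plc h), (∃ y ∈ (locK F).O (plc h), x - s = H.ϖ * y) →
      ((g.1 (plc h) * (pN x * pA (H.ϖ * u)) : (locK F).G (plc h)) : (locK F).G (plc h) ⧸ U.U (plc h)) =
      ((g.1 (plc h) * (pN s * pA H.ϖ) : (locK F).G (plc h)) : (locK F).G (plc h) ⧸ U.U (plc h)) := by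
    rintro x s ⟨y, hy, e⟩
    have e1 : g.1 (plc h) * (pN x * pA (H.ϖ * u)) = (g.1 (plc h) * (pN s * pA H.ϖ)) * (pN y * pA u) := by
      have e2 : x = s + H.ϖ * y := by rw [← e]; ring
      rw [e2, pN_add, pA_mul]
      have e3 := pA_mul_pN H.ϖ y
      calc g.1 (plc h) * (pN s * pN (↑H.ϖ * y) * (pA H.ϖ * pA u))
          = g.1 (plc h) * (pN s * (pN (↑H.ϖ * y) * pA H.ϖ) * pA u) := by group
        _ = _ := by rw [← e3]; group
    rw [e1]
    exact mk_eq_of_mul hU _ (mul_mem (pN_mem_PO hy) (pA_mem_PO hu))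
  have etri : ∀ j, (locK F).emb (plc h) (tri (uF h.ne_zero) 1 ((m : F) * (b j : F))) =
      pN ((locK F).loc (plc h) ((m : F) * (b j : F))) * pA (H.ϖ * u) := by
    intro j
    rw [emb_tri, map_one, ← eu, pN, pA, ← MonoidHom.map_mul, tri_mul]
    congr 2
    · simp
    · simp
    · simp
  congr 1
  · -- the representatives `n(s) a(ϖ)`
    have hex : ∀ j, ∃ s ∈ H.S, ∃ y ∈ (locK F).O (plc h),
        (locK F).loc (plc h) ((m : F) * (b j : F)) - s = H.ϖ * y := by
      intro j
      have : (m : F) * (b j : F) = ((m * b j : 𝓞 F) : F) := by push_cast; rfl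
      rw [this]
      exact hH.surj _ (((locK F).isIntegral_iff _).mp (m * b j).2 (plc h))
    choose s hsS y hy hs using hex
    have hloc : ∀ x : 𝓞 F, (∃ y ∈ (locK F).O (plc h), (locK F).loc (plc h) (x : F) = H.ϖ * y) → ϖ ∣ x := by
      rintro x ⟨y, hy, e⟩
      apply dvd_of_vl_lt h
      rw [e, map_mul]
      refine mul_lt_one_of_lt_of_le ?_ hy
      refine lt_of_le_of_ne H.mem fun e => hH.nonunit ⟨H.mem, ?_⟩
      obtain ⟨y, hy, e1⟩ := isUnit_of_vl e
      rw [Units.inv_eq_of_mul_eq_one_right e1]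
      exact hy
    refine Finset.sum_bij (fun j _ => s j) (fun j _ => hsS j) ?_ ?_ ?_
    · intro i hi j hj e
      apply hR.inj i hi j hj
      have h2 : ϖ ∣ m * b i - m * b j := by
        apply hloc
        refine ⟨y i - y j, ((locK F).O (plc h)).sub_mem (hy i) (hy j), ?_⟩
        have e2 : ((m * b i - m * b j : 𝓞 F) : F) = (m : F) * (b i : F) - (m : F) * (b j : F) := by
          push_cast; rfl
        rw [e2, map_sub, mul_sub, ← hs i, ← hs j, e]
        ring
      rw [← mul_sub] at h2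
      exact (h.dvd_or_dvd h2).resolve_left hm
    · intro t ht
      -- approximate by an integral element
      obtain ⟨a, ha⟩ := (locK F).exists_int_near F (plc h) (H.S_mem t ht)
        (N := (Ideal.span {ϖ}).absNorm) (by
          rw [Ne, Ideal.absNorm_eq_zero_iff, Ideal.span_singleton_eq_bot]
          exact h.ne_zero)
      -- divide by `m` modulo `ϖ`
      have hmax : (Ideal.span {ϖ}).IsMaximal := (plc h).isMaximal
      obtain ⟨m', c, hm'⟩ : IsCoprime m ϖ := by
        rw [← Ideal.isCoprime_span_singleton_iff, Ideal.isCoprime_iff_sup_eq, sup_comm]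
        apply hmax.1.2
        refine lt_of_le_of_ne le_sup_left fun e => hm ?_
        have h1 : m ∈ Ideal.span {ϖ} := by
          rw [e]; exact Ideal.mem_sup_right (Ideal.mem_span_singleton_self _)
        exact Ideal.mem_span_singleton.mp h1
      obtain ⟨j, hj, hd⟩ := hR.surj (m' * a)
      refine ⟨j, hj, ?_⟩
      apply hH.inj _ (hsS j) t ht
      -- `s j ≡ m b_j ≡ m m' a ≡ a ≡ t`
      have h3 : ϖ ∣ a - m * b j := by
        obtain ⟨d, hd⟩ := hd
        exact ⟨c * a + m * d, by linear_combination (-a) * hm' + m * hd⟩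
      obtain ⟨d, hd⟩ := h3
      obtain ⟨z, hz, ez⟩ := ha
      obtain ⟨n, hn⟩ : ∃ n : 𝓞 F, (((Ideal.span {ϖ}).absNorm : ℕ) : 𝓞 F) = ϖ * n := by
        have := Ideal.absNorm_mem (Ideal.span {ϖ})
        exact Ideal.mem_span_singleton.mp this
      have eϖ : (locK F).loc (plc h) (ϖ : F) = H.ϖ * u := by
        have := congrArg (fun x : ((locK F).R (plc h))ˣ => (x : (locK F).R (plc h))) eu
        exact this
      have hO : ∀ x : 𝓞 F, (locK F).loc (plc h) (x : F) ∈ (locK F).O (plc h) := fun x =>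
        ((locK F).isIntegral_iff _).mp x.2 (plc h)
      have e4 : (locK F).loc (plc h) (a : F) - (locK F).loc (plc h) ((m : F) * (b j : F)) =
          H.ϖ * (u * (locK F).loc (plc h) (d : F)) := by
        rw [← map_sub]
        have e5 : (a : F) - (m : F) * (b j : F) = (ϖ : F) * (d : F) := by
          have := congrArg (algebraMap (𝓞 F) F) hd
          rw [map_sub, map_mul, map_mul] at this
          exact this
        rw [e5, map_mul, eϖ]
        ring
      have e6 : ((((Ideal.span {ϖ}).absNorm : ℕ) : (locK F).R (plc h))) =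
          H.ϖ * (u * (locK F).loc (plc h) (n : F)) := by
        have : (((Ideal.span {ϖ}).absNorm : ℕ) : F) = (ϖ : F) * (n : F) := by
          have := congrArg (algebraMap (𝓞 F) F) hn
          rw [map_mul, map_natCast] at this
          exact this
        have e7 := congrArg ((locK F).loc (plc h)) this
        rw [map_natCast, map_mul, eϖ] at e7
        rw [e7]
        ring
      refine ⟨u * (locK F).loc (plc h) (n : F) * z - u * (locK F).loc (plc h) (d : F) - y j, ?_, ?_⟩
      · exact ((locK F).O (plc h)).sub_mem (((locK F).O (plc h)).sub_mem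
          (((locK F).O (plc h)).mul_mem (((locK F).O (plc h)).mul_mem hu.1 (hO n)) hz)
          (((locK F).O (plc h)).mul_mem hu.1 (hO d))) (hy j)
      · rw [e6] at ez
        linear_combination ez - e4 - hs j
    · intro j hj
      rw [etri, ← hcong _ _ ⟨y j, hy j, hs j⟩, setv_eq]
  · -- the representative `a(ϖ)⁻¹`
    have e1 : (locK F).emb (plc h) (aMat (uF h.ne_zero))⁻¹ = pA H.ϖ⁻¹ * pA u⁻¹ := by
      rw [map_inv, Fou.emb_aMat, eu, ← pA_inv, ← pA_mul, _root_.mul_inv_rev, mul_comm]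
    rw [e1]
    have e2 : ((g.1 (plc h) * pA H.ϖ⁻¹ : (locK F).G (plc h)) : (locK F).G (plc h) ⧸ U.U (plc h)) =
        ((g.1 (plc h) * (pA H.ϖ⁻¹ * pA u⁻¹) : (locK F).G (plc h)) : (locK F).G (plc h) ⧸ U.U (plc h)) := by
      rw [← mul_assoc]
      exact (mk_eq_of_mul hU _ (pA_mem_PO (inv_mem hu))).symm
    rw [e2, setv_eq]

end Fermat.Agent.LT.Cls
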