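import Fermat.Agent.LT.Cls.Cusp

set_option autoImplicit false

/-!
# The field of third roots of unity: one complex place, class number one
-/

namespace Fermat.Agent.LT.Cls

open NumberField

variable (K : Type*) [Field K] [NumberField K] [IsCyclotomicExtension {3} ℚ K]

include K in
theorem tc3 : IsTotallyComplex K :=
  IsCyclotomicExtension.Rat.isTotallyComplex (n := 3) K (by norm_num)

theorem sub3 : Subsingleton (InfinitePlace K) := by
  have h1 : InfinitePlace.nrRealPlaces K = 0 :=
    IsCyclotomicExtension.Rat.nrRealPlaces_eq_zero (n := 3) K (by norm_num)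
  have h2 : InfinitePlace.nrComplexPlaces K = Nat.totient 3 / 2 :=
    IsCyclotomicExtension.Rat.nrComplexPlaces_eq_totient_div_two (n := 3) K
  have h3 := InfinitePlace.card_eq_nrRealPlaces_add_nrComplexPlaces K
  have h4 : Nat.totient 3 = 2 := by
    rw [Nat.totient_prime Nat.prime_three]
  rw [h1, h2, h4] at h3
  rw [← Fintype.card_le_one_iff_subsingleton, h3]

include K in
theorem pid3 : IsPrincipalIdealRing (𝓞 K) := IsCyclotomicExtension.Rat.three_pid K

variable {K}

theorem norm3 (w : InfinitePlace K) (ϖ : 𝓞 K) :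
    ((Ideal.span {ϖ}).absNorm : ℝ) = ‖w.embedding (ϖ : K)‖ ^ 2 := by
  have h1 := tc3 K
  have h2 := sub3 K
  exact (norm_embedding_sq w ϖ).symm

theorem norm3' (w : InfinitePlace K) (ϖ : 𝓞 K) :
    ‖w.embedding (ϖ : K)‖ = √((Ideal.span {ϖ}).absNorm : ℝ) := by
  rw [norm3 w, Real.sqrt_sq (norm_nonneg _)]

end Fermat.Agent.LT.Cls
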