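import Fermat.Agent.LT.Cls.Out
import Fermat.Agent.LT.Cls.Inst

set_option autoImplicit false
set_option linter.unusedSectionVars false

/-!
# FOU.3, final form
-/

namespace Fermat.Agent.LT.Cls

open MeasureTheory Complex Topology NumberField Sp Fou Set RS Glob LocFam IsDedekindDomain Matrix
open scoped Real MatrixGroups

variable {K : Type*} [Field K] [NumberField K]

/-- the function-level Hecke relation -/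
def HFun (i : K →+* ℂ) (N : ℕ) (φ : H3 → ℂ) (lam : 𝓞 K → ℝ) : Prop :=
  ∀ (ϖ : 𝓞 K) (l : ℕ), Prime ϖ → ¬ ϖ ∣ (N : 𝓞 K) → (N : 𝓞 K) ∣ ϖ - 1 → l.Prime →
    (Ideal.span {ϖ}).absNorm = l → ∀ (z : ℂ) (y : ℝ) (hy : 0 < y) (h1 : 0 < y / ‖i (ϖ : K)‖)
      (h2 : 0 < ‖i (ϖ : K)‖ * y),
    (∑ b ∈ Finset.range l, φ ⟨(z - N * b) / i (ϖ : K), y / ‖i (ϖ : K)‖, h1⟩) +
      φ ⟨i (ϖ : K) * z, ‖i (ϖ : K)‖ * y, h2⟩ = ((√(l : ℝ) * lam ϖ : ℝ) : ℂ) * φ ⟨z, y, hy⟩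

/-- the eigenvalues as a function of the prime elements -/
noncomputable def lamOf (mu : HeightOneSpectrum (𝓞 K) → ℝ) (ϖ : 𝓞 K) : ℝ :=
  open Classical in if h : Prime ϖ then mu (plc h) else 0

theorem lamOf_plc (mu : HeightOneSpectrum (𝓞 K) → ℝ) {ϖ : 𝓞 K} (h : Prime ϖ) :
    lamOf mu ϖ = mu (plc h) := dif_pos h

theorem lamOf_eq (mu : HeightOneSpectrum (𝓞 K) → ℝ) {v : HeightOneSpectrum (𝓞 K)} {ϖ : 𝓞 K}
    (h : v.asIdeal = Ideal.span {ϖ}) : lamOf mu ϖ = mu v := by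
  have h0 : ϖ ≠ 0 := by
    rintro rfl
    apply v.ne_bot
    rw [h, Ideal.span_singleton_eq_bot]
  have hp : Prime ϖ := (Ideal.span_singleton_prime h0).mp (h ▸ v.isPrime)
  rw [lamOf_plc mu hp]
  congr 1
  exact HeightOneSpectrum.ext h.symm

variable [IsCyclotomicExtension {3} ℚ K] [IsTotallyComplex K]

/-- **FOU.3** -/
theorem fou3 (w : InfinitePlace K) {U : (locK K).Level} {f0 : HF K × D U → ℂ} (hf0 : AutForm f0)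
    (hne : ∃ x, f0 x ≠ 0) {N0 : ℕ} (hN0 : N0 ≠ 0) {lam : 𝓞 K → ℝ}
    (hlev : ∀ (ϖ : 𝓞 K) (h : Prime ϖ), ¬ ϖ ∣ (N0 : 𝓞 K) →
      U.U (plc h) = PO ((locK K).O (plc h)))
    (hHk : ∀ (ϖ : 𝓞 K) (h : Prime ϖ), ¬ ϖ ∣ (N0 : 𝓞 K) →
      ∃ H : HData (locK K) (plc h), Full H ∧
        HeckeAt H (((√((Ideal.span {ϖ}).absNorm : ℝ) : ℝ) : ℂ) * ((lam ϖ : ℝ) : ℂ)) f0) :
    ∃ (N : ℕ) (φ : H3 → ℂ) (a : K → ℂ) (κ : 𝓞 K → ℂ), N0 ∣ N ∧ 3 ∣ N ∧ N ≠ 0 ∧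
      KForm w.embedding N φ a κ lam (fun t => K0 (4 * π * t)) ∧
      Bes (fun t => K0 (4 * π * t)) ∧ φ ≠ 0 ∧ Continuous φ ∧ Th.Harm.Mean φ ∧
      HFun w.embedding N φ lam := by
  have := sub3 K
  have := pid3 K
  obtain ⟨N, φ, a, κ, h0, h3, hN, hP⟩ := exists_pack w (norm3 w) hf0 hne hN0 hlev hHk
  refine ⟨N, φ, a, κ, h0, h3, hN, hP.kform, hP.bes, hP.ne, hP.cont, hP.mean, ?_⟩
  intro ϖ l h _ hd hl hn z y hy h1 h2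
  rw [Complex.ofReal_mul]
  exact hP.hecke ϖ h hd l hl hn z y hy

/-- **FOU.3**, eigenvalues indexed by the places -/
theorem fou3_places (w : InfinitePlace K) {U : (locK K).Level} {f0 : HF K × D U → ℂ}
    (hf0 : AutForm f0) (hne : ∃ x, f0 x ≠ 0) {N0 : ℕ} (hN0 : N0 ≠ 0)
    (mu : HeightOneSpectrum (𝓞 K) → ℝ)
    (hlev : ∀ v : HeightOneSpectrum (𝓞 K), (N0 : 𝓞 K) ∉ v.asIdeal →
      U.U v = PO ((locK K).O v))
    (hHk : ∀ v : HeightOneSpectrum (𝓞 K), (N0 : 𝓞 K) ∉ v.asIdeal →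
      ∃ H : HData (locK K) v, Full H ∧
        HeckeAt H (((√((v.asIdeal.absNorm : ℕ) : ℝ) : ℝ) : ℂ) * ((mu v : ℝ) : ℂ)) f0) :
    ∃ (N : ℕ) (φ : H3 → ℂ) (a : K → ℂ) (κ : 𝓞 K → ℂ), N0 ∣ N ∧ 3 ∣ N ∧ N ≠ 0 ∧
      KForm w.embedding N φ a κ (lamOf mu) (fun t => K0 (4 * π * t)) ∧
      Bes (fun t => K0 (4 * π * t)) ∧ φ ≠ 0 ∧ Continuous φ ∧ Th.Harm.Mean φ ∧
      HFun w.embedding N φ (lamOf mu) := by
  refine fou3 w hf0 hne hN0 (fun ϖ h hd => hlev _ ?_) fun ϖ h hd => ?_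
  · intro h'
    exact hd ((bad_plc_iff h).mp h')
  · rw [lamOf_plc mu h]
    exact hHk _ fun h' => hd ((bad_plc_iff h).mp h')

end Fermat.Agent.LT.Cls
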