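import Fermat.Agent.LT.Fou.AutForm

set_option autoImplicit false
set_option linter.unusedSectionVars false

/-!
# Pull-backs and sums of automorphic forms
-/

namespace Fermat.Agent.LT.Cls

open MeasureTheory Complex Topology NumberField Sp Fou
open scoped Real ComplexConjugate ContDiff

variable {F : Type*} [Field F] [NumberField F] [IsTotallyComplex F]
variable {D D' : Type*} [MulAction (GL (Fin 2) F) D] [MulAction (GL (Fin 2) F) D']

theorem pull {φ : HF F × D → ℂ} (h : AutForm φ) (pr : D' → D)
    (hpr : ∀ (g : GL (Fin 2) F) (d : D'), pr (g • d) = g • pr d) :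
    AutForm (fun x : HF F × D' => φ (x.1, pr x.2)) where
  cont d := h.cont (pr d)
  inv g p d := by
    show φ (g • p, pr (g • d)) = φ (p, pr d)
    rw [hpr]
    exact h.inv g p (pr d)
  bdd := by
    obtain ⟨C, hC⟩ := h.bdd
    exact ⟨C, fun x => hC _⟩
  eig w k hk hs p d := h.eig w k hk hs p (pr d)
  cusp p d := h.cusp p (pr d)

/-- the integrand of the eigenvalue equation is integrable -/
theorem integrable_eig {φ : HF F × D → ℂ} (h : IsInv φ) (w : InfinitePlace F) {k : ℝ → ℝ}
    (hk : Continuous k) (hs : HasCompactSupport k) (p : HF F) (d : D) :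
    Integrable (fun q : H3 => k (H3.cd (p w) q) • φ (upd p w q, d)) := by
  obtain ⟨R, -, hR⟩ := H3.exists_R hs
  refine Continuous.integrable_of_hasCompactSupport ?_ ?_
  · exact (hk.comp (H3.continuous_cd_right (p w))).smul
      ((h.cont d).comp ((continuous_upd w).comp (continuous_const.prodMk continuous_id)))
  · refine HasCompactSupport.of_support_subset_isCompact (H3.isCompact_ball (p w) R) ?_
    intro q hq
    by_contra hn
    apply hq
    show k (H3.cd (p w) q) • _ = (0 : ℂ)
    rw [hR _ (not_le.mp hn), zero_smul]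

variable [FinPart F D]

theorem cof_lin {ι : Type*} (s : Finset ι) (c : ι → ℂ) {φ : ι → HF F × D → ℂ}
    (h : ∀ i ∈ s, IsInv (φ i)) (ξ : F) (p : HF F) (d : D) :
    cof (fun x => ∑ i ∈ s, c i * φ i x) ξ p d = ∑ i ∈ s, c i * cof (φ i) ξ p d := by
  obtain ⟨N, hN, hd⟩ := exists_Lvl (F := F) d
  unfold cof
  rw [fc_sum hN s (fun i v => c i * φ i (tra v p, d)) (fun i hi => ((h i hi).per hd p).const_mul _)]
  exact Finset.sum_congr rfl fun i hi => fc_const_mul hN ((h i hi).per hd p) _ _

theorem AutForm_lin {ι : Type*} (s : Finset ι) (c : ι → ℂ) {φ : ι → HF F × D → ℂ}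
    (h : ∀ i ∈ s, AutForm (φ i)) : AutForm (fun x => ∑ i ∈ s, c i * φ i x) where
  cont d := continuous_finsetSum _ fun i hi => continuous_const.mul ((h i hi).cont d)
  inv g p d := Finset.sum_congr rfl fun i hi => by rw [(h i hi).inv]
  bdd := by
    have h1 : ∀ i, ∃ C : ℝ, i ∈ s → ∀ x, ‖φ i x‖ ≤ C := by
      intro i
      by_cases hi : i ∈ s
      · obtain ⟨C, hC⟩ := (h i hi).bdd
        exact ⟨C, fun _ => hC⟩
      · exact ⟨0, fun h => absurd h hi⟩
    choose C hC using h1
    refine ⟨∑ i ∈ s, ‖c i‖ * C i, fun x => (norm_sum_le _ _).trans (Finset.sum_le_sum fun i hi => ?_)⟩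
    rw [norm_mul]
    exact mul_le_mul_of_nonneg_left (hC i hi x) (norm_nonneg _)
  eig w k hk hs p d := by
    simp only [Finset.smul_sum]
    have e : ∀ (i : ι) (q : H3), k (H3.cd (p w) q) • (c i * φ i (upd p w q, d)) =
        c i * (k (H3.cd (p w) q) • φ i (upd p w q, d)) := fun i q => (mul_smul_comm _ _ _).symm
    simp only [e]
    rw [integral_finsetSum _ fun i hi =>
      (integrable_eig (h i hi).toIsInv w hk.continuous hs p d).const_mul _, Finset.mul_sum]
    refine Finset.sum_congr rfl fun i hi => ?_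
    rw [integral_const_mul, (h i hi).eig w k hk hs p d]
    ring
  cusp p d := by
    rw [cof_lin s c (fun i hi => (h i hi).toIsInv)]
    exact Finset.sum_eq_zero fun i hi => by rw [(h i hi).cusp, mul_zero]

end Fermat.Agent.LT.Cls
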