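import Fermat.Agent.LT.H3.K0
import Fermat.Agent.LT.RS.Def

/-!
# The Bessel factor of the Fourier expansion satisfies `RS.Bes`
-/

set_option autoImplicit false

open Real

namespace Fermat.Agent.LT.Cls

theorem bes_K0 : RS.Bes (fun t => K0 (4 * π * t)) where
  pos := fun t ht => K0_pos (by positivity)
  anti := fun s t hs hst => by
    have h : 4 * π * s ≤ 4 * π * t := mul_le_mul_of_nonneg_left hst (by positivity)
    exact K0_antitone (Set.mem_Ioi.mpr (by positivity)) (Set.mem_Ioi.mpr (by
      have := hs.trans_le hst; positivity)) h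
  bd := by
    refine ⟨25, fun t ht => ?_⟩
    have hx : 0 < 4 * π * t := by positivity
    have h1 := K0_le hx
    have hs : √(π / (2 * (4 * π * t))) * t ^ (1 / 2 : ℝ) ≤ 1 := by
      rw [← Real.sqrt_eq_rpow, ← Real.sqrt_mul (by positivity)]
      have : π / (2 * (4 * π * t)) * t = 1 / 8 := by
        have hp := Real.pi_pos
        field_simp
        norm_num
      rw [this]
      apply Real.sqrt_le_one.mpr
      norm_num
    have hk : K0 (4 * π * t) * t ^ (1 / 2 : ℝ) ≤ Real.exp (-(4 * π * t)) := by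
      calc K0 (4 * π * t) * t ^ (1 / 2 : ℝ)
          ≤ (Real.exp (-(4 * π * t)) * √(π / (2 * (4 * π * t)))) * t ^ (1 / 2 : ℝ) := by
            gcongr
        _ = Real.exp (-(4 * π * t)) * (√(π / (2 * (4 * π * t))) * t ^ (1 / 2 : ℝ)) := by ring
        _ ≤ Real.exp (-(4 * π * t)) * 1 := by gcongr
        _ = _ := mul_one _
    have he1 : Real.exp (-(4 * π * t)) ≤ 1 := Real.exp_le_one_iff.mpr (by linarith)
    constructor
    · linarith
    · have h2 : t ^ 4 = t ^ (1 / 2 : ℝ) * t ^ (7 / 2 : ℝ) := by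
        rw [← Real.rpow_add ht, ← Real.rpow_natCast]
        congr 1
        norm_num
      have h3 : t ^ (7 / 2 : ℝ) ≤ 1 + t ^ 4 := by
        rcases le_total t 1 with h | h
        · have := Real.rpow_le_one ht.le h (by norm_num : (0 : ℝ) ≤ 7 / 2)
          have h4 : 0 ≤ t ^ 4 := by positivity
          linarith
        · have h5 : t ^ (7 / 2 : ℝ) ≤ t ^ (4 : ℝ) :=
            Real.rpow_le_rpow_of_exponent_le h (by norm_num)
          have h6 : t ^ (4 : ℝ) = t ^ (4 : ℕ) := by
            rw [← Real.rpow_natCast]; norm_num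
          rw [h6] at h5
          linarith
      have h4 : Real.exp (-(4 * π * t)) * t ^ 4 ≤ 24 := by
        have h5 := Real.pow_div_factorial_le_exp t ht.le 4
        have h6 : Real.exp t ≤ Real.exp (4 * π * t) := by
          apply Real.exp_le_exp.mpr
          nlinarith [Real.pi_gt_three]
        have h7 : (Nat.factorial 4 : ℝ) = 24 := by norm_num [Nat.factorial]
        rw [h7] at h5
        rw [Real.exp_neg, inv_mul_le_iff₀ (Real.exp_pos _)]
        linarith
      have h8 : (0 : ℝ) ≤ t ^ (7 / 2 : ℝ) := by positivity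
      calc K0 (4 * π * t) * t ^ 4 = (K0 (4 * π * t) * t ^ (1 / 2 : ℝ)) * t ^ (7 / 2 : ℝ) := by
            rw [h2]; ring
        _ ≤ Real.exp (-(4 * π * t)) * t ^ (7 / 2 : ℝ) := by gcongr
        _ ≤ Real.exp (-(4 * π * t)) * (1 + t ^ 4) := by gcongr
        _ = Real.exp (-(4 * π * t)) + Real.exp (-(4 * π * t)) * t ^ 4 := by ring
        _ ≤ 25 := by linarith

end Fermat.Agent.LT.Cls
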