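import Fermat.Agent.LT.Cls.Decomp
import Fermat.Agent.LT.Cls.AF

set_option autoImplicit false

/-!
# Decomposition under `(𝓞/N)ˣ`
-/

namespace Fermat.Agent.LT.Cls

open Matrix Filter NumberField Glob Glob.LocFam IsDedekindDomain
open scoped MatrixGroups

section Abstract

variable {G : Type*} [CommGroup G] [Finite G]

instance : Finite (G →* ℂˣ) := by
  obtain ⟨e⟩ := CommGroup.monoidHom_mulEquiv_of_hasEnoughRootsOfUnity G ℂ
  exact Finite.of_equiv G e.symm.toEquiv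

theorem sum_hom_eq_zero [Fintype (G →* ℂˣ)] {c : G} (hc : c ≠ 1) :
    ∑ χ : G →* ℂˣ, ((χ c : ℂˣ) : ℂ) = 0 := by
  obtain ⟨ψ, hψ⟩ := CommGroup.exists_apply_ne_one_of_hasEnoughRootsOfUnity G ℂ hc
  have h1 : ∑ χ : G →* ℂˣ, (((ψ * χ) c : ℂˣ) : ℂ) = ∑ χ : G →* ℂˣ, ((χ c : ℂˣ) : ℂ) :=
    Fintype.sum_equiv (Equiv.mulLeft ψ) _ _ fun χ => rfl
  have h2 : ((ψ c : ℂˣ) : ℂ) * ∑ χ : G →* ℂˣ, ((χ c : ℂˣ) : ℂ) =
      ∑ χ : G →* ℂˣ, ((χ c : ℂˣ) : ℂ) := by
    rw [Finset.mul_sum]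
    refine Eq.trans (Finset.sum_congr rfl fun χ _ => ?_) h1
    rw [MonoidHom.mul_apply, Units.val_mul]
  have h3 : (((ψ c : ℂˣ) : ℂ) - 1) * ∑ χ : G →* ℂˣ, ((χ c : ℂˣ) : ℂ) = 0 := by
    rw [sub_mul, h2, one_mul, sub_self]
  rcases mul_eq_zero.mp h3 with h | h
  · exact absurd (Units.ext (by rw [Units.val_one]; exact sub_eq_zero.mp h)) hψ
  · exact h

theorem exists_char [Fintype G] (u : G → ℂ) (h : u 1 ≠ 0) :
    ∃ χ : G →* ℂˣ, ∑ c, (((χ c)⁻¹ : ℂˣ) : ℂ) * u c ≠ 0 := by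
  classical
  have := Fintype.ofFinite (G →* ℂˣ)
  by_contra hcon
  push Not at hcon
  have h1 : ∑ χ : G →* ℂˣ, ∑ c, (((χ c)⁻¹ : ℂˣ) : ℂ) * u c = 0 :=
    Finset.sum_eq_zero fun χ _ => hcon χ
  rw [Finset.sum_comm] at h1
  have h2 : ∀ c : G, ∑ χ : G →* ℂˣ, (((χ c)⁻¹ : ℂˣ) : ℂ) * u c =
      if c = 1 then (Fintype.card (G →* ℂˣ) : ℂ) * u 1 else 0 := by
    intro c
    rw [← Finset.sum_mul]
    split_ifs with hc
    · subst hc
      simp
    · have : ∑ χ : G →* ℂˣ, (((χ c)⁻¹ : ℂˣ) : ℂ) = 0 := by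
        rw [← sum_hom_eq_zero (inv_ne_one.mpr hc)]
        exact Finset.sum_congr rfl fun χ _ => by rw [map_inv]
      rw [this, zero_mul]
  rw [Finset.sum_congr rfl fun c _ => h2 c, Finset.sum_ite_eq' Finset.univ (1 : G)] at h1
  simp only [Finset.mem_univ, if_true] at h1
  rcases mul_eq_zero.mp h1 with h3 | h3
  · have : Fintype.card (G →* ℂˣ) ≠ 0 := Fintype.card_ne_zero
    exact this (by exact_mod_cast h3)
  · exact h h3

end Abstract

variable {F : Type*} [Field F] [NumberField F] {N : ℕ} (hN : N ≠ 0)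

/-- the space with principal level -/
abbrev DN (F : Type*) [Field F] [NumberField F] {N : ℕ} (hN : N ≠ 0) := D (pL (locK F) N hN)

/-- the base point -/
noncomputable abbrev bN (F : Type*) [Field F] [NumberField F] {N : ℕ} (hN : N ≠ 0) : DN F hN :=
  D.base (pL (locK F) N hN)

/-- right translation by `diag(a, 1)` at the bad places -/
noncomputable def rho {a : Fˣ} (ha : UnN N a) : DN F hN → DN F hN :=
  rmap (nrm_pL hN (tN_mem_PO ha))

theorem rho_smul {a : Fˣ} (ha : UnN N a) (g : GL (Fin 2) F) (x : DN F hN) :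
    rho hN ha (g • x) = g • rho hN ha x := rmap_smul_GL _ g x

theorem rho_GA_smul {a : Fˣ} (ha : UnN N a) (g : (locK F).GA) (x : DN F hN) :
    rho hN ha (g • x) = g • rho hN ha x := rmap_smul _ g x

theorem rho_base {a : Fˣ} (ha : UnN N a) : rho hN ha (bN F hN) = tN N a • bN F hN :=
  rmap_base _

theorem UnN.mul {a b : Fˣ} (ha : UnN N a) (hb : UnN N b) : UnN N (a * b) := by
  intro v hv
  rw [map_mul]
  exact mul_mem (ha v hv) (hb v hv)

theorem UnN.one : UnN N (1 : Fˣ) := by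
  intro v _
  rw [map_one]
  exact one_mem _

theorem UnN.inv {a : Fˣ} (ha : UnN N a) : UnN N a⁻¹ := by
  intro v hv
  rw [map_inv]
  exact inv_mem (ha v hv)

theorem rho_rho {a b : Fˣ} (ha : UnN N a) (hb : UnN N b) (x : DN F hN) :
    rho hN hb (rho hN ha x) = rho hN (ha.mul hb) x := by
  have h := rmap_rmap (nrm_pL (L := locK F) hN (tN_mem_PO ha)) (nrm_pL (L := locK F) hN (tN_mem_PO hb))
    (nrm_pL hN (fun v => mul_mem (tN_mem_PO ha v) (tN_mem_PO hb v))) x
  have h2 := rmap_congr (nrm_pL (L := locK F) hN (h := tN N a * tN N b)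
    (fun v => mul_mem (tN_mem_PO ha v) (tN_mem_PO hb v))) (nrm_pL hN (tN_mem_PO (ha.mul hb)))
    (by rw [map_mul]) x
  exact h.trans h2

/-- congruent elements have the same translation -/
theorem rho_congr {a b : Fˣ} (ha : UnN N a) (hb : UnN N b)
    (h : ∀ v, Bad F N v → (locK F).loc v ((b : F) - (a : F)) ∈ NO ((locK F).O v) N)
    (x : DN F hN) : rho hN ha x = rho hN hb x := by
  apply rmap_congr
  rw [GA_smul_base_eq_iff]
  intro v
  show ((tN N a).1 v)⁻¹ * (tN N b).1 v ∈ PK ((locK F).O v) N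
  by_cases hv : Bad F N v
  · rw [tN_bad hv, tN_bad hv, emb_aMat, emb_aMat, ← map_inv, ← map_mul]
    apply mk_mem_PK
    refine inv_mul_mem_KN (tri_mem (ha v hv) (one_mem _) (zero_mem _))
      (tri_mem (hb v hv) (one_mem _) (zero_mem _)) fun i j => ?_
    have h1 := h v hv
    rw [map_sub] at h1
    rw [tri_coe, tri_coe]
    fin_cases i <;> fin_cases j
    · exact h1
    · simp [zero_mem]
    · simp [zero_mem]
    · simp [zero_mem]
  · rw [tN_good hv, tN_good hv, inv_one, one_mul]; exact one_mem _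

/-- the finite group -/
abbrev CN (F : Type*) [Field F] [NumberField F] (N : ℕ) : Type _ :=
  (𝓞 F ⧸ Ideal.span {(N : 𝓞 F)})ˣ

include hN in
theorem finite_CN : Finite (CN F N) := by
  have : Finite (𝓞 F ⧸ Ideal.span {(N : 𝓞 F)}) := by
    refine Ideal.finiteQuotientOfFreeOfNeBot _ ?_
    rw [ne_eq, Ideal.span_singleton_eq_bot]
    exact_mod_cast hN
  infer_instance

omit [NumberField F] in
theorem isCoprime_iff_isUnit (a : 𝓞 F) : IsCoprime a (N : 𝓞 F) ↔
    IsUnit (Ideal.Quotient.mk (Ideal.span {(N : 𝓞 F)}) a) := by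
  constructor
  · rintro ⟨x, y, h⟩
    refine IsUnit.of_mul_eq_one (Ideal.Quotient.mk _ x) ?_
    rw [← map_mul, ← map_one (Ideal.Quotient.mk (Ideal.span {(N : 𝓞 F)})), Ideal.Quotient.eq,
      Ideal.mem_span_singleton]
    exact ⟨-y, by linear_combination h⟩
  · intro h
    obtain ⟨y, hy⟩ := h.exists_right_inv
    obtain ⟨x, rfl⟩ := Ideal.Quotient.mk_surjective y
    rw [← map_mul, ← map_one (Ideal.Quotient.mk (Ideal.span {(N : 𝓞 F)})), Ideal.Quotient.eq,
      Ideal.mem_span_singleton] at hy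
    obtain ⟨z, hz⟩ := hy
    exact ⟨x, -z, by linear_combination hz⟩

include hN in
theorem exists_lift (c : CN F N) : ∃ a : 𝓞 F, (a : F) ≠ 0 ∧
    Ideal.Quotient.mk (Ideal.span {(N : 𝓞 F)}) a = c := by
  obtain ⟨a, ha⟩ := Ideal.Quotient.mk_surjective (c : 𝓞 F ⧸ Ideal.span {(N : 𝓞 F)})
  by_cases h0 : a = 0
  · refine ⟨(N : 𝓞 F), by simpa using hN, ?_⟩
    rw [← ha, h0, Ideal.Quotient.eq, sub_zero]
    exact Ideal.mem_span_singleton_self _
  · exact ⟨a, by simpa using h0, ha⟩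

/-- the chosen lift -/
noncomputable def lft (c : CN F N) : 𝓞 F := (exists_lift hN c).choose

theorem lft_ne (c : CN F N) : (lft hN c : F) ≠ 0 := (exists_lift hN c).choose_spec.1

theorem mk_lft (c : CN F N) : Ideal.Quotient.mk (Ideal.span {(N : 𝓞 F)}) (lft hN c) = c :=
  (exists_lift hN c).choose_spec.2

theorem lft_coprime (c : CN F N) : IsCoprime (lft hN c) (N : 𝓞 F) := by
  rw [isCoprime_iff_isUnit, mk_lft]
  exact c.isUnit

theorem lft_unN (c : CN F N) : UnN N (Units.mk0 (lft hN c : F) (lft_ne hN c)) :=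
  unN_of_isCoprime (lft_coprime hN c) _

/-- the translation attached to a class -/
noncomputable def rc (c : CN F N) : DN F hN → DN F hN := rho hN (lft_unN hN c)

theorem rc_smul (c : CN F N) (g : GL (Fin 2) F) (x : DN F hN) : rc hN c (g • x) = g • rc hN c x :=
  rho_smul hN _ g x

theorem rho_congr' {a b : 𝓞 F} (ha0 : (a : F) ≠ 0) (hb0 : (b : F) ≠ 0)
    (ha : UnN N (Units.mk0 (a : F) ha0)) (hb : UnN N (Units.mk0 (b : F) hb0))
    (h : Ideal.Quotient.mk (Ideal.span {(N : 𝓞 F)}) a = Ideal.Quotient.mk _ b)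
    (x : DN F hN) : rho hN ha x = rho hN hb x := by
  apply rho_congr
  intro v _
  rw [eq_comm, Ideal.Quotient.eq, Ideal.mem_span_singleton] at h
  have := loc_mem_NO h v
  have e : ((b - a : 𝓞 F) : F) = (b : F) - (a : F) := by push_cast; rfl
  rw [e] at this
  exact this

/-- the translation by an integral element prime to `N` is the translation by its class -/
theorem rho_eq_rc {a : 𝓞 F} (ha0 : (a : F) ≠ 0) (ha : UnN N (Units.mk0 (a : F) ha0)) {c : CN F N}
    (hc : Ideal.Quotient.mk (Ideal.span {(N : 𝓞 F)}) a = c) (x : DN F hN) :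
    rho hN ha x = rc hN c x :=
  rho_congr' hN ha0 (lft_ne hN c) ha _ (by rw [hc, mk_lft]) x

theorem rc_rc (c c' : CN F N) (x : DN F hN) : rc hN c' (rc hN c x) = rc hN (c * c') x := by
  unfold rc
  rw [rho_rho]
  have h0 : ((lft hN c * lft hN c' : 𝓞 F) : F) ≠ 0 := by
    have e : ((lft hN c * lft hN c' : 𝓞 F) : F) = (lft hN c : F) * (lft hN c' : F) := by
      push_cast; rfl
    rw [e]
    exact mul_ne_zero (lft_ne hN c) (lft_ne hN c')
  have h1 : Units.mk0 (lft hN c : F) (lft_ne hN c) * Units.mk0 (lft hN c' : F) (lft_ne hN c') =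
      Units.mk0 ((lft hN c * lft hN c' : 𝓞 F) : F) h0 := by
    apply Units.ext
    push_cast
    rfl
  have h2 : UnN N (Units.mk0 ((lft hN c * lft hN c' : 𝓞 F) : F) h0) := by
    rw [← h1]; exact (lft_unN hN c).mul (lft_unN hN c')
  have h3 := rho_congr' hN h0 (lft_ne hN (c * c')) h2 (lft_unN hN (c * c')) (by
    rw [map_mul, mk_lft, mk_lft, mk_lft, Units.val_mul]) x
  rw [← h3]
  congr 1

theorem rc_one (x : DN F hN) : rc hN 1 x = x := by
  have h0 : ((1 : 𝓞 F) : F) ≠ 0 := by simp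
  have e : Units.mk0 ((1 : 𝓞 F) : F) h0 = 1 := by apply Units.ext; simp
  have h1 : UnN N (Units.mk0 ((1 : 𝓞 F) : F) h0) := by rw [e]; exact UnN.one
  rw [← rho_eq_rc hN h0 h1 (c := 1) (by rw [map_one, Units.val_one]) x]
  obtain ⟨g, rfl, -⟩ := D.exists_eq_smul_base x
  rw [rho_GA_smul]
  congr 1
  rw [rho_base, e, map_one, one_smul]

end Fermat.Agent.LT.Cls
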