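import Fermat.Agent.LT.Cls.Char

set_option autoImplicit false
set_option linter.style.haveILetI false

/-!
# The `χ`-component of an automorphic form
-/

namespace Fermat.Agent.LT.Cls

open Matrix Filter NumberField Glob Glob.LocFam IsDedekindDomain Sp Fou
open scoped MatrixGroups

variable {F : Type*} [Field F] [NumberField F] {N : ℕ} (hN : N ≠ 0)

/-- one class -/
theorem exists_rc [IsPrincipalIdealRing (𝓞 F)] (x : DN F hN) :
    ∃ (γ : GL (Fin 2) F) (c : CN F N), x = γ • rc hN c (bN F hN) := by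
  obtain ⟨g, rfl, -⟩ := D.exists_eq_smul_base x
  obtain ⟨γ, a, ha0, ha, e⟩ := exists_decomp hN g
  have h := (isCoprime_iff_isUnit a).mp ha
  refine ⟨γ, h.unit, ?_⟩
  rw [e, ← rho_eq_rc hN ha0 (unN_of_isCoprime ha ha0) (c := h.unit) h.unit_spec.symm, rho_base]

open Classical in
/-- the `χ`-component -/
noncomputable def fchi (f : HF F × DN F hN → ℂ) (χ : CN F N →* ℂˣ) : HF F × DN F hN → ℂ :=
  letI := finite_CN (F := F) hN
  letI := Fintype.ofFinite (CN F N)
  fun x => ∑ c : CN F N, (((χ c)⁻¹ : ℂˣ) : ℂ) * f (x.1, rc hN c x.2)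

theorem fchi_rc (f : HF F × DN F hN → ℂ) (χ : CN F N →* ℂˣ) (c : CN F N) (p : HF F)
    (x : DN F hN) : fchi hN f χ (p, rc hN c x) = ((χ c : ℂˣ) : ℂ) * fchi hN f χ (p, x) := by
  letI := finite_CN (F := F) hN
  letI := Fintype.ofFinite (CN F N)
  show ∑ c' : CN F N, (((χ c')⁻¹ : ℂˣ) : ℂ) * f (p, rc hN c' (rc hN c x)) =
    ((χ c : ℂˣ) : ℂ) * ∑ c' : CN F N, (((χ c')⁻¹ : ℂˣ) : ℂ) * f (p, rc hN c' x)
  rw [Finset.mul_sum]
  refine Fintype.sum_equiv (Equiv.mulLeft c) _ _ fun c' => ?_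
  rw [rc_rc, Equiv.coe_mulLeft, map_mul, _root_.mul_inv_rev, Units.val_mul, ← mul_assoc,
    mul_left_comm, Units.mul_inv, mul_one]

variable [IsTotallyComplex F]

theorem autForm_fchi {f : HF F × DN F hN → ℂ} (h : AutForm f) (χ : CN F N →* ℂˣ) :
    AutForm (fchi hN f χ) := by
  letI := finite_CN (F := F) hN
  letI := Fintype.ofFinite (CN F N)
  exact AutForm_lin Finset.univ (fun c => (((χ c)⁻¹ : ℂˣ) : ℂ))
    (φ := fun c x => f (x.1, rc hN c x.2)) fun c _ => pull h (rc hN c) (rc_smul hN c)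

/-- some component does not vanish at the base point -/
theorem exists_fchi [IsPrincipalIdealRing (𝓞 F)] {f : HF F × DN F hN → ℂ} (h : AutForm f)
    (hne : ∃ x, f x ≠ 0) : ∃ (χ : CN F N →* ℂˣ) (p : HF F), fchi hN f χ (p, bN F hN) ≠ 0 := by
  letI := finite_CN (F := F) hN
  letI := Fintype.ofFinite (CN F N)
  obtain ⟨⟨p, x⟩, hx⟩ := hne
  obtain ⟨χ, hχ⟩ := exists_char (fun c : CN F N => f (p, rc hN c x)) (by rwa [rc_one])
  obtain ⟨γ, c, e⟩ := exists_rc hN x
  refine ⟨χ, γ⁻¹ • p, fun h0 => ?_⟩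
  apply hχ
  show fchi hN f χ (p, x) = 0
  rw [e, (autForm_fchi hN h χ).toIsInv.inv_left, fchi_rc, h0, mul_zero]

include hN in
omit [IsTotallyComplex F] in
/-- the values of the characters are of absolute value one -/
theorem norm_chi (χ : CN F N →* ℂˣ) (c : CN F N) : ‖((χ c : ℂˣ) : ℂ)‖ = 1 := by
  have := finite_CN (F := F) hN
  have h1 : ((χ c : ℂˣ) : ℂ) ^ Nat.card (CN F N) = 1 := by
    rw [← Units.val_pow_eq_pow_val, ← map_pow, pow_card_eq_one', map_one, Units.val_one]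
  exact Complex.norm_eq_one_of_pow_eq_one h1 Nat.card_pos.ne'

end Fermat.Agent.LT.Cls
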