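import Fermat.Agent.LT.Cls.Exp
import Fermat.Agent.LT.RS.Expand

set_option autoImplicit false
set_option linter.unusedSectionVars false

/-!
# Fourier expansion over `ℚ(√-3)` in classical coordinates
-/

namespace Fermat.Agent.LT.Cls

open MeasureTheory Complex Topology NumberField Sp Fou Set RS
open scoped Real ComplexConjugate ContDiff

variable {K : Type*} [Field K] [NumberField K] [IsCyclotomicExtension {3} ℚ K]
  [IsTotallyComplex K] [Subsingleton (InfinitePlace K)] (w : InfinitePlace K)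

/-- classical coordinates -/
noncomputable def cr2 (N : ℕ) (x : Fin 2 → ℝ) : InfinitePlace K → ℂ :=
  fun _ => (N : ℂ) * (x 0 + x 1 * io w.embedding (wK K))

theorem continuous_cr2 (N : ℕ) : Continuous (cr2 w N) := by
  unfold cr2
  fun_prop

theorem ev_dpt {N : ℕ} (hN : 0 < N) (m : Fin 2 → ℤ) (x : Fin 2 → ℝ) :
    ev (dpt K N m) (cr2 w N x) = ee m x := by
  unfold ev ee
  rw [trV_one w]
  congr 1
  have h := tr_dpt w.embedding hN m x
  rw [Pi.mul_apply, emb_apply, cr2, h, Fin.sum_univ_two]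
  push_cast
  ring

include w in
/-- the dual lattice -/
theorem inD_of_isDual {N : ℕ} {ξ : K} (h : IsDual N ξ) : InD N ξ := by
  set i := w.embedding with hi
  obtain ⟨h1, h2⟩ := wc_facts (K := K) i
  set η : K := ξ * N with hη
  have him : (io i (wK K)).im ≠ 0 := by
    intro h0; rw [h0] at h2; norm_num at h2
  -- coordinates of `i η · i δ`
  set X : ℂ := i η * io i (del K) with hX
  set B : ℝ := X.im / (io i (wK K)).im with hB
  set A : ℝ := X.re - B * (io i (wK K)).re with hA
  have hXeq : X = (A : ℂ) + B * io i (wK K) := by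
    apply Complex.ext
    · simp only [Complex.add_re, Complex.mul_re, Complex.ofReal_re, Complex.ofReal_im]
      rw [hA]; ring
    · simp only [Complex.add_im, Complex.mul_im, Complex.ofReal_re, Complex.ofReal_im]
      rw [hB]; field_simp; ring
  have hd := io_del_ne (K := K) i
  have hηX : i η = X / io i (del K) := by rw [hX]; field_simp
  have htr : ∀ x : K, ((Algebra.trace ℚ K x : ℚ) : ℝ) = 2 * (i x).re := by
    intro x
    rw [← trV_emb x, trV_one w]; rfl
  -- the trace of `η`
  obtain ⟨b, hb⟩ := h 1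
  obtain ⟨c, hc⟩ := h (wK K)
  have e1 : ξ * ((N : K) * ((1 : 𝓞 K) : K)) = η := by rw [hη]; push_cast; ring
  have e2 : ξ * ((N : K) * ((wK K : 𝓞 K) : K)) = η * (wK K : K) := by rw [hη]; ring
  rw [e1] at hb
  rw [e2] at hc
  have hB' : B = b := by
    have h3 := htr η
    rw [hb, hηX, hXeq, re_div_del] at h3
    push_cast at h3
    linarith
  have hA' : A - B = c := by
    have h3 := htr (η * (wK K : K))
    have e3 : i (η * (wK K : K)) = (((-B : ℝ) : ℂ) + ((A - B : ℝ) : ℂ) * io i (wK K)) /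
        io i (del K) := by
      rw [map_mul, hηX, hXeq]
      have e4 : i (wK K : K) = io i (wK K) := rfl
      rw [e4, div_mul_eq_mul_div]
      congr 1
      push_cast
      linear_combination (B : ℂ) * wc_rel (K := K) i
    rw [hc, e3, re_div_del] at h3
    push_cast at h3
    linarith
  refine ⟨((c + b : ℤ) : 𝓞 K) + (b : 𝓞 K) * wK K, ?_⟩
  apply i.injective
  have e5 : i (algebraMap (𝓞 K) K (((c + b : ℤ) : 𝓞 K) + (b : 𝓞 K) * wK K)) =
      (c + b : ℂ) + b * io i (wK K) := by
    have : i (algebraMap (𝓞 K) K (((c + b : ℤ) : 𝓞 K) + (b : 𝓞 K) * wK K)) =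
      io i (((c + b : ℤ) : 𝓞 K) + (b : 𝓞 K) * wK K) := rfl
    rw [this, io_add, io_mul, io_intCast, io_intCast]
    push_cast
    ring
  rw [e5, ← mul_assoc, ← hη, map_mul]
  have e6 : i η * i (algebraMap (𝓞 K) K (del K)) = X := rfl
  rw [e6, hXeq]
  have hAc : (A : ℂ) = c + b := by
    have : A = c + b := by rw [← hB']; linarith
    rw [this]; push_cast; ring
  rw [hAc, hB']
  push_cast
  ring

/-- the classical mean value -/
noncomputable def m2 (N : ℕ) (f : (InfinitePlace K → ℂ) → ℂ) : ℂ :=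
  boxMean fun x : Fin 2 → ℝ => f (cr2 w N x)

theorem isMean_m2 {N : ℕ} (hN : N ≠ 0) : IsMean N (m2 w N) where
  add hf hg := boxMean_add (hf.cont.comp (continuous_cr2 w N)) (hg.cont.comp (continuous_cr2 w N))
  smul c _ _ := boxMean_smul c _
  bound _ hC := norm_boxMean_le fun t => hC _
  ev0 := by
    intro ξ hξ h0
    obtain ⟨m, rfl⟩ := dpt_surj (Nat.pos_of_ne_zero hN) (inD_of_isDual w hξ)
    unfold m2
    have : (fun t => ev (dpt K N m) (cr2 w N t)) = ee m := by
      funext t
      exact ev_dpt w (Nat.pos_of_ne_zero hN) m t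
    rw [this, boxMean_ee, if_neg]
    rintro rfl
    apply h0
    simp [dpt]
  one := by
    unfold m2
    have h := boxMean_ee (0 : Fin 2 → ℤ)
    rw [if_pos rfl] at h
    have h2 : (fun _ : Fin 2 → ℝ => (1 : ℂ)) = ee 0 := by
      funext t
      simp [ee]
    rw [h2]
    exact h

variable {D : Type*} [MulAction (GL (Fin 2) K) D] [FinPart K D] {φ : HF K × D → ℂ}

/-- **Fourier coefficients in classical coordinates.** -/
theorem PC_eq (h : AutForm φ) {N : ℕ} (hN : N ≠ 0) {d : D} (hd : Lvl (F := K) N d) (y : ℝ)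
    (hy : 0 < y) (m : Fin 2 → ℤ) (hm : IsDual N (dpt K N m)) :
    PC (fun x : Fin 2 → ℝ =>
      φ (cst ⟨(N : ℂ) * (x 0 + x 1 * io w.embedding (wK K)), y, hy⟩, d)) m =
      Whk w φ (dpt K N m) d * ((y * K0 (4 * π * (‖w.embedding (dpt K N m)‖ * y)) : ℝ) : ℂ) := by
  have h1 := cof_eq w h (dpt K N m) ⟨0, y, hy⟩ d
  have hex : H3.ex (w.embedding (dpt K N m)) 0 = 1 := by simp [H3.ex]
  simp only at h1
  rw [hex, mul_one, mul_assoc (4 * π)] at h1
  rw [← h1, cof, fc_eq hN (h.toIsInv.per hd _) hm,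
    ← (isMean_m2 w hN).unique hN (isMean_mn hN) ((h.toIsInv.per hd _).twist hm)]
  unfold PC m2 boxMean
  refine setIntegral_congr_fun (measurableSet_box 0) fun x _ => ?_
  have e1 : ev (-dpt K N m) (cr2 w N x) = ee (-m) x := by
    rw [← ev_dpt w (Nat.pos_of_ne_zero hN)]
    congr 1
    simp only [dpt, Pi.neg_apply]
    rw [← neg_div, ← map_neg]
    congr 2
    push_cast
    ring
  show ee (-m) x * _ = φ (tra (cr2 w N x) (cst ⟨0, y, hy⟩), d) * ev (-dpt K N m) (cr2 w N x)
  rw [e1, mul_comm]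
  have e2 : tra (cr2 w N x) (cst ⟨0, y, hy⟩) =
      cst ⟨(N : ℂ) * (x 0 + x 1 * io w.embedding (wK K)), y, hy⟩ := by
    show cst (tra3 _ _) = _
    congr 1
    exact H3.ext (zero_add _) rfl
  rw [e2]

end Fermat.Agent.LT.Cls
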