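import Fermat.Agent.LT.Fou.AutForm
import Fermat.Agent.LT.H3.Uniq4
import Fermat.Agent.LT.H3.Decay
import Fermat.Agent.LT.H3.Ext

set_option autoImplicit false
set_option linter.unusedSectionVars false

/-!
# The `K₀`-expansion over a field with one infinite place
-/

namespace Fermat.Agent.LT.Cls

open MeasureTheory Complex Topology NumberField Sp Fou Set
open scoped Real ComplexConjugate ContDiff

variable {F : Type*} [Field F] [NumberField F] [IsTotallyComplex F] [Subsingleton (InfinitePlace F)]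
  (w : InfinitePlace F)
variable {D : Type*} [MulAction (GL (Fin 2) F) D]

/-- the constant point -/
def cst (q : H3) : HF F := fun _ => q

theorem eq_cst (p : HF F) : p = cst (p w) := by
  funext w'
  rw [Subsingleton.elim w' w]; rfl

theorem upd_eq_cst (p : HF F) (q : H3) : upd p w q = cst q := by
  funext w'
  rw [Subsingleton.elim w' w, upd_same]; rfl

theorem continuous_cst : Continuous (cst (F := F)) := continuous_pi fun _ => continuous_id

theorem tra_cst (z : ℂ) (q : H3) : tra (fun _ => z) (cst (F := F) q) = cst (tra3 z q) := rfl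

theorem trV_one (v : InfinitePlace F → ℂ) : trV v = 2 * (v w).re := by
  unfold trV
  rw [Fintype.sum_eq_single w fun w' h => absurd (Subsingleton.elim w' w) h]

theorem ev_const (ξ : F) (z : ℂ) : ev ξ (fun _ : InfinitePlace F => z) = H3.ex (w.embedding ξ) z := by
  unfold ev H3.ex
  rw [trV_one w]
  congr 1
  rw [Pi.mul_apply, emb_apply]
  push_cast
  ring

variable {φ : HF F × D → ℂ}

/-- the Whittaker coefficient -/
noncomputable def Whk (φ : HF F × D → ℂ) (ξ : F) (d : D) : ℂ :=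
  open Classical in
  if ξ = 0 then 0 else cof φ ξ (cst ⟨0, 1, one_pos⟩) d / (K0 (4 * π * ‖w.embedding ξ‖) : ℂ)

variable [FinPart F D]

/-- **The `K₀`-expansion of the coefficients.** -/
theorem cof_eq (h : AutForm φ) (ξ : F) (q : H3) (d : D) :
    cof φ ξ (cst q) d =
      Whk w φ ξ d * ((q.y * K0 (4 * π * ‖w.embedding ξ‖ * q.y) : ℝ) : ℂ) *
        H3.ex (w.embedding ξ) q.z := by
  by_cases h0 : ξ = 0
  · subst h0
    rw [h.cusp, Whk, if_pos rfl]
    ring
  have hξ : w.embedding ξ ≠ 0 := (map_ne_zero _).mpr h0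
  set W : ℝ → ℂ := fun y => if hy : 0 < y then cof φ ξ (cst ⟨0, y, hy⟩) d else 0 with hW
  have hWy : ∀ (y : ℝ) (hy : 0 < y), W y = cof φ ξ (cst ⟨0, y, hy⟩) d := fun y hy => dif_pos hy
  have key : ∀ q : H3, cof φ ξ (cst q) d = W q.y * H3.ex (w.embedding ξ) q.z := by
    intro q
    have e : (cst q : HF F) = tra (fun _ => q.z) (cst ⟨0, q.y, q.pos⟩) := by
      rw [tra_cst]
      congr 1
      apply H3.ext <;> simp [tra3]
    rw [e, cof_tra h.toIsInv, ev_const w, hWy _ q.pos, mul_comm]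
  have hcont : ContinuousOn W (Ioi 0) := by
    rw [continuousOn_iff_continuous_domRestrict]
    have h1 : (Ioi (0 : ℝ)).domRestrict W = fun y : Ioi (0 : ℝ) => cof φ ξ (cst ⟨0, y.1, y.2⟩) d := by
      funext y
      exact hWy y.1 y.2
    rw [h1]
    refine (continuous_cof h.toIsInv ξ d).comp (continuous_cst.comp ?_)
    exact H3.continuous_mk (f := fun y : Ioi (0 : ℝ) => (⟨0, y.1, y.2⟩ : H3)) continuous_const
      continuous_subtype_val
  obtain ⟨C, hC⟩ := h.bdd
  obtain ⟨c, hc⟩ := H3.unique hξ hcont (fun Y hY => ⟨C, fun y hy => by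
      rw [hWy y (hY.trans_le hy)]
      exact norm_cof_le h.toIsInv _ (fun v => hC _) ξ⟩) (fun k hk hks y hy => by
      have h1 := cof_eig h.toIsInv w hk.continuous hks (c := (H3.khat k : ℂ)) (d := d)
        (fun p => h.eig w k hk hks p d) ξ (cst ⟨0, y, hy⟩)
      rw [← hWy y hy] at h1
      rw [← h1]
      congr 1
      funext q
      rw [upd_eq_cst, key]
      rfl)
  have hK : 0 < K0 (4 * π * ‖w.embedding ξ‖) := K0_pos (by
    have := norm_pos_iff.mpr hξ
    positivity)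
  have hWh : Whk w φ ξ d = c := by
    rw [Whk, if_neg h0, ← hWy 1 one_pos, hc 1 one_pos, one_mul, mul_one]
    have : (K0 (4 * π * ‖w.embedding ξ‖) : ℂ) ≠ 0 := by exact_mod_cast hK.ne'
    field_simp
  rw [key, hc _ q.pos, hWh]

/-- bound for the coefficients -/
theorem norm_Whk_le (h : AutForm φ) : ∃ C : ℝ, 0 ≤ C ∧ ∀ (ξ : F) (d : D),
    ‖Whk w φ ξ d‖ ≤ C * ‖w.embedding ξ‖ := by
  obtain ⟨C, hC⟩ := h.bdd
  have hK : 0 < K0 (4 * π) := K0_pos (by positivity)
  refine ⟨|C| / K0 (4 * π), by positivity, fun ξ d => ?_⟩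
  by_cases h0 : ξ = 0
  · rw [Whk, if_pos h0, norm_zero]; positivity
  have hn : 0 < ‖w.embedding ξ‖ := norm_pos_iff.mpr ((map_ne_zero _).mpr h0)
  have h1 := cof_eq w h ξ ⟨0, ‖w.embedding ξ‖⁻¹, inv_pos.mpr hn⟩ d
  have h2 : ‖cof φ ξ (cst ⟨0, ‖w.embedding ξ‖⁻¹, inv_pos.mpr hn⟩) d‖ ≤ |C| :=
    norm_cof_le h.toIsInv _ (fun v => (hC _).trans (le_abs_self C)) ξ
  rw [h1, norm_mul, norm_mul, H3.norm_ex, mul_one, Complex.norm_real] at h2
  have e : 4 * π * ‖w.embedding ξ‖ * ‖w.embedding ξ‖⁻¹ = 4 * π := by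
    field_simp
  simp only at h2
  rw [e, Real.norm_of_nonneg (by positivity)] at h2
  rw [div_mul_eq_mul_div, le_div_iff₀ hK]
  calc ‖Whk w φ ξ d‖ * K0 (4 * π) =
        ‖Whk w φ ξ d‖ * (‖w.embedding ξ‖⁻¹ * K0 (4 * π)) * ‖w.embedding ξ‖ := by
        field_simp
    _ ≤ |C| * ‖w.embedding ξ‖ := mul_le_mul_of_nonneg_right h2 hn.le

end Fermat.Agent.LT.Cls
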