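import Fermat.Agent.LT.Cls.Cusp
import Fermat.Agent.LT.Cls.Exp

set_option autoImplicit false
set_option linter.unusedSectionVars false

/-!
# Representatives modulo a prime element; the Hecke relation on functions
-/

namespace Fermat.Agent.LT.Cls

open Matrix Filter NumberField Glob Glob.LocFam IsDedekindDomain Sp Fou
open scoped MatrixGroups

/-- the number of representatives -/
theorem card_reps {K : Type*} [Field K] [NumberField K] {ϖ : 𝓞 K} {J : Type*} {R : Finset J}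
    {b : J → 𝓞 K} (h : Reps ϖ R b) : R.card = (Ideal.span {ϖ}).absNorm := by
  have hbij : Function.Bijective (fun j : R => Ideal.Quotient.mk (Ideal.span {ϖ}) (b j)) := by
    constructor
    · rintro ⟨i, hi⟩ ⟨j, hj⟩ hij
      have h1 : ϖ ∣ b i - b j := by
        rw [← Ideal.mem_span_singleton]
        exact Ideal.Quotient.eq.1 hij
      exact Subtype.ext (h.inj i hi j hj h1)
    · intro x
      obtain ⟨x, rfl⟩ := Ideal.Quotient.mk_surjective x
      obtain ⟨j, hj, hd⟩ := h.surj x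
      refine ⟨⟨j, hj⟩, ?_⟩
      have h1 : x - b j ∈ Ideal.span {ϖ} := Ideal.mem_span_singleton.2 hd
      exact (Ideal.Quotient.eq.2 h1).symm
  rw [Ideal.absNorm_apply, Submodule.cardQuot_apply]
  have := Nat.card_congr (Equiv.ofBijective _ hbij)
  rw [Nat.card_eq_fintype_card, Fintype.card_coe] at this
  exact this

/-- `0, …, l - 1` represent `𝓞 / ϖ` if `ϖ` has prime norm `l` -/
theorem reps_range {K : Type*} [Field K] [NumberField K] {ϖ : 𝓞 K} (h : Prime ϖ) {l : ℕ}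
    (hl : l.Prime) (hn : (Ideal.span {ϖ}).absNorm = l) :
    Reps ϖ (Finset.range l) (fun b => ((b : ℕ) : 𝓞 K)) := by
  have hdvd : ∀ n : ℤ, ϖ ∣ (n : 𝓞 K) → (l : ℤ) ∣ n := by
    intro n hd
    have h1 : (Ideal.span {ϖ}).absNorm ∣ (Ideal.span {(n : 𝓞 K)}).absNorm :=
      Ideal.absNorm_dvd_absNorm_of_le (by
        rw [Ideal.span_singleton_le_span_singleton]; exact hd)
    rw [hn, Ideal.absNorm_span_singleton] at h1
    have h2 : Algebra.norm ℤ (n : 𝓞 K) = n ^ Module.finrank ℤ (𝓞 K) := by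
      have := Algebra.norm_algebraMap (S := 𝓞 K) (n : ℤ)
      simpa using this
    rw [h2, Int.natAbs_pow] at h1
    have h3 := hl.dvd_of_dvd_pow h1
    exact Int.natCast_dvd.2 h3
  have hinj : ∀ i ∈ Finset.range l, ∀ j ∈ Finset.range l,
      ϖ ∣ ((i : ℕ) : 𝓞 K) - ((j : ℕ) : 𝓞 K) → i = j := by
    intro i hi j hj hd
    have h1 := hdvd ((i : ℤ) - j) (by push_cast; exact hd)
    rw [Finset.mem_range] at hi hj
    have h2 : |(i : ℤ) - j| < l := by rw [abs_lt]; constructor <;> omega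
    have h3 := Int.eq_zero_of_abs_lt_dvd h1 h2
    omega
  refine ⟨hinj, fun x => ?_⟩
  have hspan : Ideal.span {ϖ} ≠ ⊥ := by
    rw [Ne, Ideal.span_singleton_eq_bot]
    exact h.ne_zero
  have hcard : Nat.card (𝓞 K ⧸ Ideal.span {ϖ}) = l := by
    rw [← hn, Ideal.absNorm_apply, Submodule.cardQuot_apply]
  have hfin : Finite (𝓞 K ⧸ Ideal.span {ϖ}) :=
    Nat.finite_of_card_ne_zero (by rw [hcard]; exact hl.ne_zero)
  have hF := Fintype.ofFinite (𝓞 K ⧸ Ideal.span {ϖ})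
  let g : Fin l → 𝓞 K ⧸ Ideal.span {ϖ} := fun i => Ideal.Quotient.mk (Ideal.span {ϖ}) ((i : ℕ) : 𝓞 K)
  have hg : Function.Injective g := by
    intro i j hij
    apply Fin.ext
    apply hinj i (Finset.mem_range.2 i.2) j (Finset.mem_range.2 j.2)
    rw [← Ideal.mem_span_singleton]
    exact Ideal.Quotient.eq.1 hij
  have hbij : Function.Bijective g := by
    rw [Fintype.bijective_iff_injective_and_card]
    exact ⟨hg, by rw [Fintype.card_fin, ← Nat.card_eq_fintype_card, hcard]⟩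
  obtain ⟨i, hi⟩ := hbij.2 (Ideal.Quotient.mk _ x)
  refine ⟨i, Finset.mem_range.2 i.2, ?_⟩
  rw [← Ideal.mem_span_singleton]
  exact Ideal.Quotient.eq.1 hi.symm

section Fun

variable {K : Type*} [Field K] [NumberField K] [IsTotallyComplex K]
  [Subsingleton (InfinitePlace K)] (w : InfinitePlace K)

theorem embedding_ne {ϖ : 𝓞 K} (h : ϖ ≠ 0) : w.embedding (ϖ : K) ≠ 0 := by
  rw [Ne, map_eq_zero]
  simpa using h

/-- the upper triangular matrix on constant tuples -/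
theorem tri_inv_smul {ϖ : 𝓞 K} (h : ϖ ≠ 0) (s : K) (z : ℂ) (y : ℝ) (hy : 0 < y) :
    (tri (uF h) 1 s)⁻¹ • (cst ⟨z, y, hy⟩ : HF K) =
      cst ⟨(z - w.embedding s) / w.embedding (ϖ : K), y / ‖w.embedding (ϖ : K)‖,
        div_pos hy (norm_pos_iff.mpr (embedding_ne w h))⟩ := by
  have hne := embedding_ne w h
  have hn0 : ‖w.embedding (ϖ : K)‖ ≠ 0 := norm_ne_zero_iff.2 hne
  rw [inv_smul_eq_iff]
  funext v
  have hv : v = w := Subsingleton.elim _ _
  subst hv
  have h00 : embGL v (tri (uF h) 1 s) 0 0 = v.embedding (ϖ : K) := by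
    rw [embGL_apply, tri_coe]; rfl
  have h01 : embGL v (tri (uF h) 1 s) 0 1 = v.embedding s := by
    rw [embGL_apply, tri_coe]; rfl
  have h10 : embGL v (tri (uF h) 1 s) 1 0 = 0 := by
    rw [embGL_apply, tri_coe]; simp
  have h11 : embGL v (tri (uF h) 1 s) 1 1 = 1 := by
    rw [embGL_apply, tri_coe]; simp
  rw [smul_HF_apply]
  apply H3.ext
  · rw [H3.smul_z_of_upper h10, h00, h01, h11]
    simp only [cst]
    field_simp
    ring
  · rw [H3.smul_y_of_upper h10, h00, h11, div_one]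
    simp only [cst]
    field_simp

/-- the diagonal matrix on constant tuples -/
theorem aMat_smul_cst {ϖ : 𝓞 K} (h : ϖ ≠ 0) (z : ℂ) (y : ℝ) (hy : 0 < y) :
    aMat (uF h) • (cst ⟨z, y, hy⟩ : HF K) =
      cst ⟨w.embedding (ϖ : K) * z, ‖w.embedding (ϖ : K)‖ * y,
        mul_pos (norm_pos_iff.mpr (embedding_ne w h)) hy⟩ := by
  funext v
  have hv : v = w := Subsingleton.elim _ _
  subst hv
  apply H3.ext
  · rw [aMat_smul_z]
    rfl
  · rw [aMat_smul_y]
    rfl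

variable [IsPrincipalIdealRing (𝓞 K)]

/-- decay at all cusps, with `cst` -/
theorem decay_cusps_cst {N : ℕ} (hN : N ≠ 0) {f : HF K × DN K hN → ℂ} (h : Fou.AutForm f)
    (hdec : ∀ x : DN K hN, ∃ B : ℝ, ∀ q : H3, 1 / 2 ≤ q.y →
      ‖f (cst q, x)‖ ≤ B * (q.y ^ 2)⁻¹) :
    ∃ C : ℝ, ∀ (q : H3) (c d : 𝓞 K), (c ≠ 0 ∨ d ≠ 0) →
      ‖f (cst q, bN K hN)‖ ≤
        C * (q.q (w.embedding (c : K)) (w.embedding (d : K))) ^ 2 :=
  decay_cusps w hN h hdec

/-- **The Hecke relation on functions** (`ϖ ≡ 1 mod N` of prime norm `l`). -/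
theorem hecke_fun {N : ℕ} (hN : N ≠ 0) {f : HF K × DN K hN → ℂ} (hf : IsInv f)
    {χ : CN K N →* ℂˣ}
    (hχ : ∀ (c : CN K N) (p : HF K) (x : DN K hN),
      f (p, rc hN c x) = ((χ c : ℂˣ) : ℂ) * f (p, x))
    {ϖ : 𝓞 K} (h : Prime ϖ) (hd : ¬ ϖ ∣ (N : 𝓞 K)) (hcong : (N : 𝓞 K) ∣ ϖ - 1)
    {l : ℕ} {lam : ℂ}
    (hH : HK (plc h) ((Finset.range l).insertNone) (fun j : Option ℕ => (locK K).emb (plc h)
      (j.elim (aMat (uF h.ne_zero))⁻¹ fun j =>
        tri (uF h.ne_zero) 1 ((N : K) * ((((j : ℕ) : 𝓞 K)) : K)))) lam f)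
    (z : ℂ) (y : ℝ) (hy : 0 < y) :
    (∑ b ∈ Finset.range l, f (cst ⟨(z - N * b) / w.embedding (ϖ : K),
        y / ‖w.embedding (ϖ : K)‖,
        div_pos hy (norm_pos_iff.mpr (embedding_ne w h.ne_zero))⟩, bN K hN)) +
      f (cst ⟨w.embedding (ϖ : K) * z, ‖w.embedding (ϖ : K)‖ * y,
        mul_pos (norm_pos_iff.mpr (embedding_ne w h.ne_zero)) hy⟩, bN K hN) =
      lam * f (cst ⟨z, y, hy⟩, bN K hN) := by
  have hc : Ideal.Quotient.mk (Ideal.span {(N : 𝓞 K)}) ϖ = ((1 : CN K N) : _) := by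
    rw [Units.val_one, ← map_one (Ideal.Quotient.mk (Ideal.span {(N : 𝓞 K)})),
      Ideal.Quotient.eq]
    exact Ideal.mem_span_singleton.2 hcong
  have h1 := hecke_classical hN hf hχ h hd hc (Finset.range l) (fun b => ((b : ℕ) : 𝓞 K)) hH
    (cst ⟨z, y, hy⟩)
  rw [map_one, inv_one, Units.val_one, one_mul, one_mul] at h1
  rw [← h1, aMat_smul_cst w h.ne_zero z y hy]
  congr 1
  refine Finset.sum_congr rfl fun b _ => ?_
  rw [tri_inv_smul w h.ne_zero _ z y hy]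
  congr 4
  rw [map_mul, map_natCast]
  have : w.embedding ((((b : ℕ) : 𝓞 K)) : K) = (b : ℂ) := by
    have e : ((((b : ℕ) : 𝓞 K)) : K) = ((b : ℕ) : K) := by simp
    rw [e, map_natCast]
  rw [this]

end Fun

end Fermat.Agent.LT.Cls
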