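import Fermat.Agent.LT.Cls.Hk2
import Fermat.Agent.LT.Cls.Exp2
import Fermat.Agent.LT.Cls.Reps

set_option autoImplicit false
set_option linter.unusedSectionVars false

/-!
# The Hecke equation for the coefficients
-/

namespace Fermat.Agent.LT.Cls

open Matrix Filter NumberField Glob Glob.LocFam IsDedekindDomain Sp Fou RS
open scoped MatrixGroups Real

section Base

variable {F : Type*} [Field F] [NumberField F] {N : ℕ} (hN : N ≠ 0)

theorem emb_slO_mem_PK (v : HeightOneSpectrum (𝓞 F)) {g : SL(2, 𝓞 F)}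
    (hg : ∀ r s, (N : 𝓞 F) ∣ g r s - (1 : Matrix (Fin 2) (Fin 2) (𝓞 F)) r s) :
    (locK F).emb v (slO F g) ∈ PK ((locK F).O v) N := by
  rw [emb_eq]
  apply mk_mem_PK
  refine ⟨map_slO_mem v g, fun i j => ?_⟩
  have h := loc_mem_NO (hg i j) v
  have e : (locK F).loc v (((g i j - (1 : Matrix (Fin 2) (Fin 2) (𝓞 F)) i j : 𝓞 F)) : F) =
      (GeneralLinearGroup.map ((locK F).loc v) (slO F g)) i j -
        (1 : Matrix (Fin 2) (Fin 2) ((locK F).R v)) i j := by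
    have e1 : (GeneralLinearGroup.map ((locK F).loc v) (slO F g)) i j =
      (locK F).loc v ((g i j : 𝓞 F) : F) := rfl
    rw [e1]
    have e2 : (((g i j - (1 : Matrix (Fin 2) (Fin 2) (𝓞 F)) i j : 𝓞 F)) : F) =
      ((g i j : 𝓞 F) : F) - (1 : Matrix (Fin 2) (Fin 2) F) i j := by
      rw [Matrix.one_apply, Matrix.one_apply]
      split_ifs <;> push_cast <;> ring
    rw [e2, map_sub]
    congr 1
    rw [Matrix.one_apply, Matrix.one_apply]
    split_ifs <;> simp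
  rwa [e] at h

theorem slO_smul_bN {g : SL(2, 𝓞 F)}
    (hg : ∀ r s, (N : 𝓞 F) ∣ g r s - (1 : Matrix (Fin 2) (Fin 2) (𝓞 F)) r s) :
    slO F g • bN F hN = bN F hN := by
  have h : (locK F).diag (slO F g) • bN F hN = (1 : (locK F).GA) • bN F hN := by
    rw [eq_comm, GA_smul_base_eq_iff]
    intro v
    have := emb_slO_mem_PK v hg
    have e : ((1 : (locK F).GA).1 v)⁻¹ * ((locK F).diag (slO F g)).1 v =
      (locK F).emb v (slO F g) := by
      show (1 : (locK F).G v)⁻¹ * (locK F).emb v (slO F g) = _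
      rw [inv_one, one_mul]
    rw [e]
    exact this
  rw [one_smul] at h
  exact h

/-- unipotent elements -/
def uSL (x : 𝓞 F) : SL(2, 𝓞 F) := ⟨!![1, x; 0, 1], by simp⟩

theorem slO_uSL (x : 𝓞 F) : slO F (uSL x) = nMat (x : F) := by
  apply Units.ext
  rw [nMat_coe]
  ext i j
  have e : (slO F (uSL x) : Matrix (Fin 2) (Fin 2) F) i j = (((uSL x) i j : 𝓞 F) : F) := rfl
  rw [e]
  fin_cases i <;> fin_cases j <;> simp [uSL]

theorem lvl_bN : Lvl (F := F) N (bN F hN) := by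
  intro t
  have e : (N : F) * (t : F) = (((N : 𝓞 F) * t : 𝓞 F) : F) := by push_cast; rfl
  rw [e, ← slO_uSL]
  apply slO_smul_bN
  intro r s
  fin_cases r <;> fin_cases s <;> simp [uSL]

end Base

section One

variable {F : Type*} [Field F] [NumberField F] [IsTotallyComplex F] [Subsingleton (InfinitePlace F)]
  (w : InfinitePlace F)

theorem smul_cst (g : GL (Fin 2) F) (q : H3) :
    g • cst (F := F) q = cst (GeneralLinearGroup.map w.embedding g • q) := by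
  funext w'
  rw [Subsingleton.elim w' w]; rfl

theorem aMat_smul_cst' (a : Fˣ) (q : H3) :
    aMat a • cst (F := F) q = cst ⟨w.embedding (a : F) * q.z, ‖w.embedding (a : F)‖ * q.y,
      mul_pos (norm_pos_iff.mpr ((map_ne_zero _).mpr a.ne_zero)) q.pos⟩ := by
  funext w'
  rw [Subsingleton.elim w' w]
  apply H3.ext
  · rw [aMat_smul_z]; rfl
  · rw [aMat_smul_y]; rfl

variable {N : ℕ} (hN : N ≠ 0)

/-- coefficients at the base point -/
noncomputable def cf (f : HF F × DN F hN → ℂ) (ξ : F) : ℂ := Whk w f ξ (bN F hN)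

theorem cf_zero (f : HF F × DN F hN → ℂ) : cf w hN f 0 = 0 := if_pos rfl

variable {f : HF F × DN F hN → ℂ}

theorem cof_pt (hf : AutForm f) (ξ : F) {y : ℝ} (hy : 0 < y) :
    cof f ξ (cst ⟨0, y, hy⟩) (bN F hN) =
      cf w hN f ξ * ((y * K0 (4 * π * (‖w.embedding ξ‖ * y)) : ℝ) : ℂ) := by
  have h1 := cof_eq w hf ξ ⟨0, y, hy⟩ (bN F hN)
  have hex : H3.ex (w.embedding ξ) 0 = 1 := by simp [H3.ex]
  simp only at h1
  rw [hex, mul_one, mul_assoc (4 * π)] at h1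
  exact h1

theorem supp_cf (hf : AutForm f) {ξ : F} (h : cf w hN f ξ ≠ 0) : IsDual N ξ := by
  by_contra hd
  apply h
  have h1 := cof_eq_zero hf.toIsInv hN (lvl_bN hN) hd (cst ⟨0, 1, one_pos⟩)
  unfold cf Whk
  split_ifs
  · rfl
  · rw [h1, zero_div]

theorem cof_aMat_pt (hf : AutForm f) (ξ : F) (a : Fˣ) {y : ℝ} (hy : 0 < y) :
    cof f ξ (cst ⟨0, y, hy⟩) (aMat a • bN F hN) =
      (‖w.embedding (a : F)‖⁻¹ * cf w hN f ((a : F) * ξ)) *
        ((y * K0 (4 * π * (‖w.embedding ξ‖ * y)) : ℝ) : ℂ) := by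
  have ha : (0 : ℝ) < ‖w.embedding (a : F)‖ :=
    norm_pos_iff.mpr ((map_ne_zero _).mpr a.ne_zero)
  have ha' : 0 < ‖w.embedding (a : F)‖⁻¹ * y := mul_pos (inv_pos.mpr ha) hy
  have e1 : aMat a⁻¹ • cst (F := F) ⟨0, y, hy⟩ = cst ⟨0, ‖w.embedding (a : F)‖⁻¹ * y, ha'⟩ := by
    rw [aMat_smul_cst' w]
    congr 1
    apply H3.ext
    · simp
    · simp
  rw [cof_aMat hf.toIsInv, e1, cof_pt w hN hf]
  have e2 : ‖w.embedding ((a : F) * ξ)‖ * (‖w.embedding (a : F)‖⁻¹ * y) =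
      ‖w.embedding ξ‖ * y := by
    rw [map_mul, norm_mul]
    field_simp
  rw [e2]
  push_cast
  ring

theorem tri_eq_nMat (a : Fˣ) (b : F) : tri a 1 b = nMat b * aMat a := by
  apply Units.ext
  rw [Units.val_mul, nMat_coe, aMat_coe, tri_coe]
  simp

/-- **The Hecke equation for the coefficients.** -/
theorem hecke_cf (hf : AutForm f) {χ : CN F N →* ℂˣ}
    (hχ : ∀ (c : CN F N) (p : HF F) (x : DN F hN),
      f (p, rc hN c x) = ((χ c : ℂˣ) : ℂ) * f (p, x))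
    {ϖ : 𝓞 F} (h : Prime ϖ) (hd : ¬ ϖ ∣ (N : 𝓞 F)) {c : CN F N}
    (hc : Ideal.Quotient.mk (Ideal.span {(N : 𝓞 F)}) ϖ = c) {J : Type*} (R : Finset J) (b : J → 𝓞 F)
    (hR : (R.card : ℝ) = ‖w.embedding (ϖ : F)‖ ^ 2) {lam : ℂ}
    (hH : HK (plc h) (R.insertNone) (fun j : Option J => (locK F).emb (plc h)
      (j.elim (aMat (uF h.ne_zero))⁻¹ fun j => tri (uF h.ne_zero) 1 ((N : F) * (b j : F))))
      (‖w.embedding (ϖ : F)‖ * lam) f) {ξ : F} (hξ : IsDual N ξ) :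
    (((χ c)⁻¹ : ℂˣ) : ℂ) * cf w hN f ((ϖ : F) * ξ) +
      ((χ c : ℂˣ) : ℂ) * cf w hN f (ξ / (ϖ : F)) = lam * cf w hN f ξ := by
  by_cases h0 : ξ = 0
  · subst h0
    simp [cf_zero]
  set P := cst (F := F) ⟨0, 1, one_pos⟩ with hP
  have hϖ : (0 : ℝ) < ‖w.embedding (ϖ : F)‖ := norm_pos_iff.mpr ((map_ne_zero _).mpr
    (by simpa using h.ne_zero))
  have hp : ∀ p : HF F, ∑ j ∈ R.insertNone, (j.elim ((χ c : ℂˣ) : ℂ)
        fun _ => (((χ c)⁻¹ : ℂˣ) : ℂ)) * f (p, j.elim ((aMat (uF h.ne_zero))⁻¹ • bN F hN)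
          fun j => tri (uF h.ne_zero) 1 ((N : F) * (b j : F)) • bN F hN) =
      (‖w.embedding (ϖ : F)‖ * lam) * f (p, bN F hN) := by
    intro p
    rw [← hecke_classical hN hf.toIsInv hχ h hd hc R b hH p, Finset.sum_insertNone, add_comm,
      Finset.mul_sum]
    simp only [Option.elim_none, Option.elim_some]
    congr 1
    · refine Finset.sum_congr rfl fun j _ => ?_
      rw [hf.toIsInv.inv_left]
    · rw [hf.toIsInv.inv_left, inv_inv]
  have h1 := Fou.cof_lin hf.toIsInv (R.insertNone) _ _ _ _ hp ξ P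
  rw [Finset.sum_insertNone] at h1
  simp only [Option.elim_none, Option.elim_some] at h1
  have h2 : ∀ j ∈ R, (((χ c)⁻¹ : ℂˣ) : ℂ) * cof f ξ P
      (tri (uF h.ne_zero) 1 ((N : F) * (b j : F)) • bN F hN) =
      (((χ c)⁻¹ : ℂˣ) : ℂ) * ((‖w.embedding (ϖ : F)‖⁻¹ * cf w hN f ((ϖ : F) * ξ)) *
        ((1 * K0 (4 * π * (‖w.embedding ξ‖ * 1)) : ℝ) : ℂ)) := by
    intro j _
    have e : -((N : F) * (b j : F)) = (N : F) * ((-b j : 𝓞 F) : F) := by push_cast; ring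
    rw [tri_eq_nMat, mul_smul, cof_nMat hf.toIsInv, e, ev_emb_of_isDual hξ, one_mul,
      hP, cof_aMat_pt w hN hf ξ (uF h.ne_zero) one_pos]
    rfl
  rw [Finset.sum_congr rfl h2, Finset.sum_const, nsmul_eq_mul, Fou.aMat_inv, hP,
    cof_aMat_pt w hN hf ξ _ one_pos, cof_pt w hN hf ξ one_pos] at h1
  have hK : 0 < K0 (4 * π * (‖w.embedding ξ‖ * 1)) := K0_pos (by
    have := norm_pos_iff.mpr ((map_ne_zero w.embedding).mpr h0)
    positivity)
  have hB : (((1 * K0 (4 * π * (‖w.embedding ξ‖ * 1)) : ℝ)) : ℂ) ≠ 0 := by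
    rw [one_mul]; exact_mod_cast hK.ne'
  have hR' : (R.card : ℂ) = (‖w.embedding (ϖ : F)‖ : ℂ) ^ 2 := by exact_mod_cast hR
  have hϖ' : (‖w.embedding (ϖ : F)‖ : ℂ) ≠ 0 := by exact_mod_cast hϖ.ne'
  have e2 : (((uF h.ne_zero)⁻¹ : Fˣ) : F) * ξ = ξ / (ϖ : F) := by
    rw [Units.val_inv_eq_inv_val, Units.val_mk0, mul_comm, div_eq_mul_inv]
  have e3 : ‖w.embedding (((uF h.ne_zero)⁻¹ : Fˣ) : F)‖ = ‖w.embedding (ϖ : F)‖⁻¹ := by
    rw [Units.val_inv_eq_inv_val, Units.val_mk0, map_inv₀, norm_inv]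
  rw [e2, e3, inv_inv, hR'] at h1
  set B : ℂ := (((1 * K0 (4 * π * (‖w.embedding ξ‖ * 1)) : ℝ)) : ℂ) with hBdef
  set n : ℂ := (‖w.embedding (ϖ : F)‖ : ℂ) with hn
  have h3 : (n * B) * ((((χ c)⁻¹ : ℂˣ) : ℂ) * cf w hN f ((ϖ : F) * ξ) +
      ((χ c : ℂˣ) : ℂ) * cf w hN f (ξ / (ϖ : F))) = (n * B) * (lam * cf w hN f ξ) := by
    have e4 : n ^ 2 * ((((χ c)⁻¹ : ℂˣ) : ℂ) * (((‖w.embedding (ϖ : F)‖⁻¹ : ℝ) : ℂ) *
        cf w hN f ((ϖ : F) * ξ) * B)) = n * (((χ c)⁻¹ : ℂˣ) : ℂ) * cf w hN f ((ϖ : F) * ξ) * B := by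
      rw [Complex.ofReal_inv, ← hn]
      field_simp
    rw [e4] at h1
    linear_combination h1
  exact mul_left_cancel₀ (mul_ne_zero hϖ' hB) h3

/-! ### the sign -/

theorem negOne_ne : (((-1 : 𝓞 F)) : F) ≠ 0 := by simp

theorem coprime_neg_one : IsCoprime (-1 : 𝓞 F) (N : 𝓞 F) := ⟨-1, 0, by ring⟩

theorem un_neg_one_mem (v : HeightOneSpectrum (𝓞 F)) :
    (locK F).un v (Units.mk0 ((-1 : 𝓞 F) : F) negOne_ne) ∈ OU ((locK F).O v) := by
  have e : Units.mk0 ((-1 : 𝓞 F) : F) negOne_ne = -1 := by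
    apply Units.ext
    simp
  have e2 : (locK F).un v (-1 : Fˣ) = -1 := by
    apply Units.ext
    show (locK F).loc v ((-1 : Fˣ) : F) = _
    simp
  rw [e, e2]
  refine ⟨?_, ?_⟩
  · rw [Units.val_neg, Units.val_one]
    exact ((locK F).O v).neg_mem ((locK F).O v).one_mem
  · rw [inv_neg, inv_one, Units.val_neg, Units.val_one]
    exact ((locK F).O v).neg_mem ((locK F).O v).one_mem

theorem aMat_neg_smul_bN {c : CN F N}
    (hc : Ideal.Quotient.mk (Ideal.span {(N : 𝓞 F)}) (-1) = c) :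
    aMat (Units.mk0 ((-1 : 𝓞 F) : F) negOne_ne) • bN F hN = rc hN c (bN F hN) := by
  have ha : UnN N (Units.mk0 ((-1 : 𝓞 F) : F) negOne_ne) := unN_of_isCoprime coprime_neg_one _
  rw [← rho_eq_rc hN negOne_ne ha hc, rho_base]
  show (locK F).diag (aMat (Units.mk0 ((-1 : 𝓞 F) : F) negOne_ne)) • bN F hN = _
  rw [GA_smul_base_eq_iff]
  intro v
  show ((locK F).emb v (aMat (Units.mk0 ((-1 : 𝓞 F) : F) negOne_ne)))⁻¹ *
    (tN N (Units.mk0 ((-1 : 𝓞 F) : F) negOne_ne)).1 v ∈ PK ((locK F).O v) N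
  by_cases hv : Bad F N v
  · rw [tN_bad hv, inv_mul_cancel]; exact one_mem _
  · rw [tN_good hv, mul_one, PK_eq_PO_of_isUnit _ ((not_bad_iff v).mp hv), emb_aMat]
    exact inv_mem (mk_mem_PO (tri_mem (un_neg_one_mem v) (one_mem _) (zero_mem _)))

theorem neg_cf (hf : AutForm f) {χ : CN F N →* ℂˣ}
    (hχ : ∀ (c : CN F N) (p : HF F) (x : DN F hN),
      f (p, rc hN c x) = ((χ c : ℂˣ) : ℂ) * f (p, x)) {c : CN F N}
    (hc : Ideal.Quotient.mk (Ideal.span {(N : 𝓞 F)}) (-1) = c) (ξ : F) :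
    cf w hN f (-ξ) = ((χ c : ℂˣ) : ℂ) * cf w hN f ξ := by
  by_cases h0 : ξ = 0
  · subst h0
    simp [cf_zero]
  set a : Fˣ := Units.mk0 ((-1 : 𝓞 F) : F) negOne_ne with ha
  have hp : ∀ p : HF F, ∑ i ∈ ({()} : Finset Unit), (1 : ℂ) * f (p, aMat a • bN F hN) =
      ((χ c : ℂˣ) : ℂ) * f (p, bN F hN) := by
    intro p
    rw [Finset.sum_singleton, one_mul, ha, aMat_neg_smul_bN hN hc, hχ]
  have h1 := Fou.cof_lin hf.toIsInv ({()} : Finset Unit) (fun _ => aMat a • bN F hN)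
    (fun _ => 1) _ _ hp ξ (cst ⟨0, 1, one_pos⟩)
  rw [Finset.sum_singleton, one_mul, cof_aMat_pt w hN hf ξ a one_pos, cof_pt w hN hf ξ one_pos] at h1
  have hK : 0 < K0 (4 * π * (‖w.embedding ξ‖ * 1)) := K0_pos (by
    have := norm_pos_iff.mpr ((map_ne_zero w.embedding).mpr h0)
    positivity)
  have hB : (((1 * K0 (4 * π * (‖w.embedding ξ‖ * 1)) : ℝ)) : ℂ) ≠ 0 := by
    rw [one_mul]; exact_mod_cast hK.ne'
  have e1 : (a : F) = -1 := by rw [ha, Units.val_mk0]; simp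
  rw [e1, map_neg, map_one, norm_neg, norm_one, inv_one, Complex.ofReal_one, one_mul,
    neg_one_mul] at h1
  apply mul_right_cancel₀ hB
  rw [h1]
  ring

/-- the multiplicative function of the form -/
noncomputable def kp (χ : CN F N →* ℂˣ) (x : 𝓞 F) : ℂ :=
  MulChar.ofUnitHom χ (Ideal.Quotient.mk (Ideal.span {(N : 𝓞 F)}) x)

theorem kp_unit (χ : CN F N →* ℂˣ) {x : 𝓞 F} {c : CN F N}
    (hc : Ideal.Quotient.mk (Ideal.span {(N : 𝓞 F)}) x = c) : kp χ x = ((χ c : ℂˣ) : ℂ) := by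
  rw [kp, hc, MulChar.ofUnitHom_coe]

theorem kp_mul (χ : CN F N →* ℂˣ) (x y : 𝓞 F) : kp χ (x * y) = kp χ x * kp χ y := by
  rw [kp, map_mul, map_mul]; rfl

theorem kp_one (χ : CN F N →* ℂˣ) : kp χ 1 = 1 := by
  rw [kp, map_one, map_one]

theorem kp_per (χ : CN F N →* ℂˣ) (x y : 𝓞 F) : kp χ (x + N * y) = kp χ x := by
  have : Ideal.Quotient.mk (Ideal.span {(N : 𝓞 F)}) (x + N * y) = Ideal.Quotient.mk _ x := by
    rw [Ideal.Quotient.eq, add_sub_cancel_left]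
    exact Ideal.mul_mem_right _ _ (Ideal.mem_span_singleton_self _)
  rw [kp, kp, this]

theorem exists_cls {ϖ : 𝓞 F} (h : Prime ϖ) (hd : ¬ ϖ ∣ (N : 𝓞 F)) :
    ∃ c : CN F N, Ideal.Quotient.mk (Ideal.span {(N : 𝓞 F)}) ϖ = c := by
  have := (isCoprime_iff_isUnit ϖ).mp (coprime_of_not_dvd h hd)
  exact ⟨this.unit, this.unit_spec.symm⟩

theorem exists_cls_neg : ∃ c : CN F N, Ideal.Quotient.mk (Ideal.span {(N : 𝓞 F)}) (-1) = c := by
  have := (isCoprime_iff_isUnit (N := N) (-1 : 𝓞 F)).mp coprime_neg_one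
  exact ⟨this.unit, this.unit_spec.symm⟩

end One

end Fermat.Agent.LT.Cls
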