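import Fermat.Agent.LT.Cls.Hk2
import Fermat.Agent.LT.Sp.Cover

set_option autoImplicit false
set_option linter.unusedSectionVars false

/-!
# Decay at all cusps
-/

namespace Fermat.Agent.LT.Cls

open Matrix Filter NumberField Glob Glob.LocFam IsDedekindDomain Sp Fou
open scoped MatrixGroups

section Place

variable {K : Type*} [Field K] [NumberField K] [IsTotallyComplex K]
  [Subsingleton (InfinitePlace K)] (w : InfinitePlace K)

/-- the absolute value and the norm -/
theorem norm_embedding_sq_norm (x : K) : ‖w.embedding x‖ ^ 2 = |(Algebra.norm ℚ x : ℚ)| := by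
  have h1 := InfinitePlace.prod_eq_abs_norm x
  have h2 : ∀ v : InfinitePlace K, v = w := fun v => Subsingleton.elim v w
  have h3 : ∏ v : InfinitePlace K, v x ^ v.mult = w x ^ w.mult := by
    rw [Finset.prod_eq_single w]
    · intro v _ hv
      exact absurd (h2 v) hv
    · intro h
      exact absurd (Finset.mem_univ w) h
  have h4 : w.mult = 2 := InfinitePlace.mult_isComplex ⟨w, IsTotallyComplex.isComplex w⟩
  rw [h3, h4] at h1
  rw [InfinitePlace.norm_embedding_eq, h1]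

/-- the absolute value and the absolute norm of the ideal -/
theorem norm_embedding_sq (ϖ : 𝓞 K) :
    ‖w.embedding (ϖ : K)‖ ^ 2 = (Ideal.span {ϖ}).absNorm := by
  rw [norm_embedding_sq_norm, Ideal.absNorm_span_singleton]
  have h1 : Algebra.norm ℚ ((ϖ : 𝓞 K) : K) = ((Algebra.norm ℤ ϖ : ℤ) : ℚ) :=
    (Algebra.coe_norm_int ϖ).symm
  rw [h1]
  have h2 : ((Algebra.norm ℤ ϖ).natAbs : ℝ) = |((Algebra.norm ℤ ϖ : ℤ) : ℝ)| :=
    Nat.cast_natAbs _ |>.trans (by push_cast; rfl)
  rw [h2]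
  push_cast
  rfl

theorem one_le_norm_embedding {t : 𝓞 K} (ht : t ≠ 0) : 1 ≤ ‖w.embedding (t : K)‖ := by
  have h1 := norm_embedding_sq w t
  have h2 : (Ideal.span {t}).absNorm ≠ 0 := by
    rw [Ne, Ideal.absNorm_eq_zero_iff, Ideal.span_singleton_eq_bot]
    exact ht
  have h3 : (1 : ℝ) ≤ (Ideal.span {t}).absNorm := by
    exact_mod_cast Nat.one_le_iff_ne_zero.2 h2
  rw [← h1] at h3
  nlinarith [norm_nonneg (w.embedding (t : K))]

end Place

/-- completion of a row in a principal ideal domain -/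
theorem exists_row {O : Type*} [CommRing O] [IsDomain O] [IsBezout O] {c d : O}
    (h : c ≠ 0 ∨ d ≠ 0) : ∃ (t c' d' : O) (γ : SpecialLinearGroup (Fin 2) O), t ≠ 0 ∧ c = t * c' ∧
      d = t * d' ∧ γ 1 0 = c' ∧ γ 1 1 = d' := by
  obtain ⟨c', hc⟩ := IsBezout.gcd_dvd_left c d
  obtain ⟨d', hd⟩ := IsBezout.gcd_dvd_right c d
  obtain ⟨r, s, hrs⟩ := IsBezout.gcd_eq_sum c d
  have ht : IsBezout.gcd c d ≠ 0 := by
    intro h0
    rw [h0, zero_mul] at hc hd
    rcases h with h | h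
    · exact h hc
    · exact h hd
  have h1 : r * c' + s * d' = 1 := by
    apply mul_left_cancel₀ ht
    linear_combination hrs - r * hc - s * hd
  refine ⟨_, c', d', ⟨!![s, -r; c', d'], ?_⟩, ht, hc, hd, rfl, rfl⟩
  rw [Matrix.det_fin_two_of]
  linear_combination h1

section Decay

variable {K : Type*} [Field K] [NumberField K] [IsTotallyComplex K]
  [Subsingleton (InfinitePlace K)] [IsPrincipalIdealRing (𝓞 K)] (w : InfinitePlace K)

/-- **Decay at all cusps.** -/
theorem decay_cusps {N : ℕ} (hN : N ≠ 0) {f : HF K × DN K hN → ℂ} (h : Fou.AutForm f)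
    (hdec : ∀ x : DN K hN, ∃ B : ℝ, ∀ q : H3, 1 / 2 ≤ q.y →
      ‖f (fun _ => q, x)‖ ≤ B * (q.y ^ 2)⁻¹) :
    ∃ C : ℝ, ∀ (q : H3) (c d : 𝓞 K), (c ≠ 0 ∨ d ≠ 0) →
      ‖f (fun _ => q, bN K hN)‖ ≤
        C * (q.q (w.embedding (c : K)) (w.embedding (d : K))) ^ 2 := by
  obtain ⟨C0, hC0⟩ := h.bdd
  choose B hB using hdec
  have hfin := Sp.finite_slO_orbit (F := K) (bN K hN)
  obtain ⟨B0, hB0⟩ : ∃ B0 : ℝ, ∀ e ∈ {e : DN K hN | ∃ γ : SpecialLinearGroup (Fin 2) (𝓞 K),
      slO K γ • bN K hN = e}, |B e| ≤ B0 := by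
    obtain ⟨B0, hB0⟩ := (hfin.image fun e => |B e|).bddAbove
    exact ⟨B0, fun e he => hB0 ⟨e, he, rfl⟩⟩
  refine ⟨|B0| + |C0|, fun q c d hcd => ?_⟩
  obtain ⟨t, c', d', γ, ht, rfl, rfl, hc', hd'⟩ := exists_row hcd
  have hq1 : q.q (w.embedding ((t * c' : 𝓞 K) : K)) (w.embedding ((t * d' : 𝓞 K) : K)) =
      ‖w.embedding (t : K)‖ ^ 2 * q.q (w.embedding (c' : K)) (w.embedding (d' : K)) := by
    have e : ∀ x : 𝓞 K, w.embedding ((t * x : 𝓞 K) : K) =
        w.embedding (t : K) * w.embedding (x : K) := fun x => by rw [← map_mul]; rfl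
    rw [← H3.q_smul, e, e]
  have ht1 := one_le_norm_embedding w ht
  have hq0 := q.q_nonneg (w.embedding (c' : K)) (w.embedding (d' : K))
  have hle : q.q (w.embedding (c' : K)) (w.embedding (d' : K)) ≤
      q.q (w.embedding ((t * c' : 𝓞 K) : K)) (w.embedding ((t * d' : 𝓞 K) : K)) := by
    rw [hq1]
    have : 1 ≤ ‖w.embedding (t : K)‖ ^ 2 := by nlinarith
    nlinarith
  set Q := q.q (w.embedding (c' : K)) (w.embedding (d' : K)) with hQ
  have hle2 : Q ^ 2 ≤ (q.q (w.embedding ((t * c' : 𝓞 K) : K))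
      (w.embedding ((t * d' : 𝓞 K) : K))) ^ 2 := pow_le_pow_left₀ hq0 hle 2
  -- translate
  have hf1 : f (fun _ => q, bN K hN) = f (fun _ => embGL w (slO K γ) • q, slO K γ • bN K hN) := by
    rw [← h.inv (slO K γ) (fun _ => q) (bN K hN)]
    congr 2
    funext v
    have hv : v = w := Subsingleton.elim _ _
    rw [smul_HF_apply, hv]
  have hdet : ((embGL w (slO K γ) : GL (Fin 2) ℂ) : Matrix (Fin 2) (Fin 2) ℂ).det = 1 := by
    rw [det_embGL]
    have : ((slO K γ : GL (Fin 2) K) : Matrix (Fin 2) (Fin 2) K).det = 1 := by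
      exact (SpecialLinearGroup.map (algebraMap (𝓞 K) K) γ).2
    rw [this, map_one]
  have hrow0 : embGL w (slO K γ) 1 0 = w.embedding (c' : K) := by
    rw [embGL_apply, ← hc']
    rfl
  have hrow1 : embGL w (slO K γ) 1 1 = w.embedding (d' : K) := by
    rw [embGL_apply, ← hd']
    rfl
  have hy : (embGL w (slO K γ) • q).y = 1 / Q := by
    rw [H3.y_smul, hdet, norm_one, hrow0, hrow1]
  have hypos := (embGL w (slO K γ) • q).pos
  have hQpos : 0 < Q := by
    rw [hy] at hypos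
    exact one_div_pos.1 hypos
  have hmain : ‖f (fun _ => q, bN K hN)‖ ≤ (|B0| + |C0|) * Q ^ 2 := by
    by_cases hcase : 1 / 2 ≤ (embGL w (slO K γ) • q).y
    · rw [hf1]
      refine (hB _ _ hcase).trans ?_
      rw [hy]
      have e1 : ((1 / Q) ^ 2)⁻¹ = Q ^ 2 := by field_simp
      rw [e1]
      have h1 : B (slO K γ • bN K hN) ≤ |B0| + |C0| := by
        have h2 := hB0 (slO K γ • bN K hN) ⟨γ, rfl⟩
        have h3 := le_abs_self (B (slO K γ • bN K hN))
        have h4 := le_abs_self B0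
        have h5 := abs_nonneg C0
        linarith
      exact mul_le_mul_of_nonneg_right h1 (sq_nonneg _)
    · rw [not_le, hy, div_lt_div_iff₀ hQpos two_pos] at hcase
      refine (hC0 _).trans ?_
      have h1 : 1 ≤ Q ^ 2 := by nlinarith
      have h2 := le_abs_self C0
      have h3 : |C0| ≤ (|B0| + |C0|) * Q ^ 2 := by
        nlinarith [abs_nonneg B0, abs_nonneg C0, mul_nonneg (abs_nonneg C0) (sub_nonneg.2 h1),
          mul_nonneg (abs_nonneg B0) (sq_nonneg Q)]
      linarith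
  refine hmain.trans ?_
  exact mul_le_mul_of_nonneg_left hle2 (by positivity)

end Decay

end Fermat.Agent.LT.Cls
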