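import Fermat.Agent.LT.Cls.Exp
import Fermat.Agent.LT.Cls.Exp2

set_option autoImplicit false
set_option linter.unusedSectionVars false

/-!
# Rapid decay at infinity
-/

namespace Fermat.Agent.LT.Cls

open MeasureTheory Complex Topology NumberField Sp Fou Set RS
open scoped Real ComplexConjugate ContDiff

variable {K : Type*} [Field K] [NumberField K] [IsCyclotomicExtension {3} ℚ K]
  [IsTotallyComplex K] [Subsingleton (InfinitePlace K)] (w : InfinitePlace K)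

theorem ev_at_zero (ξ : K) : ev ξ (0 : InfinitePlace K → ℂ) = 1 := by
  unfold ev
  rw [mul_zero]
  have : trV (0 : InfinitePlace K → ℂ) = 0 := by simp [trV]
  rw [this]
  simp

include w in
theorem hdec' {D : Type*} [MulAction (GL (Fin 2) K) D] [FinPart K D] {φ : HF K × D → ℂ}
    (h : AutForm φ) (x : D) (A : ℕ) : ∃ B : ℝ, 0 ≤ B ∧ ∀ q : H3, 1 / 2 ≤ q.y →
      ‖φ (cst q, x)‖ ≤ B * (q.y ^ A)⁻¹ := by
  obtain ⟨N, hN, hd⟩ := exists_Lvl (F := K) x
  have hNpos : 0 < N := Nat.pos_of_ne_zero hN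
  have hN0 : (0 : ℝ) < N := by exact_mod_cast hNpos
  obtain ⟨C, hC0, hC⟩ := norm_Whk_le w h
  set ξ : {m : Fin 2 → ℤ // m ≠ 0} → ℂ := fun m => w.embedding (dpt K N m.1) with hξ
  have hge : ∀ m : {m : Fin 2 → ℤ // m ≠ 0}, ‖m.1‖ / (2 * N) ≤ ‖ξ m‖ := fun m =>
    norm_dpt_ge (K := K) w.embedding hNpos m.1
  have hone : ∀ m : {m : Fin 2 → ℤ // m ≠ 0}, 1 ≤ ‖m.1‖ := by
    intro m
    obtain ⟨j, hj⟩ : ∃ j, m.1 j ≠ 0 := by
      by_contra hcon
      push Not at hcon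
      exact m.2 (funext hcon)
    refine le_trans ?_ (norm_le_pi_norm m.1 j)
    rw [Int.norm_eq_abs]
    exact_mod_cast Int.one_le_abs hj
  have hmin : ∀ m : {m : Fin 2 → ℤ // m ≠ 0}, 1 / (2 * N) ≤ ‖ξ m‖ := by
    intro m
    refine le_trans ?_ (hge m)
    have := hone m
    gcongr
  have hs : Summable fun m : {m : Fin 2 → ℤ // m ≠ 0} => (‖ξ m‖ ^ 3)⁻¹ := by
    have h1 : Summable fun x : Fin 2 → ℤ => ‖x‖ ^ (-(3 : ℝ)) :=
      EisensteinSeries.summable_one_div_norm_rpow (by norm_num)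
    have h2 := (h1.comp_injective (Subtype.val_injective (p := fun m : Fin 2 → ℤ => m ≠ 0))).mul_left
      ((2 * N : ℝ) ^ 3)
    refine Summable.of_nonneg_of_le (fun m => by positivity) (fun m => ?_) h2
    have hm0 : 0 < ‖m.1‖ := lt_of_lt_of_le one_pos (hone m)
    calc (‖ξ m‖ ^ 3)⁻¹ ≤ ((‖m.1‖ / (2 * N)) ^ 3)⁻¹ := by
          apply inv_anti₀ (by positivity)
          exact pow_le_pow_left₀ (by positivity) (hge m) 3
      _ = (2 * N : ℝ) ^ 3 * ‖m.1‖ ^ (-(3 : ℝ)) := by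
          rw [div_pow, inv_div, Real.rpow_neg hm0.le, show (3 : ℝ) = ((3 : ℕ) : ℝ) by norm_num,
            Real.rpow_natCast]
          ring
      _ = _ := rfl
  obtain ⟨B, hB0, hB⟩ := H3.decay (ξ := ξ) (m := 1 / (2 * N)) (by positivity) hmin hs
    (c := fun m => Whk w φ (dpt K N m.1) x) (C := C) (fun m => hC _ _) A
  refine ⟨B, hB0, fun q hq => ?_⟩
  obtain ⟨hsum, hle⟩ := hB q.y hq q.z
  have hper : Per N (fun v => φ (tra v (cst q), x)) := h.toIsInv.per hd (cst q)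
  have hinj : Function.Injective (fun m : {m : Fin 2 → ℤ // m ≠ 0} => dpt K N m.1) :=
    fun m n hmn => Subtype.ext (dpt_inj hNpos hmn)
  have hcof : ∀ m : {m : Fin 2 → ℤ // m ≠ 0}, cof φ (dpt K N m.1) (cst q) x =
      Whk w φ (dpt K N m.1) x * ((q.y * K0 (4 * π * ‖ξ m‖ * q.y) : ℝ) : ℂ) *
        H3.ex (ξ m) q.z := fun m => cof_eq w h (dpt K N m.1) q x
  have hzero : ∀ η : K, η ∉ Set.range (fun m : {m : Fin 2 → ℤ // m ≠ 0} => dpt K N m.1) →
      cof φ η (cst q) x = 0 := by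
    intro η hη
    by_cases hdual : IsDual N η
    · obtain ⟨m, rfl⟩ := dpt_surj hNpos (inD_of_isDual w hdual)
      by_cases hm : m = 0
      · have : dpt K N m = 0 := by rw [hm, dpt]; simp
        rw [this]
        exact h.cusp _ _
      · exact absurd ⟨⟨m, hm⟩, rfl⟩ hη
    · exact cof_eq_zero h.toIsInv hN hd hdual _
  have hsumK : Summable fun η : K => ‖cof φ η (cst q) x‖ := by
    refine (hinj.summable_iff (fun η hη => by rw [hzero η hη, norm_zero])).mp ?_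
    have : ((fun η : K => ‖cof φ η (cst q) x‖) ∘
        fun m : {m : Fin 2 → ℤ // m ≠ 0} => dpt K N m.1) = fun m => ‖Whk w φ (dpt K N m.1) x *
          ((q.y * K0 (4 * π * ‖ξ m‖ * q.y) : ℝ) : ℂ) * H3.ex (ξ m) q.z‖ := by
      funext m
      simp only [Function.comp_apply, hcof m]
    rw [this]
    exact hsum.norm
  have h1 := Fou.eq_tsum hN hper hsumK 0
  simp only [tra_zero] at h1
  have e2 : ∀ η : K, fc (fun v => φ (tra v (cst q), x)) η * ev η (0 : InfinitePlace K → ℂ) =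
      cof φ η (cst q) x := by
    intro η
    rw [ev_at_zero, mul_one]
    rfl
  rw [h1]
  simp only [e2]
  rw [← hinj.tsum_eq (f := fun η : K => cof φ η (cst q) x) (by
    intro η hη
    by_contra hcon
    exact hη (hzero η hcon))]
  simp only [hcof]
  exact hle

include w in
theorem hdec {D : Type*} [MulAction (GL (Fin 2) K) D] [FinPart K D] {φ : HF K × D → ℂ}
    (h : AutForm φ) (x : D) : ∃ B : ℝ, 0 ≤ B ∧ ∀ q : H3, 1 / 2 ≤ q.y →
      ‖φ (cst q, x)‖ ≤ B * (q.y ^ 2)⁻¹ := hdec' w h x 2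

end Fermat.Agent.LT.Cls
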