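import Fermat.Agent.LT.Cls.One

set_option autoImplicit false

/-!
# `GL₂(𝔸_f) = GL₂(F) · diag(a, 1)_N · 𝒰_N`
-/

namespace Fermat.Agent.LT.Cls

open Matrix Filter NumberField Glob Glob.LocFam IsDedekindDomain
open scoped MatrixGroups

variable {F : Type*} [Field F] [NumberField F]

/-- the places dividing `N` -/
def Bad (F : Type*) [Field F] [NumberField F] (N : ℕ) (v : HeightOneSpectrum (𝓞 F)) : Prop :=
  (N : 𝓞 F) ∈ v.asIdeal

open WithZero in
/-- the valuation on the local rings -/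
noncomputable def vl (v : HeightOneSpectrum (𝓞 F)) : Valuation ((locK F).R v) ℤᵐ⁰ :=
  (Valued.v : Valuation (v.adicCompletion F) ℤᵐ⁰)

theorem mem_O_iff_vl (v : HeightOneSpectrum (𝓞 F)) (x : (locK F).R v) :
    x ∈ (locK F).O v ↔ vl v x ≤ 1 := Iff.rfl

theorem vl_loc (v : HeightOneSpectrum (𝓞 F)) (x : F) :
    vl v ((locK F).loc v x) = v.valuation F x := valued_algebraMap v x

theorem vl_loc_lt_one_iff (v : HeightOneSpectrum (𝓞 F)) (x : 𝓞 F) :
    vl v ((locK F).loc v (x : F)) < 1 ↔ x ∈ v.asIdeal := by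
  rw [vl_loc]
  exact v.valuation_lt_one_iff_mem x

theorem vl_loc_le_one (v : HeightOneSpectrum (𝓞 F)) (x : 𝓞 F) :
    vl v ((locK F).loc v (x : F)) ≤ 1 := by
  rw [vl_loc]
  exact v.valuation_le_one x

theorem loc_natCast (v : HeightOneSpectrum (𝓞 F)) (N : ℕ) :
    ((N : ℕ) : (locK F).R v) = (locK F).loc v ((N : 𝓞 F) : F) := by
  simp

theorem vl_natCast_lt_one_iff (v : HeightOneSpectrum (𝓞 F)) (N : ℕ) :
    vl v ((N : ℕ) : (locK F).R v) < 1 ↔ Bad F N v := by
  rw [loc_natCast, vl_loc_lt_one_iff]; rfl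

theorem isUnit_of_vl {v : HeightOneSpectrum (𝓞 F)} {x : (locK F).R v} (h : vl v x = 1) :
    ∃ y ∈ (locK F).O v, x * y = 1 := by
  have key : ∀ x : v.adicCompletion F, Valued.v x = 1 → ∃ y : v.adicCompletion F,
      Valued.v y ≤ 1 ∧ x * y = 1 := by
    intro x h
    have h0 : x ≠ 0 := by
      rintro rfl
      rw [map_zero] at h
      exact zero_ne_one h
    exact ⟨x⁻¹, by rw [map_inv₀, h, inv_one], mul_inv_cancel₀ h0⟩
  exact key x h

theorem not_bad_iff {N : ℕ} (v : HeightOneSpectrum (𝓞 F)) : ¬ Bad F N v ↔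
    ∃ y ∈ (locK F).O v, (N : (locK F).R v) * y = 1 := by
  rw [← vl_natCast_lt_one_iff]
  constructor
  · intro h
    apply isUnit_of_vl
    refine le_antisymm ?_ (not_lt.1 h)
    rw [loc_natCast]
    exact vl_loc_le_one v _
  · rintro ⟨y, hy, e⟩ h
    have h2 : vl v ((N : ℕ) : (locK F).R v) * vl v y = 1 := by rw [← map_mul, e, map_one]
    exact absurd h2 (mul_lt_one_of_lt_of_le h hy).ne

theorem natCast_sub_mem {N : ℕ} {v : HeightOneSpectrum (𝓞 F)} (h : ¬ Bad F N v)
    {x : (locK F).R v} (hx : x ∈ (locK F).O v) : x ∈ NO ((locK F).O v) N := by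
  obtain ⟨y, hy, e⟩ := (not_bad_iff v).mp h
  exact ⟨y * x, ((locK F).O v).mul_mem hy hx, by rw [← mul_assoc, e, one_mul]⟩

theorem finite_bad {N : ℕ} (hN : N ≠ 0) : {v | Bad F N v}.Finite := by
  have := eventually_natCast (locK F) hN
  rw [eventually_cofinite] at this
  refine this.subset fun v hv => ?_
  intro h
  exact ((not_bad_iff v).mpr h) hv

open Classical in
/-- an element of `GL₂(F)` placed at the places dividing `N` -/
noncomputable def resN (N : ℕ) : GL (Fin 2) F →* (locK F).GA where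
  toFun γ := ⟨fun v => if Bad F N v then (locK F).emb v γ else 1, by
    filter_upwards [(locK F).eventually_emb_mem γ] with v hv
    split_ifs
    · exact hv
    · exact one_mem _⟩
  map_one' := by
    apply Subtype.ext; funext v
    show (if Bad F N v then (locK F).emb v 1 else 1) = 1
    rw [map_one, ite_self]
  map_mul' g h := by
    apply Subtype.ext; funext v
    show (if Bad F N v then (locK F).emb v (g * h) else 1) =
      (if Bad F N v then (locK F).emb v g else 1) * (if Bad F N v then (locK F).emb v h else 1)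
    split_ifs
    · exact map_mul _ _ _
    · rw [one_mul]

theorem resN_bad {N : ℕ} {v : HeightOneSpectrum (𝓞 F)} (h : Bad F N v) (γ : GL (Fin 2) F) :
    (resN N γ).1 v = (locK F).emb v γ := if_pos h

theorem resN_good {N : ℕ} {v : HeightOneSpectrum (𝓞 F)} (h : ¬ Bad F N v) (γ : GL (Fin 2) F) :
    (resN N γ).1 v = 1 := if_neg h

omit [NumberField F] in
theorem aMat_eq_tri (a : Fˣ) : Sp.aMat a = tri a 1 0 := by
  apply Units.ext
  rw [Sp.aMat_coe, tri_coe]
  rfl

/-- `aMat` as a homomorphism -/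
noncomputable def aHom (F : Type*) [Field F] [NumberField F] : Fˣ →* GL (Fin 2) F where
  toFun a := Sp.aMat a
  map_one' := by
    apply Units.ext
    rw [Sp.aMat_coe]
    simp [Matrix.one_fin_two]
  map_mul' a b := by
    apply Units.ext
    rw [Units.val_mul, Sp.aMat_coe, Sp.aMat_coe, Sp.aMat_coe]
    simp

theorem aHom_apply (a : Fˣ) : aHom F a = Sp.aMat a := rfl

/-- `diag(a, 1)` at the places dividing `N` -/
noncomputable def tN (N : ℕ) : Fˣ →* (locK F).GA := (resN N).comp (aHom F)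

theorem tN_bad {N : ℕ} {v : HeightOneSpectrum (𝓞 F)} (h : Bad F N v) (a : Fˣ) :
    (tN N a).1 v = (locK F).emb v (Sp.aMat a) := resN_bad h _

theorem tN_good {N : ℕ} {v : HeightOneSpectrum (𝓞 F)} (h : ¬ Bad F N v) (a : Fˣ) :
    (tN N a).1 v = 1 := resN_good h _

/-- `a` is a unit at the places dividing `N` -/
def UnN (N : ℕ) (a : Fˣ) : Prop := ∀ v : HeightOneSpectrum (𝓞 F), Bad F N v →
  (locK F).un v a ∈ OU ((locK F).O v)

theorem emb_aMat (v : HeightOneSpectrum (𝓞 F)) (a : Fˣ) : (locK F).emb v (Sp.aMat a) =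
    ProjGenLinGroup.mk (tri ((locK F).un v a) 1 0) := by
  rw [aMat_eq_tri, emb_tri, map_one, map_zero]

theorem tN_mem_PO {N : ℕ} {a : Fˣ} (ha : UnN N a) (v : HeightOneSpectrum (𝓞 F)) :
    (tN N a).1 v ∈ PO ((locK F).O v) := by
  by_cases h : Bad F N v
  · rw [tN_bad h, emb_aMat]
    exact mk_mem_PO (tri_mem (ha v h) (one_mem _) (zero_mem _))
  · rw [tN_good h]; exact one_mem _

/-- elements prime to `N` are units at the places dividing `N` -/
theorem unN_of_isCoprime {N : ℕ} {a : 𝓞 F} (h : IsCoprime a (N : 𝓞 F)) (ha : (a : F) ≠ 0) :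
    UnN N (Units.mk0 (a : F) ha) := by
  intro v hv
  have h1 : a ∉ v.asIdeal := by
    intro h1
    obtain ⟨x, y, e⟩ := h
    apply v.isPrime.ne_top
    rw [Ideal.eq_top_iff_one, ← e]
    exact v.asIdeal.add_mem (v.asIdeal.mul_mem_left x h1) (v.asIdeal.mul_mem_left y hv)
  have h2 : vl v ((locK F).loc v (a : F)) = 1 :=
    le_antisymm (vl_loc_le_one v a) (not_lt.1 fun h3 => h1 ((vl_loc_lt_one_iff v a).mp h3))
  obtain ⟨y, hy, e⟩ := isUnit_of_vl h2
  refine ⟨h2.le, ?_⟩
  have e1 : ((((locK F).un v (Units.mk0 (a : F) ha))⁻¹ : ((locK F).R v)ˣ) : (locK F).R v) = y := by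
    have e2 : (((locK F).un v (Units.mk0 (a : F) ha) : ((locK F).R v)ˣ) : (locK F).R v) * y = 1 := e
    exact Units.inv_eq_of_mul_eq_one_right e2
  rw [e1]
  exact hy

theorem inv_mul_mem_KN {R : Type*} [CommRing R] {O : Subring R} {N : ℕ} {x h : GL (Fin 2) R}
    (hx : x ∈ GLO O) (hh : h ∈ GLO O) (e : ∀ i j, h i j - x i j ∈ NO O N) : x⁻¹ * h ∈ KN O N := by
  refine ⟨mul_mem (inv_mem hx) hh, fun i j => ?_⟩
  have e1 : ((x⁻¹ * h : GL (Fin 2) R) : Matrix (Fin 2) (Fin 2) R) - 1 =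
      ((x⁻¹ : GL (Fin 2) R) : Matrix (Fin 2) (Fin 2) R) *
        ((h : Matrix (Fin 2) (Fin 2) R) - (x : Matrix (Fin 2) (Fin 2) R)) := by
    rw [mul_sub, ← Units.val_mul, ← Units.val_mul, inv_mul_cancel, Units.val_one]
  rw [← Matrix.sub_apply, e1, Matrix.mul_apply]
  exact sum_mem fun k _ => mul_mem_NO (hx.2 i k) (e k j)

theorem det_sub_mem {R : Type*} [CommRing R] {O : Subring R} {N : ℕ}
    {m h : Matrix (Fin 2) (Fin 2) R} (hh : ∀ i j, h i j ∈ O) (e : ∀ i j, m i j - h i j ∈ NO O N) :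
    m.det - h.det ∈ NO O N := by
  have hm : ∀ i j, m i j ∈ O := by
    intro i j
    have := O.add_mem (NO_le _ _ (e i j)) (hh i j)
    rwa [sub_add_cancel] at this
  rw [Matrix.det_fin_two, Matrix.det_fin_two]
  have e1 : m 0 0 * m 1 1 - m 0 1 * m 1 0 - (h 0 0 * h 1 1 - h 0 1 * h 1 0) =
      m 0 0 * (m 1 1 - h 1 1) + (m 0 0 - h 0 0) * h 1 1 -
        (m 0 1 * (m 1 0 - h 1 0) + (m 0 1 - h 0 1) * h 1 0) := by ring
  rw [e1]
  exact sub_mem (add_mem (mul_mem_NO (hm _ _) (e _ _)) (mul_mem_NO' (e _ _) (hh _ _)))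
    (add_mem (mul_mem_NO (hm _ _) (e _ _)) (mul_mem_NO' (e _ _) (hh _ _)))

/-- global divisibility gives local divisibility -/
theorem loc_mem_NO {N : ℕ} {x : 𝓞 F} (h : (N : 𝓞 F) ∣ x) (v : HeightOneSpectrum (𝓞 F)) :
    (locK F).loc v (x : F) ∈ NO ((locK F).O v) N := by
  obtain ⟨y, rfl⟩ := h
  refine ⟨(locK F).loc v (y : F), ((locK F).isIntegral_iff _).mp y.2 v, ?_⟩
  have : (((N : 𝓞 F) * y : 𝓞 F) : F) = (N : F) * (y : F) := by push_cast; rfl
  rw [this, map_mul, map_natCast]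

/-- **The decomposition.** -/
theorem exists_decomp [IsPrincipalIdealRing (𝓞 F)] {N : ℕ} (hN : N ≠ 0) (g : (locK F).GA) :
    ∃ (γ : GL (Fin 2) F) (a : 𝓞 F) (ha : (a : F) ≠ 0), IsCoprime a (N : 𝓞 F) ∧
      g • D.base (pL (locK F) N hN) =
        γ • tN N (Units.mk0 (a : F) ha) • D.base (pL (locK F) N hN) := by
  classical
  obtain ⟨γ0, h0⟩ := exists_GL_mem_PO g
  choose h hh hg using fun v => mem_PO.mp (h0 v)
  -- approximation by an integral matrix
  obtain ⟨S, hS⟩ := exists_finset_compl (eventually_natCast (locK F) hN)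
  have hm : ∀ i j, ∃ x : 𝓞 F, ∀ v, (locK F).loc v (x : F) - h v i j ∈ NO ((locK F).O v) N := by
    intro i j
    obtain ⟨x, hx1, hx2⟩ := (locK F).dense S (fun v => h v i j) N hN
    have hx : ∀ v, (locK F).loc v x ∈ (locK F).O v := by
      intro v
      by_cases hv : v ∈ S
      · have := ((locK F).O v).add_mem (NO_le _ _ (hx1 v hv)) ((hh v).1 i j)
        rwa [sub_add_cancel] at this
      · exact hx2 v hv
    refine ⟨⟨x, ((locK F).isIntegral_iff x).mpr hx⟩, fun v => ?_⟩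
    by_cases hv : v ∈ S
    · exact hx1 v hv
    · exact natCast_sub_mem ((not_bad_iff v).mpr (hS v hv))
        (((locK F).O v).sub_mem (hx v) ((hh v).1 i j))
  choose m hm using hm
  set M : Matrix (Fin 2) (Fin 2) (𝓞 F) := Matrix.of m with hM
  have hlM : ∀ v i j, ((M.map (algebraMap (𝓞 F) F)).map ((locK F).loc v)) i j =
      (locK F).loc v (m i j : F) := fun v i j => rfl
  have hdetM : ∀ v, (locK F).loc v (M.det : F) =
      ((M.map (algebraMap (𝓞 F) F)).map ((locK F).loc v)).det := by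
    intro v
    rw [Matrix.det_fin_two, Matrix.det_fin_two]
    show (locK F).loc v (algebraMap (𝓞 F) F (M 0 0 * M 1 1 - M 0 1 * M 1 0)) = _
    simp only [map_sub, map_mul, Matrix.map_apply]
  have hdet : ∀ v, (locK F).loc v (M.det : F) -
      (h v : Matrix (Fin 2) (Fin 2) ((locK F).R v)).det ∈ NO ((locK F).O v) N := by
    intro v
    rw [hdetM]
    exact det_sub_mem (hh v).1 (fun i j => hm i j v)
  -- the determinant is prime to `N`
  have hcop : IsCoprime M.det (N : 𝓞 F) := by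
    rw [← Ideal.isCoprime_span_singleton_iff, Ideal.isCoprime_iff_sup_eq]
    by_contra hne
    obtain ⟨P, hP, hle⟩ := Ideal.exists_le_maximal _ hne
    have hN' : (N : 𝓞 F) ∈ P := hle (Ideal.mem_sup_right (Ideal.mem_span_singleton_self _))
    have hD : M.det ∈ P := hle (Ideal.mem_sup_left (Ideal.mem_span_singleton_self _))
    have hP0 : P ≠ ⊥ := by
      rintro rfl
      rw [Ideal.mem_bot] at hN'
      exact hN (by exact_mod_cast hN')
    set v : HeightOneSpectrum (𝓞 F) := ⟨P, hP.isPrime, hP0⟩ with hv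
    have h1 : vl v ((locK F).loc v (M.det : F)) < 1 := (vl_loc_lt_one_iff v _).mpr hD
    have h2 : vl v (h v : Matrix (Fin 2) (Fin 2) ((locK F).R v)).det < 1 := by
      obtain ⟨y, hy, e⟩ := hdet v
      have e2 : (h v : Matrix (Fin 2) (Fin 2) ((locK F).R v)).det =
          (locK F).loc v (M.det : F) - ((N : ℕ) : (locK F).R v) * y := by
        rw [← e]; ring
      rw [e2]
      refine Valuation.map_sub_lt _ h1 ?_
      rw [map_mul]
      refine mul_lt_one_of_lt_of_le ?_ hy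
      rw [vl_natCast_lt_one_iff]
      exact hN'
    have h3 := (mem_GLO_iff.mp (hh v)).2
    have h4 : vl v (h v : Matrix (Fin 2) (Fin 2) ((locK F).R v)).det *
        vl v (((GeneralLinearGroup.det (h v))⁻¹ : ((locK F).R v)ˣ) : (locK F).R v) = 1 := by
      rw [← map_mul]
      have : (h v : Matrix (Fin 2) (Fin 2) ((locK F).R v)).det *
        (((GeneralLinearGroup.det (h v))⁻¹ : ((locK F).R v)ˣ) : (locK F).R v) = 1 :=
        (GeneralLinearGroup.det (h v)).mul_inv
      rw [this, map_one]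
    exact absurd h4 (mul_lt_one_of_lt_of_le h2 h3).ne
  -- a nonzero representative of the determinant
  obtain ⟨a, ha0, r, har⟩ : ∃ a : 𝓞 F, a ≠ 0 ∧ ∃ r, a = M.det + r * N := by
    by_cases h0 : M.det = 0
    · exact ⟨(N : 𝓞 F), by exact_mod_cast hN, 1, by rw [h0]; ring⟩
    · exact ⟨M.det, h0, 0, by ring⟩
  have hacop : IsCoprime a (N : 𝓞 F) := by
    rw [har]
    exact hcop.add_mul_right_left _
  have haF : (a : F) ≠ 0 := by simpa using ha0
  obtain ⟨D1, E1, hD1⟩ := id hacop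
  -- the matrix in `SL₂(𝓞 F)`
  obtain ⟨s, hs⟩ := exists_SL_congr (M * !![D1, 0; 0, 1]) (n := (N : 𝓞 F))
    (by exact_mod_cast hN) (by
      rw [Matrix.det_mul]
      simp only [Matrix.det_fin_two_of, mul_one, mul_zero, sub_zero]
      refine ⟨-E1 - r * D1, ?_⟩
      linear_combination hD1 - D1 * har)
  refine ⟨γ0⁻¹ * slO F s, a, haF, hacop, ?_⟩
  show g • D.base (pL (locK F) N hN) = (locK F).diag (γ0⁻¹ * slO F s) •
    tN N (Units.mk0 (a : F) haF) • D.base (pL (locK F) N hN)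
  rw [← mul_smul, eq_comm, GA_smul_base_eq_iff]
  intro v
  show (((locK F).diag (γ0⁻¹ * slO F s)).1 v * (tN N (Units.mk0 (a : F) haF)).1 v)⁻¹ * g.1 v ∈
    PK ((locK F).O v) N
  have e1 : (((locK F).diag (γ0⁻¹ * slO F s)).1 v * (tN N (Units.mk0 (a : F) haF)).1 v)⁻¹ * g.1 v =
      ((tN N (Units.mk0 (a : F) haF)).1 v)⁻¹ * ((locK F).emb v (slO F s))⁻¹ *
        ((locK F).emb v γ0 * g.1 v) := by
    have : ((locK F).diag (γ0⁻¹ * slO F s)).1 v =
      ((locK F).emb v γ0)⁻¹ * (locK F).emb v (slO F s) := by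
      show (locK F).emb v (γ0⁻¹ * slO F s) = _
      rw [map_mul, map_inv]
    rw [this]
    group
  rw [e1, ← hg v]
  by_cases hv : Bad F N v
  · rw [tN_bad hv, emb_aMat, emb_eq, ← _root_.mul_inv_rev, ← map_mul, ← map_inv, ← map_mul]
    apply mk_mem_PK
    have hun := unN_of_isCoprime hacop haF v hv
    refine inv_mul_mem_KN (mul_mem (map_slO_mem v s) (tri_mem hun (one_mem _) (zero_mem _))) (hh v)
      fun i j => ?_
    have e2 : ∀ i j, (GeneralLinearGroup.map ((locK F).loc v) (slO F s) *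
        tri ((locK F).un v (Units.mk0 (a : F) haF)) 1 0 : GL (Fin 2) ((locK F).R v)) i j =
        (locK F).loc v (((s.1 * !![a, 0; 0, 1] : Matrix (Fin 2) (Fin 2) (𝓞 F)) i j : 𝓞 F) : F) := by
      intro i j
      rw [Units.val_mul, Matrix.mul_apply, Matrix.mul_apply, Fin.sum_univ_two, Fin.sum_univ_two]
      have e3 : ∀ i j, (GeneralLinearGroup.map ((locK F).loc v) (slO F s)) i j =
        (locK F).loc v ((s i j : 𝓞 F) : F) := fun i j => rfl
      rw [e3, e3, tri_coe]
      have e4 : ∀ x y z w : 𝓞 F, ((x * y + z * w : 𝓞 F) : F) = (x : F) * (y : F) + (z : F) * (w : F) := by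
        intro x y z w; push_cast; rfl
      rw [e4, map_add, map_mul, map_mul]
      fin_cases j <;> simp
    rw [e2]
    have h1 : (N : 𝓞 F) ∣ m i j - (s.1 * !![a, 0; 0, 1] : Matrix (Fin 2) (Fin 2) (𝓞 F)) i j := by
      obtain ⟨x, hx⟩ := hs i 0
      obtain ⟨y, hy⟩ := hs i 1
      rw [Matrix.mul_apply, Fin.sum_univ_two] at hx hy
      simp only [Matrix.of_apply, Matrix.cons_val', Matrix.cons_val_zero, Matrix.cons_val_one,
        Matrix.cons_val_fin_one, mul_zero, add_zero, zero_add, mul_one] at hx hy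
      have hx' : s.1 i 0 - m i 0 * D1 = N * x := hx
      have hy' : s.1 i 1 - m i 1 = N * y := hy
      rw [Matrix.mul_apply, Fin.sum_univ_two]
      fin_cases j
      · simp only [Fin.zero_eta, Matrix.of_apply, Matrix.cons_val', Matrix.cons_val_zero,
          Matrix.cons_val_one, Matrix.cons_val_fin_one, mul_zero, add_zero]
        exact ⟨m i 0 * E1 - x * a, by linear_combination (-m i 0) * hD1 - a * hx'⟩
      · simp only [Fin.mk_one, Matrix.of_apply, Matrix.cons_val', Matrix.cons_val_zero,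
          Matrix.cons_val_one, Matrix.cons_val_fin_one, mul_zero, zero_add, mul_one]
        exact ⟨-y, by linear_combination -hy'⟩
    have h2 := loc_mem_NO h1 v
    have h3 := hm i j v
    have e5 : ((m i j - (s.1 * !![a, 0; 0, 1] : Matrix (Fin 2) (Fin 2) (𝓞 F)) i j : 𝓞 F) : F) =
      (m i j : F) - (((s.1 * !![a, 0; 0, 1] : Matrix (Fin 2) (Fin 2) (𝓞 F)) i j : 𝓞 F) : F) := by
      push_cast; rfl
    rw [e5, map_sub] at h2
    have := sub_mem h2 h3
    convert this using 1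
    ring
  · rw [tN_good hv, inv_one, one_mul, PK_eq_PO_of_isUnit _ ((not_bad_iff v).mp hv)]
    refine mul_mem (inv_mem ?_) (mk_mem_PO (hh v))
    rw [emb_eq]
    exact mk_mem_PO (map_slO_mem v s)

end Fermat.Agent.LT.Cls
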