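import Fermat.Agent.LT.Cls.Chi

set_option autoImplicit false

/-!
# Hecke operators: from the local to the classical form
-/

namespace Fermat.Agent.LT.Cls

open Matrix Filter NumberField Glob Glob.LocFam IsDedekindDomain Sp Fou
open scoped MatrixGroups

section Single

universe w u i

variable {F : Type u} [Field F] {ι : Type i} {L : LocFam.{w} F ι}

open Classical in
/-- an element at one place -/
noncomputable def sgl (v : ι) : L.G v →* L.GA where
  toFun x := ⟨Pi.mulSingle v x, by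
    have : ∀ᶠ w in cofinite, w ≠ v := by
      rw [eventually_cofinite]
      simp
    filter_upwards [this] with w hw
    rw [Pi.mulSingle_eq_of_ne hw]
    exact one_mem _⟩
  map_one' := by apply Subtype.ext; exact Pi.mulSingle_one v
  map_mul' x y := by apply Subtype.ext; exact Pi.mulSingle_mul v x y

theorem sgl_same (v : ι) (x : L.G v) : (sgl v x).1 v = x := by
  classical
  exact Pi.mulSingle_eq_same v x

theorem sgl_ne {v w : ι} (h : w ≠ v) (x : L.G v) : (sgl v x).1 w = 1 := by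
  classical
  exact Pi.mulSingle_eq_of_ne h x

/-- elements at one place commute with elements trivial at this place -/
theorem sgl_comm {v : ι} (x : L.G v) {h : L.GA} (hh : h.1 v = 1) : sgl v x * h = h * sgl v x := by
  apply Subtype.ext
  funext w
  show (sgl v x).1 w * h.1 w = h.1 w * (sgl v x).1 w
  by_cases hw : w = v
  · subst hw; rw [hh, one_mul, mul_one]
  · rw [sgl_ne hw, one_mul, mul_one]

/-- **Hecke eigenfunction at `v`**, with respect to coset representatives -/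
def HK {U : L.Level} (v : ι) {J : Type*} (R : Finset J) (s : J → L.G v) (lam : ℂ)
    (φ : HF F × D U → ℂ) : Prop :=
  ∀ (p : HF F) (g : L.GA), ∑ j ∈ R, φ (p, (g * sgl v (s j)) • D.base U) = lam * φ (p, g • D.base U)

/-- pull-back along right translations trivial at `v` -/
theorem HK.pull {U' U : L.Level} {v : ι} {J : Type*} {R : Finset J} {s : J → L.G v} {lam : ℂ}
    {φ : HF F × D U → ℂ} (h : HK v R s lam φ) {k : L.GA} (H : Nrm k U' U) (hk : k.1 v = 1) :
    HK v R s lam (fun x : HF F × D U' => φ (x.1, rmap H x.2)) := by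
  intro p g
  have e : ∀ j, rmap H ((g * sgl v (s j)) • D.base U') = ((g * k) * sgl v (s j)) • D.base U := by
    intro j
    rw [rmap_smul_base, mul_assoc, sgl_comm _ hk, mul_assoc]
  simp only [e, rmap_smul_base]
  exact h p (g * k)

theorem HK.lin {U : L.Level} {v : ι} {J : Type*} {R : Finset J} {s : J → L.G v} {lam : ℂ}
    {I : Type*} (T : Finset I) (c : I → ℂ) {φ : I → HF F × D U → ℂ}
    (h : ∀ i ∈ T, HK v R s lam (φ i)) : HK v R s lam (fun x => ∑ i ∈ T, c i * φ i x) := by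
  intro p g
  rw [Finset.sum_comm, Finset.mul_sum]
  refine Finset.sum_congr rfl fun i hi => ?_
  rw [← Finset.mul_sum, h i hi p g]
  ring

end Single

variable {F : Type*} [Field F] [NumberField F] {N : ℕ} (hN : N ≠ 0)

theorem HK_fchi {v : HeightOneSpectrum (𝓞 F)} (hv : ¬ Bad F N v) {J : Type*} {R : Finset J}
    {s : J → (locK F).G v} {lam : ℂ} {f : HF F × DN F hN → ℂ} (h : HK v R s lam f)
    (χ : CN F N →* ℂˣ) : HK v R s lam (fchi hN f χ) := by
  let _ := finite_CN (F := F) hN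
  let _ := Fintype.ofFinite (CN F N)
  exact HK.lin Finset.univ (fun c => (((χ c)⁻¹ : ℂˣ) : ℂ)) (φ := fun c x => f (x.1, rc hN c x.2))
    fun c _ => h.pull _ (tN_good hv _)

/-- comparison of a global element with its component at one good place -/
theorem smul_base_eq {v : HeightOneSpectrum (𝓞 F)} (hv : ¬ Bad F N v) {a : Fˣ} (ha : UnN N a)
    (γ : GL (Fin 2) F) (h1 : ∀ w, w ≠ v → ¬ Bad F N w → (locK F).emb w γ ∈ PO ((locK F).O w))
    (h2 : ∀ w, Bad F N w →
      ((locK F).emb w (aMat a))⁻¹ * (locK F).emb w γ ∈ PK ((locK F).O w) N) :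
    γ • bN F hN = rho hN ha (sgl v ((locK F).emb v γ) • bN F hN) := by
  rw [rho_GA_smul, rho_base, ← mul_smul, eq_comm]
  show _ = (locK F).diag γ • bN F hN
  rw [GA_smul_base_eq_iff]
  intro w
  show ((sgl v ((locK F).emb v γ)).1 w * (tN N a).1 w)⁻¹ * (locK F).emb w γ ∈ PK ((locK F).O w) N
  by_cases hw : w = v
  · subst hw
    rw [sgl_same, tN_good hv, mul_one, inv_mul_cancel]
    exact one_mem _
  · rw [sgl_ne hw, one_mul]
    by_cases hb : Bad F N w
    · rw [tN_bad hb]; exact h2 w hb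
    · rw [tN_good hb, inv_one, one_mul, PK_eq_PO_of_isUnit _ ((not_bad_iff w).mp hb)]
      exact h1 w hw hb

/-- the place of a prime element -/
noncomputable def plc {ϖ : 𝓞 F} (h : Prime ϖ) : HeightOneSpectrum (𝓞 F) :=
  ⟨Ideal.span {ϖ}, (Ideal.span_singleton_prime h.ne_zero).mpr h, by
    rw [Ne, Ideal.span_singleton_eq_bot]; exact h.ne_zero⟩

theorem bad_plc_iff {ϖ : 𝓞 F} (h : Prime ϖ) : Bad F N (plc h) ↔ ϖ ∣ (N : 𝓞 F) :=
  Ideal.mem_span_singleton

theorem coprime_of_not_dvd {ϖ : 𝓞 F} (h : Prime ϖ) (hd : ¬ ϖ ∣ (N : 𝓞 F)) :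
    IsCoprime ϖ (N : 𝓞 F) := by
  have hmax : (Ideal.span {ϖ}).IsMaximal :=
    ((Ideal.span_singleton_prime h.ne_zero).mpr h).isMaximal (by
      rw [Ne, Ideal.span_singleton_eq_bot]; exact h.ne_zero)
  rw [← Ideal.isCoprime_span_singleton_iff, Ideal.isCoprime_iff_sup_eq]
  apply hmax.1.2
  refine lt_of_le_of_ne le_sup_left fun e => hd ?_
  have h1 : (N : 𝓞 F) ∈ Ideal.span {ϖ} := by
    rw [e]; exact Ideal.mem_sup_right (Ideal.mem_span_singleton_self _)
  exact Ideal.mem_span_singleton.mp h1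

/-- prime elements as units of `F` -/
noncomputable abbrev uF {x : 𝓞 F} (h : x ≠ 0) : Fˣ := Units.mk0 (x : F) (by simpa using h)

theorem un_plc_mem {ϖ : 𝓞 F} (h : Prime ϖ) {w : HeightOneSpectrum (𝓞 F)} (hw : w ≠ plc h) :
    (locK F).un w (uF h.ne_zero) ∈ OU ((locK F).O w) := by
  have h1 : ϖ ∉ w.asIdeal := by
    intro h1
    apply hw
    apply HeightOneSpectrum.ext
    have h2 : (plc h).asIdeal ≤ w.asIdeal := by
      show Ideal.span {ϖ} ≤ _
      rw [Ideal.span_singleton_le_iff_mem]; exact h1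
    exact ((plc h).isMaximal.eq_of_le w.isPrime.ne_top h2).symm
  have h2 : vl w ((locK F).loc w (ϖ : F)) = 1 :=
    le_antisymm (vl_loc_le_one w ϖ) (not_lt.1 fun h3 => h1 ((vl_loc_lt_one_iff w ϖ).mp h3))
  obtain ⟨y, hy, e⟩ := isUnit_of_vl h2
  refine ⟨h2.le, ?_⟩
  have e1 : ((((locK F).un w (uF h.ne_zero))⁻¹ : ((locK F).R w)ˣ) : (locK F).R w) = y :=
    Units.inv_eq_of_mul_eq_one_right e
  rw [e1]
  exact hy

theorem tri_emb_mem {ϖ : 𝓞 F} (h : Prime ϖ) {w : HeightOneSpectrum (𝓞 F)} (hw : w ≠ plc h)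
    (b : 𝓞 F) : (locK F).emb w (tri (uF h.ne_zero) 1 (b : F)) ∈ PO ((locK F).O w) := by
  rw [emb_tri, map_one]
  exact mk_mem_PO (tri_mem (un_plc_mem h hw) (one_mem _) (((locK F).isIntegral_iff _).mp b.2 w))

/-- upper triangular elements at the prime `ϖ` -/
theorem tri_smul_base {ϖ : 𝓞 F} (h : Prime ϖ) (hd : ¬ ϖ ∣ (N : 𝓞 F)) (b : 𝓞 F) (c : CN F N)
    (hc : Ideal.Quotient.mk (Ideal.span {(N : 𝓞 F)}) ϖ = c) :
    tri (uF h.ne_zero) 1 ((N : F) * (b : F)) • bN F hN =
      rc hN c (sgl (plc h) ((locK F).emb (plc h) (tri (uF h.ne_zero) 1 ((N : F) * (b : F)))) •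
        bN F hN) := by
  have hcop := coprime_of_not_dvd h hd
  have hv : ¬ Bad F N (plc h) := fun h' => hd ((bad_plc_iff h).mp h')
  have ha : UnN N (uF h.ne_zero) := unN_of_isCoprime hcop _
  have eb : (N : F) * (b : F) = (((N : 𝓞 F) * b : 𝓞 F) : F) := by push_cast; rfl
  rw [← rho_eq_rc hN _ ha hc, smul_base_eq hN hv ha]
  · intro w hw _
    rw [eb]
    exact tri_emb_mem h hw _
  · intro w hw
    have hne : w ≠ plc h := by rintro rfl; exact hv hw
    rw [emb_aMat, emb_tri, map_one, ← map_inv, ← map_mul]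
    apply mk_mem_PK
    have hu := un_plc_mem h hne
    have hNb : (locK F).loc w ((N : F) * (b : F)) ∈ NO ((locK F).O w) N := by
      rw [eb]; exact loc_mem_NO (Dvd.intro _ rfl) w
    refine inv_mul_mem_KN (tri_mem hu (one_mem _) (zero_mem _))
      (tri_mem hu (one_mem _) (NO_le _ _ hNb)) fun i j => ?_
    rw [tri_coe, tri_coe]
    fin_cases i <;> fin_cases j
    · simp [zero_mem]
    · simpa using hNb
    · simp [zero_mem]
    · simp [zero_mem]

/-- the inverse diagonal element at the prime `ϖ` -/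
theorem aMat_inv_smul_base {ϖ : 𝓞 F} (h : Prime ϖ) (hd : ¬ ϖ ∣ (N : 𝓞 F)) (c : CN F N)
    (hc : Ideal.Quotient.mk (Ideal.span {(N : 𝓞 F)}) ϖ = c) :
    rc hN c ((aMat (uF h.ne_zero))⁻¹ • bN F hN) =
      sgl (plc h) ((locK F).emb (plc h) (aMat (uF h.ne_zero))⁻¹) • bN F hN := by
  have hcop := coprime_of_not_dvd h hd
  have hv : ¬ Bad F N (plc h) := fun h' => hd ((bad_plc_iff h).mp h')
  have ha : UnN N (uF h.ne_zero) := unN_of_isCoprime hcop _
  have e := smul_base_eq hN hv ha.inv (aMat (uF h.ne_zero))⁻¹ (by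
      intro w hw _
      rw [map_inv, aMat_eq_tri]
      have := tri_emb_mem h hw 0
      rw [show ((0 : 𝓞 F) : F) = 0 from rfl] at this
      exact inv_mem this) (by
      intro w hw
      have : (aMat (uF h.ne_zero))⁻¹ = aMat (uF h.ne_zero)⁻¹ := Fou.aMat_inv _
      rw [this, inv_mul_cancel]
      exact one_mem _)
  rw [e, ← rho_eq_rc hN _ ha hc, rho_rho]
  obtain hm : ha.inv.mul ha = ha.inv.mul ha := rfl
  have e1 : (uF h.ne_zero)⁻¹ * uF h.ne_zero = 1 := inv_mul_cancel _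
  rw [rho_GA_smul]
  congr 1
  rw [rho_base, e1, map_one, one_smul]

variable [IsTotallyComplex F]

/-- **Classical form of the Hecke equation.** -/
theorem hecke_classical {f : HF F × DN F hN → ℂ} (hf : IsInv f) {χ : CN F N →* ℂˣ}
    (hχ : ∀ (c : CN F N) (p : HF F) (x : DN F hN),
      f (p, rc hN c x) = ((χ c : ℂˣ) : ℂ) * f (p, x))
    {ϖ : 𝓞 F} (h : Prime ϖ) (hd : ¬ ϖ ∣ (N : 𝓞 F)) {c : CN F N}
    (hc : Ideal.Quotient.mk (Ideal.span {(N : 𝓞 F)}) ϖ = c) {J : Type*} (R : Finset J) (b : J → 𝓞 F)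
    {lam : ℂ} (hH : HK (plc h) (R.insertNone) (fun j : Option J => (locK F).emb (plc h)
      (j.elim (aMat (uF h.ne_zero))⁻¹ fun j => tri (uF h.ne_zero) 1 ((N : F) * (b j : F)))) lam f)
    (p : HF F) :
    (((χ c)⁻¹ : ℂˣ) : ℂ) *
        ∑ j ∈ R, f ((tri (uF h.ne_zero) 1 ((N : F) * (b j : F)))⁻¹ • p, bN F hN) +
      ((χ c : ℂˣ) : ℂ) * f (aMat (uF h.ne_zero) • p, bN F hN) = lam * f (p, bN F hN) := by
  have h1 := hH p 1
  rw [one_smul] at h1
  rw [← h1, Finset.sum_insertNone, add_comm, Finset.mul_sum]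
  simp only [one_mul, Option.elim_none, Option.elim_some]
  congr 1
  · rw [← aMat_inv_smul_base hN h hd c hc, hχ, hf.inv_left, inv_inv]
  · refine Finset.sum_congr rfl fun j _ => ?_
    rw [← hf.inv_left, tri_smul_base hN h hd (b j) c hc, hχ, ← mul_assoc, Units.inv_mul, one_mul]

end Fermat.Agent.LT.Cls
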