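import Fermat.Agent.LT.Cls.Coef

set_option autoImplicit false
set_option linter.unusedSectionVars false

/-!
# Assembly of the classical form
-/

namespace Fermat.Agent.LT.Cls

open MeasureTheory Complex Topology NumberField Sp Fou Set RS Glob LocFam IsDedekindDomain Matrix
open scoped Real MatrixGroups

variable {K : Type*} [Field K] [NumberField K] [IsCyclotomicExtension {3} ℚ K]
  [IsTotallyComplex K] [Subsingleton (InfinitePlace K)] (w : InfinitePlace K)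

include w in
theorem isDual_of_inD {N : ℕ} (hN : 0 < N) {ξ : K} (h : InD N ξ) : IsDual N ξ := by
  obtain ⟨m, rfl⟩ := dpt_surj hN h
  intro a
  obtain ⟨s, t, rfl⟩ := exists_rep' a
  refine ⟨m 0 * s + m 1 * t, ?_⟩
  have h1 : ((Algebra.trace ℚ K (dpt K N m * ((N : K) * ((s + t * wK K : 𝓞 K) : K))) : ℚ) : ℝ) =
      m 0 * s + m 1 * t := by
    rw [← trV_emb, trV_one w]
    have h2 := tr_dpt w.embedding hN m ![(s : ℝ), (t : ℝ)]
    simp only [Matrix.cons_val_zero, Matrix.cons_val_one] at h2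
    rw [← h2]
    congr 2
    rw [emb_apply, map_mul, map_mul, map_natCast]
    congr 2
    have e : ((s + t * wK K : 𝓞 K) : K) = (s : K) + (t : K) * (wK K : K) := by push_cast; rfl
    rw [e, map_add, map_mul, map_intCast, map_intCast]
    push_cast
    rfl
  have h3 : ((Algebra.trace ℚ K (dpt K N m * ((N : K) * ((s + t * wK K : 𝓞 K) : K))) : ℚ) : ℝ) =
      (((m 0 * s + m 1 * t : ℤ) : ℚ) : ℝ) := by rw [h1]; push_cast; ring
  exact_mod_cast h3

/-- representatives exist -/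
theorem exists_reps {ϖ : 𝓞 K} (h : ϖ ≠ 0) : ∃ (R : Finset ℕ) (b : ℕ → 𝓞 K), Reps ϖ R b := by
  classical
  have hspan : Ideal.span {ϖ} ≠ ⊥ := by
    rw [Ne, Ideal.span_singleton_eq_bot]
    exact h
  have hfin : Finite (𝓞 K ⧸ Ideal.span {ϖ}) := Ideal.finiteQuotientOfFreeOfNeBot _ hspan
  obtain ⟨n, ⟨e⟩⟩ := Finite.exists_equiv_fin (𝓞 K ⧸ Ideal.span {ϖ})
  have hs : ∀ x : 𝓞 K ⧸ Ideal.span {ϖ}, ∃ y, Ideal.Quotient.mk _ y = x :=
    Ideal.Quotient.mk_surjective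
  choose g hg using hs
  refine ⟨Finset.range n, fun j => if hj : j < n then g (e.symm ⟨j, hj⟩) else 0, ?_, ?_⟩
  · intro i hi j hj hd
    rw [Finset.mem_range] at hi hj
    rw [dif_pos hi, dif_pos hj, ← Ideal.mem_span_singleton, ← Ideal.Quotient.eq, hg, hg] at hd
    have := e.symm.injective hd
    simpa using this
  · intro x
    refine ⟨(e (Ideal.Quotient.mk _ x)).1, Finset.mem_range.mpr (e (Ideal.Quotient.mk _ x)).2, ?_⟩
    rw [dif_pos (e (Ideal.Quotient.mk _ x)).2, ← Ideal.mem_span_singleton, ← Ideal.Quotient.eq, hg]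
    simp

theorem slC_smul_cst (g : SL(2, 𝓞 K)) (q : H3) :
    slO K g • cst (F := K) q = cst (slC w.embedding g • q) := smul_cst w _ q

/-- **The classical form.** -/
theorem kform [IsPrincipalIdealRing (𝓞 K)] {N : ℕ} (hN : N ≠ 0) {f : HF K × DN K hN → ℂ}
    (hf : AutForm f) {χ : CN K N →* ℂˣ}
    (hχ : ∀ (c : CN K N) (p : HF K) (x : DN K hN),
      f (p, rc hN c x) = ((χ c : ℂˣ) : ℂ) * f (p, x)) {lam : 𝓞 K → ℝ}
    (hH : ∀ (ϖ : 𝓞 K) (h : Prime ϖ), ¬ ϖ ∣ (N : 𝓞 K) → ∀ (R : Finset ℕ) (b : ℕ → 𝓞 K),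
      Reps ϖ R b → HK (plc h) (R.insertNone) (fun j : Option ℕ => (locK K).emb (plc h)
        (j.elim (aMat (uF h.ne_zero))⁻¹ fun j => tri (uF h.ne_zero) 1 ((N : K) * (b j : K))))
        (‖w.embedding (ϖ : K)‖ * lam ϖ) f)
    (hnorm : ∀ ϖ : 𝓞 K, ((Ideal.span {ϖ}).absNorm : ℝ) = ‖w.embedding (ϖ : K)‖ ^ 2)
    (hdec : ∀ x : DN K hN, ∃ B : ℝ, ∀ q : H3, 1 / 2 ≤ q.y → ‖f (cst q, x)‖ ≤ B * (q.y ^ 2)⁻¹)
    (hcont : ∀ (y : ℝ) (hy : 0 < y), Continuous fun z : ℂ => f (cst ⟨z, y, hy⟩, bN K hN))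
    (hmeas : Measurable fun q : ℂ × {y : ℝ // 0 < y} => f (cst ⟨q.1, q.2.1, q.2.2⟩, bN K hN)) :
    KForm w.embedding N (fun q => f (cst q, bN K hN)) (cf w hN f) (kp χ) lam
      (fun t => K0 (4 * π * t)) where
  pos := Nat.pos_of_ne_zero hN
  cont := hcont
  meas := hmeas
  inv g hg p := by
    rw [← slC_smul_cst w g p]
    conv_lhs => rw [← slO_smul_bN hN hg]
    exact hf.inv _ _ _
  decay := decay_cusps_cst w hN hf hdec
  bdd := by
    obtain ⟨C, hC⟩ := hf.bdd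
    exact ⟨C, fun p => hC _⟩
  fourier y hy m := by
    have hm : IsDual N (dpt K N m) := by
      apply isDual_of_inD w (Nat.pos_of_ne_zero hN)
      refine ⟨((m 0 + m 1 : ℤ) : 𝓞 K) + (m 0 : 𝓞 K) * wK K, ?_⟩
      rw [dpt, div_mul_cancel₀]
      refine mul_ne_zero (by exact_mod_cast hN) ?_
      simpa using RS.del_ne_zero
    exact PC_eq w hf hN (lvl_bN hN) y hy m hm
  zero := cf_zero w hN f
  supp ξ h := inD_of_isDual w (supp_cf w hN hf h)
  kmul := kp_mul χ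
  kone := kp_one χ
  kper := kp_per χ
  knorm ϖ h hd := by
    obtain ⟨c, hc⟩ := exists_cls h hd
    rw [kp_unit χ hc]
    exact norm_chi hN χ c
  hecke ϖ h hd ξ hξ := by
    obtain ⟨c, hc⟩ := exists_cls h hd
    obtain ⟨R, b, hR⟩ := exists_reps h.ne_zero
    have hcard : (R.card : ℝ) = ‖w.embedding (ϖ : K)‖ ^ 2 := by rw [card_reps hR, hnorm]
    have h1 := hecke_cf w hN hf hχ h hd hc R b hcard (hH ϖ h hd R b hR)
      (isDual_of_inD w (Nat.pos_of_ne_zero hN) hξ)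
    rw [kp_unit χ hc, ← Units.val_inv_eq_inv_val]
    exact h1
  neg ξ := by
    obtain ⟨c, hc⟩ := exists_cls_neg (F := K) (N := N)
    rw [kp_unit χ hc]
    exact neg_cf w hN hf hχ hc ξ

end Fermat.Agent.LT.Cls
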