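import Fermat.Agent.LT.Cls.Exp
import Fermat.Agent.LT.Th.Harm6

set_option autoImplicit false
set_option linter.unusedSectionVars false

/-!
# Analytic properties of the restriction of an automorphic form to one class
-/

namespace Fermat.Agent.LT.Cls

open MeasureTheory Complex Topology NumberField Sp Fou Set
open scoped Real ComplexConjugate ContDiff

variable {F : Type*} [Field F] [NumberField F] [IsTotallyComplex F] [Subsingleton (InfinitePlace F)]
variable {D : Type*} [MulAction (GL (Fin 2) F) D]
variable {φ : HF F × D → ℂ}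

theorem cont_cst (h : AutForm φ) (x : D) : Continuous fun q : H3 => φ (cst q, x) := by
  have h1 := h.cont x
  have h2 : Continuous (cst (F := F)) := continuous_cst
  exact h1.comp h2

theorem bdd_cst (h : AutForm φ) (x : D) : ∃ C : ℝ, ∀ q : H3, ‖φ (cst q, x)‖ ≤ C := by
  obtain ⟨C, hC⟩ := h.bdd
  exact ⟨C, fun q => hC _⟩

theorem continuous_mk_prod :
    Continuous fun q : ℂ × {y : ℝ // 0 < y} => (⟨q.1, q.2.1, q.2.2⟩ : H3) := by
  apply H3.continuous_mk
  · exact continuous_fst
  · exact continuous_subtype_val.comp continuous_snd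

theorem meas_cst (h : AutForm φ) (x : D) :
    Measurable fun q : ℂ × {y : ℝ // 0 < y} => φ (cst ⟨q.1, q.2.1, q.2.2⟩, x) :=
  ((cont_cst h x).comp continuous_mk_prod).measurable

theorem cont_z_cst (h : AutForm φ) (x : D) (y : ℝ) (hy : 0 < y) :
    Continuous fun z : ℂ => φ (cst ⟨z, y, hy⟩, x) := by
  have h1 : Continuous fun z : ℂ => (⟨z, y, hy⟩ : H3) :=
    H3.continuous_mk continuous_id continuous_const
  exact (cont_cst h x).comp h1

/-- **the mean value property** -/
theorem mean_cst (w : InfinitePlace F) (h : AutForm φ) (x : D) :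
    Th.Harm.Mean fun q : H3 => φ (cst q, x) := by
  intro k hk hks p
  refine H3.eigen_ext' (cont_cst h x) (fun k hk hks p => ?_) hk hks p
  have h1 := h.eig w k hk hks (cst p) x
  simp only [upd_eq_cst] at h1
  exact h1

end Fermat.Agent.LT.Cls
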