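import Mathlib

set_option autoImplicit false

/-!
# `SL₂(O) → SL₂(O/n)` is onto for a principal ideal domain
-/

namespace Fermat.Agent.LT.Cls

open Matrix
open scoped MatrixGroups

variable {O : Type*} [CommRing O] [IsDomain O] [IsPrincipalIdealRing O]

theorem exists_coprime_add (c : O) : ∀ (_ : c ≠ 0) (d n : O), (∃ u v w, u * c + v * d + w * n = 1) →
    ∃ t, IsCoprime c (d + t * n) := by
  induction c using UniqueFactorizationMonoid.induction_on_prime with
  | h₁ => intro hc; exact absurd rfl hc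
  | h₂ x hx =>
    intro _ d n _
    obtain ⟨y, rfl⟩ := hx
    exact ⟨0, ⟨(y⁻¹ : Oˣ), 0, by simp⟩⟩
  | h₃ c' p hc' hp ih =>
    intro _ d n ⟨u, v, w, huvw⟩
    obtain ⟨t, ht⟩ := ih hc' d n ⟨u * p, v, w, by linear_combination huvw⟩
    have key : ∀ s : O, ¬ p ∣ d + t * n + s * c' * n → IsCoprime (p * c') (d + (t + s * c') * n) := by
      intro s hs
      have e : d + (t + s * c') * n = d + t * n + s * c' * n := by ring
      rw [e]
      refine IsCoprime.mul_left ?_ ?_
      · exact (Irreducible.coprime_iff_not_dvd hp.irreducible).mpr hs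
      · obtain ⟨x, y, hxy⟩ := ht
        exact ⟨x - y * (s * n), y, by linear_combination hxy⟩
    by_cases h0 : p ∣ d + t * n
    · have hn : ¬ p ∣ n := by
        intro hn
        have hd : p ∣ d := by
          have := dvd_sub h0 (hn.mul_left t)
          rwa [add_sub_cancel_right] at this
        apply hp.not_isUnit
        rw [isUnit_iff_dvd_one, ← huvw]
        exact dvd_add (dvd_add ((Dvd.intro _ rfl).mul_left u) (hd.mul_left v)) (hn.mul_left w)
      have hc : ¬ p ∣ c' := by
        intro hc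
        obtain ⟨x, y, hxy⟩ := ht
        apply hp.not_isUnit
        rw [isUnit_iff_dvd_one, ← hxy]
        exact dvd_add (hc.mul_left x) (h0.mul_left y)
      refine ⟨t + 1 * c', key 1 ?_⟩
      intro h1
      have h2 : p ∣ c' * n := by
        have := dvd_sub h1 h0
        rwa [add_sub_cancel_left, one_mul] at this
      rcases hp.dvd_or_dvd h2 with h3 | h3
      · exact hc h3
      · exact hn h3
    · refine ⟨t + 0 * c', key 0 ?_⟩
      simpa using h0

/-- **strong approximation for `SL₂`** -/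
theorem exists_SL_congr (m : Matrix (Fin 2) (Fin 2) O) {n : O} (hn : n ≠ 0) (h : n ∣ m.det - 1) :
    ∃ s : SL(2, O), ∀ i j, n ∣ s i j - m i j := by
  obtain ⟨k0, hk0⟩ := h
  rw [Matrix.det_fin_two] at hk0
  obtain ⟨c, hc, r, hr⟩ : ∃ c : O, c ≠ 0 ∧ ∃ r, c = m 1 0 + r * n := by
    by_cases h0 : m 1 0 = 0
    · exact ⟨n, hn, 1, by rw [h0]; ring⟩
    · exact ⟨m 1 0, h0, 0, by ring⟩
  obtain ⟨t, x, y, hxy⟩ := exists_coprime_add c hc (m 1 1) n
    ⟨-m 0 1, m 0 0, -k0 + m 0 1 * r, by rw [hr]; linear_combination hk0⟩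
  -- `a d' - b c = 1 + k n`
  set d' := m 1 1 + t * n with hd'
  set k := k0 + m 0 0 * t - m 0 1 * r with hk
  have hdet : m 0 0 * d' - m 0 1 * c = 1 + k * n := by
    rw [hr, hd', hk]; linear_combination hk0
  refine ⟨⟨!![m 0 0 - k * n * y, m 0 1 + k * n * x; c, d'], ?_⟩, ?_⟩
  · rw [Matrix.det_fin_two]
    simp only [Matrix.of_apply, Matrix.cons_val', Matrix.cons_val_zero, Matrix.cons_val_one,
      Matrix.cons_val_fin_one]
    linear_combination hdet - k * n * hxy
  · intro i j
    fin_cases i <;> fin_cases j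
    · exact ⟨-(k * y), by simp; ring⟩
    · exact ⟨k * x, by simp; ring⟩
    · exact ⟨r, by simp [hr]; ring⟩
    · exact ⟨t, by simp [hd']; ring⟩

end Fermat.Agent.LT.Cls
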