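import Fermat.Agent.LT.Cls.RMap
import Fermat.Agent.LT.Cls.SL

set_option autoImplicit false

/-!
# One class: `GL₂(𝔸_f) = GL₂(F) · diag(a, 1)_N · 𝒰_N` for a principal ideal domain `𝓞 F`
-/

namespace Fermat.Agent.LT.Cls

open Matrix Filter NumberField Glob Glob.LocFam
open scoped MatrixGroups

universe w u i

variable {F : Type u} [Field F] [NumberField F] {ι : Type i} (L : LocFam.{w} F ι)

/-- one idele class -/
theorem idele_one [IsPrincipalIdealRing (𝓞 F)] (t : ∀ v, (L.R v)ˣ)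
    (ht : ∀ᶠ v in cofinite, t v ∈ OU (L.O v)) : ∃ a : Fˣ, ∀ v, L.un v a * t v ∈ OU (L.O v) := by
  classical
  obtain ⟨S, hS⟩ := exists_finset_compl ht
  obtain ⟨N, hN, h⟩ := L.finite_denom S (fun v => (t v : L.R v))
  have hNF : (N : F) ≠ 0 := by exact_mod_cast hN
  set b : Fˣ := Units.mk0 (N : F) hNF
  have hb : ∀ v, ((L.un v b : (L.R v)ˣ) : L.R v) = N := by
    intro v; rw [un_coe]; show L.loc v (N : F) = N; simp
  set t' : ∀ v, (L.R v)ˣ := fun v => L.un v b * t v with ht'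
  have h1 : ∀ᶠ v in cofinite, t' v ∈ OU (L.O v) := by
    filter_upwards [ht, L.eventually_un_mem b] with v h1 h2 using mul_mem h2 h1
  have h2 : ∀ v, (t' v : L.R v) ∈ L.O v := by
    intro v
    rw [ht', Units.val_mul, hb]
    by_cases hv : t v ∈ OU (L.O v)
    · exact (L.O v).mul_mem (natCast_mem _ _) hv.1
    · exact h v (by by_contra h'; exact hv (hS v h'))
  obtain ⟨y, hy⟩ := (IsPrincipalIdealRing.principal (L.idl t')).principal
  have hy0 : y ≠ 0 := by
    rintro rfl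
    apply L.idl_ne_bot h1
    rw [hy, Ideal.submodule_span_eq, Ideal.span_singleton_eq_bot]
  have htop : L.idl (1 : ∀ v, (L.R v)ˣ) = ⊤ := by
    rw [Ideal.eq_top_iff_one, mem_idl]
    intro v
    simp [(L.O v).one_mem]
  obtain ⟨a, ha⟩ := L.equiv_of_idl (t' := 1) h1 h2 (Eventually.of_forall fun v => one_mem _)
    (fun v => by simp [(L.O v).one_mem]) (one_ne_zero (α := 𝓞 F)) hy0 (by
      rw [htop, Ideal.span_singleton_one, Ideal.mul_top, Ideal.top_mul, hy,
        Ideal.submodule_span_eq])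
  refine ⟨a * b, fun v => ?_⟩
  have h3 := ha v
  rw [Pi.one_apply, inv_one, mul_one] at h3
  rwa [map_mul, mul_assoc]

variable {L}

/-- the image of a triangular matrix in `PGL₂`, normalised -/
theorem mk_tri {R : Type*} [CommRing R] (a d : Rˣ) (s : R) :
    (ProjGenLinGroup.mk (tri a d s) : PGL(2, R)) =
      ProjGenLinGroup.mk (tri (a * d⁻¹) 1 (s * ((d⁻¹ : Rˣ) : R))) := by
  have : tri a d s = sc d * tri (a * d⁻¹) 1 (s * ((d⁻¹ : Rˣ) : R)) := by
    apply Units.ext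
    rw [Units.val_mul, sc_coe, tri_coe, tri_coe]
    have e1 : (d : R) * ((a : R) * ((d⁻¹ : Rˣ) : R)) = a := by
      rw [mul_left_comm, Units.mul_inv, mul_one]
    have e2 : (d : R) * (s * ((d⁻¹ : Rˣ) : R)) = s := by
      rw [mul_left_comm, Units.mul_inv, mul_one]
    ext i j
    fin_cases i <;> fin_cases j <;> simp [e1, e2]
  rw [this, map_mul, sc, ProjGenLinGroup.mk_scalar, one_mul]

omit [NumberField F] in
theorem emb_tri (v : ι) (a d : Fˣ) (s : F) : L.emb v (tri a d s) =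
    ProjGenLinGroup.mk (tri (L.un v a) (L.un v d) (L.loc v s)) := by
  rw [emb_eq, map_tri]; rfl

/-- **One class.** -/
theorem exists_GL_mem_PO [IsPrincipalIdealRing (𝓞 F)] (g : L.GA) :
    ∃ γ : GL (Fin 2) F, ∀ v, L.emb v γ * g.1 v ∈ PO (L.O v) := by
  classical
  have hl : ∀ v, ∃ (x : (L.R v)ˣ) (s : L.R v), (∃ k ∈ PO (L.O v),
      g.1 v = ProjGenLinGroup.mk (tri x 1 s) * k) ∧ (g.1 v ∈ PO (L.O v) → x = 1 ∧ s = 0) := by
    intro v
    by_cases h1 : g.1 v ∈ PO (L.O v)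
    · refine ⟨1, 0, ⟨g.1 v, h1, ?_⟩, fun _ => ⟨rfl, rfl⟩⟩
      have : tri (1 : (L.R v)ˣ) 1 0 = 1 := by
        apply Units.ext; rw [tri_coe]; ext i j
        fin_cases i <;> fin_cases j <;> simp
      rw [this, map_one, one_mul]
    · obtain ⟨h, hh⟩ := ProjGenLinGroup.mk_surjective (g.1 v)
      obtain ⟨a, d, s, k, hk, e⟩ := L.iwasawa v h
      refine ⟨a * d⁻¹, s * ((d⁻¹ : (L.R v)ˣ) : L.R v), ⟨ProjGenLinGroup.mk k, mk_mem_PO hk, ?_⟩,
        fun h => absurd h h1⟩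
      rw [← hh, e, map_mul, mk_tri]
  choose x s hxs hone using hl
  have hev : ∀ᶠ v in cofinite, x v ∈ OU (L.O v) := by
    filter_upwards [g.2] with v hv
    rw [(hone v hv).1]; exact one_mem _
  obtain ⟨a, ha⟩ := idele_one L x hev
  obtain ⟨S, hS⟩ := exists_finset_compl g.2
  obtain ⟨b, hb1, hb2⟩ := L.dense S (fun v => -(L.loc v (a : F) * s v)) 1 one_ne_zero
  refine ⟨tri a 1 b, fun v => ?_⟩
  obtain ⟨k, hk, e⟩ := hxs v
  rw [e, emb_tri, ← mul_assoc, ← map_mul, tri_mul]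
  refine mul_mem (mk_mem_PO (tri_mem (ha v) ?_ ?_)) hk
  · rw [map_one, one_mul]; exact one_mem _
  · rw [un_coe, Units.val_one, mul_one]
    by_cases hv : v ∈ S
    · have h1 := hb1 v hv
      rw [sub_neg_eq_add] at h1
      have := NO_le _ _ h1
      rwa [add_comm]
    · rw [(hone v (hS v hv)).2, mul_zero, zero_add]
      exact hb2 v hv

end Fermat.Agent.LT.Cls
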