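import Fermat.Agent.LT.Cls.Kf
import Fermat.Agent.LT.Cls.Dec
import Fermat.Agent.LT.Cls.BesK
import Fermat.Agent.LT.Th.Harm6

set_option autoImplicit false
set_option linter.unusedSectionVars false

/-!
# FOU.3: from automorphic forms on `Y` over `K = ℚ(√-3)` to the classical package
-/

namespace Fermat.Agent.LT.Cls

open MeasureTheory Complex Topology NumberField Sp Fou Set RS Glob LocFam IsDedekindDomain Matrix
open scoped Real MatrixGroups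

variable {K : Type*} [Field K] [NumberField K] [IsCyclotomicExtension {3} ℚ K]
  [IsTotallyComplex K] [Subsingleton (InfinitePlace K)] (w : InfinitePlace K)

/-- the classical package -/
structure Pack (N : ℕ) (φ : H3 → ℂ) (a : K → ℂ) (κ : 𝓞 K → ℂ) (lam : 𝓞 K → ℝ) : Prop where
  kform : KForm w.embedding N φ a κ lam (fun t => K0 (4 * π * t))
  bes : Bes (fun t => K0 (4 * π * t))
  ne : φ ≠ 0
  cont : Continuous φ
  mean : Th.Harm.Mean φ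
  hecke : ∀ (ϖ : 𝓞 K) (h : Prime ϖ), (N : 𝓞 K) ∣ ϖ - 1 → ∀ l : ℕ, l.Prime →
    (Ideal.span {ϖ}).absNorm = l → ∀ (z : ℂ) (y : ℝ) (hy : 0 < y),
    (∑ b ∈ Finset.range l, φ ⟨(z - N * b) / w.embedding (ϖ : K), y / ‖w.embedding (ϖ : K)‖,
        div_pos hy (norm_pos_iff.mpr (embedding_ne w h.ne_zero))⟩) +
      φ ⟨w.embedding (ϖ : K) * z, ‖w.embedding (ϖ : K)‖ * y,
        mul_pos (norm_pos_iff.mpr (embedding_ne w h.ne_zero)) hy⟩ =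
      ((√(l : ℝ) : ℝ) : ℂ) * ((lam ϖ : ℝ) : ℂ) * φ ⟨z, y, hy⟩

/-- **FOU.3** -/
theorem exists_pack [IsPrincipalIdealRing (𝓞 K)]
    (hnorm : ∀ ϖ : 𝓞 K, ((Ideal.span {ϖ}).absNorm : ℝ) = ‖w.embedding (ϖ : K)‖ ^ 2)
    {U : (locK K).Level} {f0 : HF K × D U → ℂ} (hf0 : AutForm f0) (hne : ∃ x, f0 x ≠ 0)
    {N0 : ℕ} (hN0 : N0 ≠ 0) {lam : 𝓞 K → ℝ}
    (hlev : ∀ (ϖ : 𝓞 K) (h : Prime ϖ), ¬ ϖ ∣ (N0 : 𝓞 K) →
      U.U (plc h) = PO ((locK K).O (plc h)))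
    (hHk : ∀ (ϖ : 𝓞 K) (h : Prime ϖ), ¬ ϖ ∣ (N0 : 𝓞 K) →
      ∃ H : HData (locK K) (plc h), Full H ∧
        HeckeAt H (((√((Ideal.span {ϖ}).absNorm : ℝ) : ℝ) : ℂ) * ((lam ϖ : ℝ) : ℂ)) f0) :
    ∃ (N : ℕ) (φ : H3 → ℂ) (a : K → ℂ) (κ : 𝓞 K → ℂ), N0 ∣ N ∧ 3 ∣ N ∧ N ≠ 0 ∧
      Pack w N φ a κ lam := by
  obtain ⟨N1, hN1, hU⟩ := exists_pL (locK K) U
  set N : ℕ := N0 * 3 * N1 with hNdef
  have hN : N ≠ 0 := mul_ne_zero (mul_ne_zero hN0 three_ne_zero) hN1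
  have hd0 : N0 ∣ N := ⟨3 * N1, by rw [hNdef]; ring⟩
  have hd3 : 3 ∣ N := ⟨N0 * N1, by rw [hNdef]; ring⟩
  have hd1 : N1 ∣ N := ⟨N0 * 3, by rw [hNdef]; ring⟩
  have hdv : ∀ ϖ : 𝓞 K, ¬ ϖ ∣ (N : 𝓞 K) → ¬ ϖ ∣ (N0 : 𝓞 K) := fun ϖ h1 h2 =>
    h1 (h2.trans (by exact_mod_cast (Nat.cast_dvd_cast (α := 𝓞 K) hd0)))
  have hle : ∀ v, (pL (locK K) N hN).U v ≤ U.U v := hU N hd1
  have Nm : Nrm (1 : (locK K).GA) (pL (locK K) N hN) U := nrm_one hle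
  set f1 : HF K × DN K hN → ℂ := fun x => f0 (x.1, rmap Nm x.2) with hf1def
  have hf1 : AutForm f1 := pull hf0 (rmap Nm) (rmap_smul_GL Nm)
  have hne1 : ∃ x, f1 x ≠ 0 := by
    obtain ⟨⟨p, d⟩, hx⟩ := hne
    obtain ⟨g, rfl, -⟩ := D.exists_eq_smul_base d
    refine ⟨(p, g • bN K hN), ?_⟩
    show f0 (p, rmap Nm (g • bN K hN)) ≠ 0
    rw [rmap_smul_base, mul_one]
    exact hx
  have hsq : ∀ ϖ : 𝓞 K, √((Ideal.span {ϖ}).absNorm : ℝ) = ‖w.embedding (ϖ : K)‖ := by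
    intro ϖ
    rw [hnorm, Real.sqrt_sq (norm_nonneg _)]
  have hHK1 : ∀ (ϖ : 𝓞 K) (h : Prime ϖ), ¬ ϖ ∣ (N : 𝓞 K) → ∀ (R : Finset ℕ) (b : ℕ → 𝓞 K),
      Reps ϖ R b → HK (plc h) (R.insertNone) (fun j : Option ℕ => (locK K).emb (plc h)
        (j.elim (aMat (uF h.ne_zero))⁻¹ fun j => tri (uF h.ne_zero) 1 ((N : K) * (b j : K))))
        (‖w.embedding (ϖ : K)‖ * lam ϖ) f1 := by
    intro ϖ h hd R b hR
    obtain ⟨H, hH, hHe⟩ := hHk ϖ h (hdv ϖ hd)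
    have h1 := HK_of_HeckeAt h (hlev ϖ h (hdv ϖ hd)) H hH hHe hd R b hR
    rw [hsq] at h1
    have h2 := h1.pull Nm rfl
    have e : (((N : ℕ) : 𝓞 K) : K) = (N : K) := by simp
    rw [e] at h2
    exact h2
  obtain ⟨χ, p, hp⟩ := exists_fchi hN hf1 hne1
  set f := fchi hN f1 χ with hfdef
  have hf : AutForm f := autForm_fchi hN hf1 χ
  have hχ : ∀ (c : CN K N) (p : HF K) (x : DN K hN),
      f (p, rc hN c x) = ((χ c : ℂˣ) : ℂ) * f (p, x) := fun c p x => fchi_rc hN f1 χ c p x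
  have hHK : ∀ (ϖ : 𝓞 K) (h : Prime ϖ), ¬ ϖ ∣ (N : 𝓞 K) → ∀ (R : Finset ℕ) (b : ℕ → 𝓞 K),
      Reps ϖ R b → HK (plc h) (R.insertNone) (fun j : Option ℕ => (locK K).emb (plc h)
        (j.elim (aMat (uF h.ne_zero))⁻¹ fun j => tri (uF h.ne_zero) 1 ((N : K) * (b j : K))))
        (‖w.embedding (ϖ : K)‖ * lam ϖ) f := fun ϖ h hd R b hR =>
    HK_fchi hN (fun h' => hd ((bad_plc_iff h).mp h')) (hHK1 ϖ h hd R b hR) χ
  have hcont : Continuous fun q : H3 => f (cst q, bN K hN) :=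
    (hf.cont _).comp continuous_cst
  have hK := kform w hN hf hχ hHK hnorm (fun x => by
      obtain ⟨B, -, hB⟩ := hdec w hf x
      exact ⟨B, hB⟩) (fun y hy => hcont.comp (H3.continuous_mk (f := fun z : ℂ => (⟨z, y, hy⟩ : H3))
        continuous_id continuous_const)) (Continuous.measurable (hcont.comp
        (H3.continuous_mk (f := fun q : ℂ × {y : ℝ // 0 < y} => (⟨q.1, q.2.1, q.2.2⟩ : H3))
          continuous_fst (continuous_subtype_val.comp continuous_snd))))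
  refine ⟨N, fun q => f (cst q, bN K hN), cf w hN f, kp χ, hd0, hd3, hN, hK, bes_K0, ?_, hcont,
    ?_, ?_⟩
  · intro h0
    apply hp
    have := congrFun h0 (p w)
    rw [← eq_cst w p] at this
    exact this
  · intro k hk hks q
    refine H3.eigen_ext' hcont (fun k hk hks q => ?_) hk hks q
    have h1 := hf.eig w k hk hks (cst q) (bN K hN)
    simp only [upd_eq_cst] at h1
    exact h1
  · intro ϖ h hd l hl hn z y hy
    have hd' : ¬ ϖ ∣ (N : 𝓞 K) := by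
      intro h1
      apply h.not_isUnit
      rw [isUnit_iff_dvd_one]
      have h2 : ϖ ∣ ϖ - 1 := h1.trans hd
      have h3 := dvd_sub (dvd_refl ϖ) h2
      rwa [sub_sub_cancel] at h3
    have h1 := hecke_fun w hN hf.toIsInv hχ h hd' hd (hHK ϖ h hd' _ _ (reps_range h hl hn)) z y hy
    rw [h1]
    have : (√(l : ℝ)) = ‖w.embedding (ϖ : K)‖ := by rw [← hsq, hn]
    rw [this]

end Fermat.Agent.LT.Cls
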