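import Fermat.Agent.LT.Cls.Out2
import Fermat.Agent.LT.Th.Final

set_option autoImplicit false
set_option linter.unusedSectionVars false

/-!
# FOU.3: the function-level Hecke relation in the form used by T6
-/

namespace Fermat.Agent.LT.Cls

open NumberField
open scoped Real

variable {K : Type*} [Field K] [NumberField K] [IsCyclotomicExtension {3} ℚ K]

theorem HFun.heckeFun {w : InfinitePlace K} {N : ℕ} {φ : H3 → ℂ} {lam : 𝓞 K → ℝ}
    (h : HFun w.embedding N φ lam) : Th.HeckeFun w.embedding N φ lam := by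
  intro ϖ h0 l hp hl hn hd z y hy
  have hd' : ¬ ϖ ∣ (N : 𝓞 K) := by
    intro h1
    apply hp.not_isUnit
    rw [isUnit_iff_dvd_one]
    have h3 := dvd_sub (dvd_refl ϖ) (h1.trans hd)
    rwa [sub_sub_cancel] at h3
  have hn' : (Ideal.span {ϖ}).absNorm = l := by
    have := norm3 w ϖ
    rw [hn] at this
    exact_mod_cast this
  exact h ϖ l hp hd' hd hl hn' z y hy _ _

end Fermat.Agent.LT.Cls
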