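import Fermat.Agent.LT.Glob.Fin
import Fermat.Agent.LT.Glob.InstK

set_option autoImplicit false

/-!
# Right translations between the spaces `D U`, principal levels
-/

namespace Fermat.Agent.LT.Cls

open Matrix Filter NumberField Glob Glob.LocFam
open scoped MatrixGroups

universe w u i

section RMap

variable {F : Type u} [Field F] {ι : Type i} {L : LocFam.{w} F ι}

/-- `h` conjugates `U'` into `U` -/
def Nrm (h : L.GA) (U' U : L.Level) : Prop :=
  ∀ v, ∀ u ∈ U'.U v, (h.1 v)⁻¹ * u * h.1 v ∈ U.U v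

variable {U U' U'' : L.Level}

/-- local right translation -/
def xr {h : L.GA} (H : Nrm h U' U) (v : ι) : X U' v → X U v := fun x =>
  Quotient.liftOn' x (fun x => ((x * h.1 v : L.G v) : L.G v ⧸ U.U v)) (by
    intro a b hab
    rw [QuotientGroup.leftRel_apply] at hab
    rw [QuotientGroup.eq]
    have := H v _ hab
    rwa [show (h.1 v)⁻¹ * (a⁻¹ * b) * h.1 v = (a * h.1 v)⁻¹ * (b * h.1 v) by group] at this)

theorem xr_mk {h : L.GA} (H : Nrm h U' U) (v : ι) (x : L.G v) :
    xr H v (x : L.G v ⧸ U'.U v) = ((x * h.1 v : L.G v) : L.G v ⧸ U.U v) := rfl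

/-- right translation -/
def rmap {h : L.GA} (H : Nrm h U' U) (x : D U') : D U := ⟨fun v => xr H v (x v), by
  filter_upwards [x.2, h.2, U.eventually_eq] with v h1 h2 h3
  rw [h1]
  show ((1 * h.1 v : L.G v) : L.G v ⧸ U.U v) = ((1 : L.G v) : L.G v ⧸ U.U v)
  rw [QuotientGroup.eq, one_mul, mul_one, h3]
  exact inv_mem h2⟩

theorem rmap_apply {h : L.GA} (H : Nrm h U' U) (x : D U') (v : ι) : rmap H x v = xr H v (x v) := rfl

theorem rmap_smul {h : L.GA} (H : Nrm h U' U) (g : L.GA) (x : D U') :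
    rmap H (g • x) = g • rmap H x := by
  apply D.ext; intro v
  rw [rmap_apply, GA_smul_apply, GA_smul_apply, rmap_apply]
  generalize x v = y
  induction y using QuotientGroup.induction_on with
  | H y =>
    show ((g.1 v * y * h.1 v : L.G v) : L.G v ⧸ U.U v) = ((g.1 v * (y * h.1 v) : L.G v) : _)
    rw [mul_assoc]

theorem rmap_smul_GL {h : L.GA} (H : Nrm h U' U) (g : GL (Fin 2) F) (x : D U') :
    rmap H (g • x) = g • rmap H x := rmap_smul H _ x

theorem rmap_base {h : L.GA} (H : Nrm h U' U) : rmap H (D.base U') = h • D.base U := by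
  apply D.ext; intro v
  show ((1 * h.1 v : L.G v) : L.G v ⧸ U.U v) = ((h.1 v * 1 : L.G v) : L.G v ⧸ U.U v)
  rw [one_mul, mul_one]

theorem rmap_smul_base {h : L.GA} (H : Nrm h U' U) (g : L.GA) :
    rmap H (g • D.base U') = (g * h) • D.base U := by
  rw [rmap_smul, rmap_base, mul_smul]

theorem rmap_rmap {h h' : L.GA} (H : Nrm h U' U) (H' : Nrm h' U U'') (H'' : Nrm (h * h') U' U'')
    (x : D U') : rmap H' (rmap H x) = rmap H'' x := by
  obtain ⟨g, rfl, -⟩ := D.exists_eq_smul_base x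
  rw [rmap_smul_base, rmap_smul_base, rmap_smul_base, mul_assoc]

/-- translations by equivalent elements agree -/
theorem rmap_congr {h h' : L.GA} (H : Nrm h U' U) (H' : Nrm h' U' U)
    (e : h • D.base U = h' • D.base U) (x : D U') : rmap H x = rmap H' x := by
  obtain ⟨g, rfl, -⟩ := D.exists_eq_smul_base x
  rw [rmap_smul_base, rmap_smul_base, mul_smul, mul_smul, e]

theorem GA_smul_base_eq_iff {h h' : L.GA} : h • D.base U = h' • D.base U ↔
    ∀ v, (h.1 v)⁻¹ * h'.1 v ∈ U.U v := by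
  constructor
  · intro e v
    have : (h • D.base U) v = (h' • D.base U) v := by rw [e]
    change ((h.1 v * 1 : L.G v) : L.G v ⧸ U.U v) = ((h'.1 v * 1 : L.G v) : L.G v ⧸ U.U v) at this
    rw [QuotientGroup.eq, mul_one, mul_one] at this
    exact this
  · intro e
    apply D.ext; intro v
    show ((h.1 v * 1 : L.G v) : L.G v ⧸ U.U v) = ((h'.1 v * 1 : L.G v) : L.G v ⧸ U.U v)
    rw [QuotientGroup.eq, mul_one, mul_one]
    exact e v

end RMap

section Principal

variable {F : Type u} [Field F] {ι : Type i} (L : LocFam.{w} F ι)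

theorem PK_eq_PO_of_isUnit {v : ι} {N : ℕ} (h : ∃ y ∈ L.O v, (N : L.R v) * y = 1) :
    PK (L.O v) N = PO (L.O v) := by
  obtain ⟨y, hy, e⟩ := h
  refine le_antisymm (PK_le_PO _ _) ?_
  rintro g ⟨k, hk, rfl⟩
  refine ⟨k, ⟨hk, fun i j => ?_⟩, rfl⟩
  refine ⟨y * (k i j - (1 : Matrix (Fin 2) (Fin 2) (L.R v)) i j), (L.O v).mul_mem hy ?_, ?_⟩
  · refine (L.O v).sub_mem (hk.1 i j) ?_
    rw [Matrix.one_apply]; split_ifs; exacts [(L.O v).one_mem, (L.O v).zero_mem]
  · rw [← mul_assoc, e, one_mul]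

variable [CharZero F]

theorem eventually_natCast {N : ℕ} (hN : N ≠ 0) :
    ∀ᶠ v in cofinite, ∃ y ∈ L.O v, (N : L.R v) * y = 1 := by
  have hN' : (N : F) ≠ 0 := by exact_mod_cast hN
  filter_upwards [L.eventually_mem ((N : F)⁻¹)] with v hv
  refine ⟨_, hv, ?_⟩
  have : (N : L.R v) = L.loc v (N : F) := by simp
  rw [this, ← map_mul, mul_inv_cancel₀ hN', map_one]

/-- **the principal level** -/
def pL (N : ℕ) (hN : N ≠ 0) : L.Level where
  U v := PK (L.O v) N
  le v := PK_le_PO _ _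
  eventually_eq := by
    filter_upwards [eventually_natCast L hN] with v hv using PK_eq_PO_of_isUnit L hv
  deep v := ⟨N, hN, le_rfl⟩

omit [CharZero F] in
/-- every level contains a principal level -/
theorem exists_pL (U : L.Level) : ∃ N : ℕ, N ≠ 0 ∧ ∀ M : ℕ, N ∣ M → ∀ v, PK (L.O v) M ≤ U.U v := by
  classical
  choose n hn hU using U.deep
  obtain ⟨S, hS⟩ := exists_finset_compl U.eventually_eq
  refine ⟨∏ v ∈ S, n v, Finset.prod_ne_zero_iff.mpr fun v _ => hn v, fun M hM v => ?_⟩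
  by_cases hv : v ∈ S
  · exact (PK_mono ((Finset.dvd_prod_of_mem n hv).trans hM)).trans (hU v)
  · rw [hS v hv]; exact PK_le_PO _ _

variable {L}

omit [CharZero F] in
theorem nrm_one {U' U : L.Level} (h : ∀ v, U'.U v ≤ U.U v) : Nrm (1 : L.GA) U' U := by
  intro v u hu
  have : ((1 : L.GA).1 v)⁻¹ * u * (1 : L.GA).1 v = u := by
    show (1 : L.G v)⁻¹ * u * 1 = u
    group
  rw [this]
  exact h v hu

/-- integral elements normalise the principal levels -/
theorem nrm_pL {N : ℕ} (hN : N ≠ 0) {h : L.GA} (hh : ∀ v, h.1 v ∈ PO (L.O v)) :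
    Nrm h (pL L N hN) (pL L N hN) := by
  intro v u hu
  have := conj_mem_PK (inv_mem (hh v)) hu
  rwa [inv_inv] at this

end Principal

end Fermat.Agent.LT.Cls
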